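/-
Cluster G (S36), block W-P, leaf ARCH (helper51): valuation rings of algebraic extensions of `ℚ`
have rank one.  Mathlib only.

`K` a field of characteristic `0`, algebraic over `ℚ`, `A` a valuation ring of `K`, `q` a natural
number which is a non-unit of `A` (the residue characteristic), `ϖ ∈ K` with `|ϖ| < 1` and
`|ϖ ^ e| ≤ |q|` for some `e` (e.g. `ϖ ^ (q + 1) = q`).  Then

* `hpArch_int`  : every non-zero integer `y` has `|q| ^ m ≤ |y|` for some `m`;
* `hpArch_le`   : every `c ≠ 0` has `|y| ≤ |c|` for some non-zero integer `y`;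
* `hpArch`      : `∀ c ≠ 0, ∃ N, |ϖ ^ N| < |c|`  (the field `arch` of `DiscData` / `DiscLatData`).
-/
import Mathlib

set_option autoImplicit false

namespace Fermat.Agent.HPVal

variable {K : Type*} [Field K]

/-- integers are in every valuation ring. -/
theorem hpArch_intCast_le_one (A : ValuationSubring K) (y : ℤ) : A.valuation (y : K) ≤ 1 :=
  (A.valuation_le_one_iff _).mpr (intCast_mem A y)

/-- a natural number prime to `q` is a unit of `A` when `q` is a non-unit. -/
theorem hpArch_coprime_eq_one (A : ValuationSubring K) {q n : ℕ}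
    (hqA : (q : K) ∈ A.nonunits) (hn : Nat.Coprime n q) : A.valuation (n : K) = 1 := by
  have hle : A.valuation (n : K) ≤ 1 := by
    have := hpArch_intCast_le_one A (n : ℤ)
    rwa [Int.cast_natCast] at this
  refine le_antisymm hle ?_
  by_contra hlt
  rw [not_le] at hlt
  have hcop : IsCoprime (n : ℤ) (q : ℤ) := Nat.isCoprime_iff_coprime.mpr hn
  obtain ⟨a, b, hab⟩ := hcop
  have hK : (a : K) * (n : K) + (b : K) * (q : K) = 1 := by
    have := congrArg (Int.cast : ℤ → K) hab
    push_cast at this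
    exact this
  have h1 : A.valuation ((a : K) * (n : K)) < 1 := by
    rw [map_mul]
    calc A.valuation (a : K) * A.valuation (n : K) ≤ 1 * A.valuation (n : K) :=
          mul_le_mul_left (hpArch_intCast_le_one A a) _
      _ = A.valuation (n : K) := one_mul _
      _ < 1 := hlt
  have h2 : A.valuation ((b : K) * (q : K)) < 1 := by
    rw [map_mul]
    calc A.valuation (b : K) * A.valuation (q : K) ≤ 1 * A.valuation (q : K) :=
          mul_le_mul_left (hpArch_intCast_le_one A b) _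
      _ = A.valuation (q : K) := one_mul _
      _ < 1 := hqA
  have h3 := A.valuation.map_add ((a : K) * (n : K)) ((b : K) * (q : K))
  rw [hK, map_one] at h3
  exact absurd h3 (not_le.mpr (max_lt h1 h2))

/-- every non-zero natural number is `q ^ m` times a unit of `A`. -/
theorem hpArch_nat (A : ValuationSubring K) {q : ℕ} (hq : q.Prime)
    (hqA : (q : K) ∈ A.nonunits) {n : ℕ} (hn : n ≠ 0) :
    ∃ m : ℕ, A.valuation (n : K) = A.valuation (q : K) ^ m := by
  obtain ⟨m, n', hn', e⟩ := Nat.exists_eq_pow_mul_and_not_dvd hn q hq.ne_one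
  refine ⟨m, ?_⟩
  have hcop : Nat.Coprime n' q := ((Nat.Prime.coprime_iff_not_dvd hq).mpr hn').symm
  rw [e]
  push_cast
  rw [map_mul, map_pow, hpArch_coprime_eq_one A hqA hcop, mul_one]

theorem hpArch_int (A : ValuationSubring K) {q : ℕ} (hq : q.Prime)
    (hqA : (q : K) ∈ A.nonunits) {y : ℤ} (hy : y ≠ 0) :
    ∃ m : ℕ, A.valuation (y : K) = A.valuation (q : K) ^ m := by
  obtain ⟨m, hm⟩ := hpArch_nat A hq hqA (Int.natAbs_ne_zero.mpr hy)
  refine ⟨m, ?_⟩
  rw [← hm]
  rcases Int.natAbs_eq y with h | h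
  · conv_lhs => rw [h]
    simp
  · conv_lhs => rw [h]
    simp [Valuation.map_neg]

/-- every non-zero element of an algebraic extension of `ℚ` dominates a non-zero integer. -/
theorem hpArch_le [CharZero K] [Algebra.IsAlgebraic ℚ K] (A : ValuationSubring K) {c : K}
    (hc : c ≠ 0) : ∃ y : ℤ, y ≠ 0 ∧ A.valuation (y : K) ≤ A.valuation c := by
  have halgQ : IsAlgebraic ℚ c⁻¹ := Algebra.IsAlgebraic.isAlgebraic _
  have halg : IsAlgebraic ℤ c⁻¹ := (IsFractionRing.isAlgebraic_iff ℤ ℚ K).mpr halgQ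
  obtain ⟨y, hy, hint⟩ := halg.exists_integral_multiple
  refine ⟨y, hy, ?_⟩
  have hintA : IsIntegral A (y • c⁻¹) := hint.tower_top
  obtain ⟨a, ha⟩ := IsIntegrallyClosed.isIntegral_iff.mp hintA
  have hmem : y • c⁻¹ ∈ A := by
    rw [← ha]
    exact a.2
  have hle := (A.valuation_le_one_iff _).mpr hmem
  rw [zsmul_eq_mul, map_mul, map_inv₀] at hle
  have hvc : A.valuation c ≠ 0 := (Valuation.ne_zero_iff _).mpr hc
  have := mul_le_mul_left hle (A.valuation c)
  rwa [one_mul, mul_assoc, inv_mul_cancel₀ hvc, mul_one] at this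

/-- **rank one**: the powers of `ϖ` are cofinal. -/
theorem hpArch [CharZero K] [Algebra.IsAlgebraic ℚ K] (A : ValuationSubring K) {q : ℕ}
    (hq : q.Prime) (hqA : (q : K) ∈ A.nonunits) {ϖ : K} {e : ℕ}
    (hϖ1 : A.valuation ϖ < 1) (hϖe : A.valuation (ϖ ^ e) ≤ A.valuation (q : K)) :
    ∀ c : K, c ≠ 0 → ∃ N : ℕ, A.valuation (ϖ ^ N) < A.valuation c := by
  intro c hc
  have hvc : 0 < A.valuation c := zero_lt_iff.mpr ((Valuation.ne_zero_iff _).mpr hc)
  rcases eq_or_ne ϖ 0 with rfl | hϖ0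
  · exact ⟨1, by simpa using hvc⟩
  obtain ⟨y, hy, hyc⟩ := hpArch_le A hc
  obtain ⟨m, hm⟩ := hpArch_int A hq hqA hy
  refine ⟨e * m + 1, ?_⟩
  have h1 : A.valuation (ϖ ^ (e * m)) ≤ A.valuation c := by
    rw [pow_mul, map_pow]
    calc A.valuation (ϖ ^ e) ^ m ≤ A.valuation (q : K) ^ m := pow_le_pow_left₀ zero_le hϖe m
      _ = A.valuation (y : K) := hm.symm
      _ ≤ A.valuation c := hyc
  have hpos : 0 < A.valuation (ϖ ^ (e * m)) :=
    zero_lt_iff.mpr ((Valuation.ne_zero_iff _).mpr (pow_ne_zero _ hϖ0))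
  have h2 : A.valuation (ϖ ^ (e * m + 1)) < A.valuation (ϖ ^ (e * m)) := by
    rw [pow_succ, map_mul]
    exact mul_lt_of_lt_one_right hpos hϖ1
  exact h2.trans_le h1

end Fermat.Agent.HPVal
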