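/-
Cluster G (S36), block W-P (helper46).  Abstract: nothing modular.  CHEVALLEY: `exists_liesOverV`.

`B ⊆ F` a finite field extension of degree `q (q + 1)`, `O1` a valuation subring of `B`
(the disc valuation on the middle copy), `ϖ ^ (q + 1) = q`, `Y = y / ϖ ^ q ∈ O1`,
`Ψ = (X - y ^ q) (X ^ q - y) + q R` with `R` integral of degree `≤ q` (KC_t) and `R(0)` a unit
(REG_t), `x ≠ z` two roots of `Ψ` in `F`.  Then for every valuation subring `O` of `F` over `O1`:

* `W = x / ϖ`, `Zc = z / ϖ` are units of `O`;
* `W ^ (q + 1) - Y W + r₀ ∈ m_O`, the same for `Zc`, and `W Zc (W - Zc) ^ (q - 1) - r₀ ∈ m_O`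
  (the equation of the curve `H_P`).
-/
import Mathlib

import Fermat.Agent.Lib.BadRed.TwoExtExist
import Fermat.Agent.S27.Lift.ValAdapt


set_option autoImplicit false
set_option linter.unusedSectionVars false
set_option linter.unusedVariables false

noncomputable section

namespace Fermat.Agent.HPVal

open Polynomial Fermat.Agent.BadRed

variable {B F : Type*} [Field B] [Field F] [Algebra B F]

/-- **Chevalley**: every valuation subring of `B` extends to `F`. -/
theorem exists_liesOverV (Ov : ValuationSubring B) :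
    ∃ O : ValuationSubring F, LiesOverV Ov O := by
  classical
  have hinj : Function.Injective (algebraMap B F) := (algebraMap B F).injective
  let e : Ov.toSubring ≃+* Ov.toSubring.map (algebraMap B F) :=
    Subring.equivMapOfInjective Ov.toSubring (algebraMap B F) hinj
  let P : Ideal (Ov.toSubring.map (algebraMap B F)) :=
    (IsLocalRing.maximalIdeal Ov).map (e : Ov.toSubring →+* Ov.toSubring.map (algebraMap B F))
  have : P.IsPrime := Ideal.map_isPrime_of_equiv e
  obtain ⟨V, hSV, hP, -⟩ :=
    Fermat.Agent.S27.exists_valuationSubring_of_prime (Ov.toSubring.map (algebraMap B F)) P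
  refine ⟨V, liesOverV_of_le (fun x hx => ?_) (fun x hx => ?_)⟩
  · exact hSV (Subring.mem_map.mpr ⟨x, hx, rfl⟩)
  · have hxO : x ∈ Ov := by
      rw [ValuationSubring.mem_nonunits_iff] at hx
      exact (Ov.valuation_le_one_iff x).mp hx.le
    have h1 : (⟨x, hxO⟩ : Ov) ∈ IsLocalRing.maximalIdeal Ov :=
      (ValuationSubring.coe_mem_nonunits_iff (A := Ov) (a := ⟨x, hxO⟩)).mp hx
    have h2 : e ⟨x, hxO⟩ ∈ P := Ideal.mem_map_of_mem _ h1
    exact hP _ h2

end Fermat.Agent.HPVal
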