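/-
G wave (S36), W-P, seat LAT-TOWER (helper75): the LATTICE property of a tower.

`K ⊂ F0 --ι--> F`, `S0` a constant reduction of `F0 / K` with the lattice property, `S` a constant
reduction of `F / K` above `S0` (`ι (O₀) ⊂ O`, `red (ι f) = ιk (red₀ f)`), and `m₁, …, mₙ ∈ O`
generating `F` over `ι F0` whose reductions are linearly independent over `ιk (Fk0)`.
Then `S` has the lattice property (`hasLattice_of_tower`).

For `w_P`: `F0 = ι₁ FBar(M0)` with the disc valuation (DISC-LAT), `m_j` the monomials in `W`, `Zc`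
lifting a `k(Ȳ)`-basis of `k(H_P)`.
-/
import Mathlib
import Fermat.Agent.S27.GR.LatticeAbs

set_option autoImplicit false
set_option linter.style.haveILetI false
set_option linter.unusedSectionVars false
set_option linter.unusedVariables false

noncomputable section

namespace Fermat.Agent.HPVal

open Fermat.Agent.Deuring

variable {K F0 F k Fk0 Fk : Type*} [Field K] [Field F0] [Algebra K F0] [Field F] [Algebra K F]
  [Field k] [Field Fk0] [Algebra k Fk0] [Field Fk] [Algebra k Fk]

/-- the products `ι (e i) * m j` of an orthonormal family of `S0` with the generators are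
orthonormal for `S`. -/
theorem latTower_linearIndependent (S0 : ValSetup K F0 k Fk0) (S : ValSetup K F k Fk)
    (ι : F0 →+* F) (ιk : Fk0 →+* Fk)
    (hιk : ∀ c : k, ιk (algebraMap k Fk0 c) = algebraMap k Fk c)
    (hmem : ∀ f ∈ S0.Ov, ι f ∈ S.Ov) (hred : ∀ f ∈ S0.Ov, S.red (ι f) = ιk (S0.red f))
    {n : ℕ} (m : Fin n → F) (hm : ∀ j, m j ∈ S.Ov)
    (hli : ∀ c : Fin n → Fk0, ∑ j, ιk (c j) * S.red (m j) = 0 → ∀ j, c j = 0)
    {d : ℕ} (e : Fin d → F0) (he : ∀ i, e i ∈ S0.Ov)
    (heli : LinearIndependent k (fun i => S0.red (e i))) :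
    LinearIndependent k (fun p : Fin d × Fin n => S.red (ι (e p.1) * m p.2)) := by
  classical
  rw [Fintype.linearIndependent_iff]
  intro l hl p
  have hred' : ∀ p : Fin d × Fin n, S.red (ι (e p.1) * m p.2) =
      ιk (S0.red (e p.1)) * S.red (m p.2) := fun p => by
    rw [S.red_mul (hmem _ (he p.1)) (hm p.2), hred _ (he p.1)]
  have h1 : ∑ j, ιk (∑ i, l (i, j) • S0.red (e i)) * S.red (m j) = 0 := by
    rw [← hl, Fintype.sum_prod_type_right]
    refine Finset.sum_congr rfl fun j _ => ?_
    rw [map_sum, Finset.sum_mul]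
    refine Finset.sum_congr rfl fun i _ => ?_
    rw [hred' (i, j), Algebra.smul_def, Algebra.smul_def, map_mul, hιk, mul_assoc]
  have h2 := hli (fun j => ∑ i, l (i, j) • S0.red (e i)) h1 p.2
  exact (Fintype.linearIndependent_iff.mp heli) (fun i => l (i, p.2)) h2 p.1

/-- **the lattice property of a tower.** -/
theorem hasLattice_of_tower (S0 : ValSetup K F0 k Fk0) (S : ValSetup K F k Fk)
    (hL0 : HasLattice S0) (ι : F0 →+* F) (ιk : Fk0 →+* Fk)
    (hιK : ∀ c : K, ι (algebraMap K F0 c) = algebraMap K F c)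
    (hιk : ∀ c : k, ιk (algebraMap k Fk0 c) = algebraMap k Fk c)
    (hmem : ∀ f ∈ S0.Ov, ι f ∈ S.Ov) (hred : ∀ f ∈ S0.Ov, S.red (ι f) = ιk (S0.red f))
    {n : ℕ} (m : Fin n → F) (hm : ∀ j, m j ∈ S.Ov)
    (hgen : ∀ x : F, ∃ c : Fin n → F0, x = ∑ j, ι (c j) * m j)
    (hli : ∀ c : Fin n → Fk0, ∑ j, ιk (c j) * S.red (m j) = 0 → ∀ j, c j = 0) :
    HasLattice S := by
  classical
  apply Fermat.Agent.S27GR.hasLattice_of_cover
  intro t
  -- the coefficients of the elements of `t`
  have hc : ∀ x : F, ∃ c : Fin n → F0, x = ∑ j, ι (c j) * m j := hgen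
  choose c hcx using hc
  -- the span of all coefficients
  set W0 : Submodule K F0 :=
    Submodule.span K ((fun p : F × Fin n => c p.1 p.2) '' ((t : Set F) ×ˢ (Set.univ : Set (Fin n))))
    with hW0
  haveI : FiniteDimensional K W0 :=
    FiniteDimensional.span_of_finite K
      (Set.Finite.image _ (Set.Finite.prod t.finite_toSet Set.finite_univ))
  obtain ⟨d, e, heW, heO, hespan, heli⟩ := hL0 W0 inferInstance
  refine ⟨ULift (Fin d × Fin n), fun p => ι (e p.down.1) * m p.down.2, ?_, ?_, ?_⟩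
  · intro p
    exact mul_mem (hmem _ (heO p.down.1)) (hm p.down.2)
  · have h := latTower_linearIndependent S0 S ι ιk hιk hmem hred m hm hli e heO heli
    exact h.comp (fun p : ULift (Fin d × Fin n) => p.down) ULift.down_injective
  · intro f hf
    rw [hcx f]
    refine Submodule.sum_mem _ fun j _ => ?_
    -- `c f j ∈ W0 = span (e i)`
    have hcW : c f j ∈ W0 :=
      Submodule.subset_span ⟨(f, j), ⟨hf, Set.mem_univ j⟩, rfl⟩
    rw [← hespan] at hcW
    obtain ⟨μ, hμ⟩ := (Submodule.mem_span_range_iff_exists_fun K).mp hcW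
    rw [← hμ, map_sum, Finset.sum_mul]
    refine Submodule.sum_mem _ fun i _ => ?_
    have e1 : ι (μ i • e i) * m j = μ i • (ι (e i) * m j) := by
      rw [Algebra.smul_def, map_mul, hιK, Algebra.smul_def, mul_assoc]
    rw [e1]
    exact Submodule.smul_mem _ _ (Submodule.subset_span ⟨⟨(i, j)⟩, rfl⟩)

end Fermat.Agent.HPVal
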