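/-
G wave (S36), W-P, seat CORE-COVER (helper75; spec by helper59): a valuation ring with a full
residually independent family.

`E ⊂ F` finite of degree `n`, `Ov` a valuation ring of `E`, `O` a valuation ring of `F` over `Ov`
(`LiesOverV Ov O`), `x : κ → F` residually independent (`ResIndep Ov O x`) with `|κ| = n`.  Then

* (a) `ccov_linearIndependent`, `ccov_exists_repr` : `x` is an `E`-basis of `F`;
* (b) `ccov_sum_mem_iff`, `ccov_sum_mem_nonunits_iff`, `ccov_mem_iff` :
      `O = {Σ aᵢ xᵢ | aᵢ ∈ Ov}`, maximal ideal `= {Σ aᵢ xᵢ | aᵢ ∈ 𝔪(Ov)}`;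
* (c) `ccov_unique` : `O` is the ONLY valuation ring of `F` over `Ov` (fundamental inequality);
* (d) `ccov_scale` : `scale` for `O` from `scale` for `Ov`;
* (e) `ccov_res_indep`, `ccov_res_span` : the residues of the `xᵢ` are a basis of the residue
      field of `O` over the residue field of `Ov`;
* (f) `ccov_hasLattice` : a `ValSetup` on `F` with valuation ring `O` has the lattice property if
      the one of `E` has it (`hasLattice_of_tower`).
-/
import Mathlib
import Fermat.Agent.Lib.BadRed.FundIneq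
import Fermat.Agent.Lib.Deuring.RedSpace
import Fermat.Agent.Lib.BadRed.HPVal.LatTower

set_option autoImplicit false
set_option linter.style.haveILetI false
set_option linter.unusedSectionVars false
set_option linter.unusedVariables false

noncomputable section

namespace Fermat.Agent.HPVal

open Fermat.Agent.Deuring Fermat.Agent.BadRed

section Abstract

variable {E F : Type*} [Field E] [Field F] [Algebra E F]
  {Ov : ValuationSubring E} {O : ValuationSubring F} {κ : Type*} [Fintype κ] {x : κ → F}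

theorem ccov_one_not_mem_nonunits (A : ValuationSubring E) : (1 : E) ∉ A.nonunits := by
  rw [ValuationSubring.mem_nonunits_iff, map_one]
  exact lt_irrefl _

theorem ccov_nonunits_le (A : ValuationSubring E) {a : E} (h : a ∈ A.nonunits) : a ∈ A := by
  rw [ValuationSubring.mem_nonunits_iff] at h
  exact (A.valuation_le_one_iff a).mp h.le

theorem ccov_inv_mem_nonunits (A : ValuationSubring E) {a : E} (h : a ∉ A) :
    a⁻¹ ∈ A.nonunits := by
  rw [ValuationSubring.mem_nonunits_iff, map_inv₀]
  have h1 : 1 < A.valuation a := by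
    rw [← not_le, A.valuation_le_one_iff]
    exact h
  exact inv_lt_one_of_one_lt₀ h1

/-- a unit: in `A`, not in the maximal ideal, has its inverse in `A`. -/
theorem ccov_inv_mem (A : ValuationSubring E) {a : E} (h : a ∈ A) (hn : a ∉ A.nonunits) :
    a⁻¹ ∈ A := by
  rw [ValuationSubring.mem_nonunits_iff, not_lt] at hn
  have h1 : A.valuation a = 1 := le_antisymm ((A.valuation_le_one_iff a).mpr h) hn
  rw [← A.valuation_le_one_iff, map_inv₀, h1, inv_one]

/-- a combination with integral coefficients is integral. -/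
theorem ccov_sum_mem (hO : LiesOverV Ov O) (hx : ResIndep Ov O x) {a : κ → E}
    (ha : ∀ i, a i ∈ Ov) : ∑ i, algebraMap E F (a i) * x i ∈ O :=
  sum_mem fun i _ => mul_mem ((hO.mem_iff _).mpr (ha i)) (hx.1 i)

/-- the normalised combination. -/
theorem ccov_normalise (a : κ → E) (c : E) :
    ∑ i, algebraMap E F (a i * c) * x i = algebraMap E F c * ∑ i, algebraMap E F (a i) * x i := by
  rw [Finset.mul_sum]
  refine Finset.sum_congr rfl fun i _ => ?_
  rw [map_mul]
  ring

/-- **(b)** a combination is integral iff its coefficients are. -/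
theorem ccov_sum_mem_iff (hO : LiesOverV Ov O) (hx : ResIndep Ov O x) (a : κ → E) :
    ∑ i, algebraMap E F (a i) * x i ∈ O ↔ ∀ i, a i ∈ Ov := by
  classical
  refine ⟨fun hsum => ?_, fun ha => ccov_sum_mem hO hx ha⟩
  by_contra hcon
  push Not at hcon
  obtain ⟨j, hj⟩ := hcon
  have hj0 : a j ≠ 0 := by
    rintro h0
    exact hj (h0 ▸ zero_mem _)
  obtain ⟨i₀, hi₀, hall⟩ := exists_max_coeff Ov a ⟨j, hj0⟩
  have hi₀A : a i₀ ∉ Ov := by
    intro h
    apply hj
    have := mul_mem (hall j) h
    rwa [inv_mul_cancel_right₀ hi₀] at this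
  have hinv : algebraMap E F (a i₀)⁻¹ ∈ O.nonunits :=
    (hO.nonunits_iff _).mpr (ccov_inv_mem_nonunits Ov hi₀A)
  have hmem : ∑ i, algebraMap E F (a i * (a i₀)⁻¹) * x i ∈ O.nonunits := by
    rw [ccov_normalise]
    exact nonunits_mul_mem hinv hsum
  have := hx.2 (fun i => a i * (a i₀)⁻¹) hall hmem i₀
  rw [mul_inv_cancel₀ hi₀] at this
  exact ccov_one_not_mem_nonunits Ov this

/-- **(b)** a combination lies in the maximal ideal iff its coefficients do. -/
theorem ccov_sum_mem_nonunits_iff (hO : LiesOverV Ov O) (hx : ResIndep Ov O x) (a : κ → E) :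
    ∑ i, algebraMap E F (a i) * x i ∈ O.nonunits ↔ ∀ i, a i ∈ Ov.nonunits := by
  constructor
  · intro h
    have ha := (ccov_sum_mem_iff hO hx a).mp (ccov_nonunits_le O h)
    exact hx.2 a ha h
  · intro ha
    exact O.nonunits.sum_mem fun i _ =>
      nonunits_mul_mem ((hO.nonunits_iff _).mpr (ha i)) (hx.1 i)

/-- **(a)** a residually independent family is linearly independent. -/
theorem ccov_linearIndependent (hO : LiesOverV Ov O) (hx : ResIndep Ov O x) :
    LinearIndependent E x := by
  classical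
  rw [Fintype.linearIndependent_iff]
  intro a hsum
  by_contra hcon
  push Not at hcon
  obtain ⟨i₀, hi₀, hall⟩ := exists_max_coeff Ov a hcon
  have h0 : ∑ i, algebraMap E F (a i) * x i = 0 := by
    rw [← hsum]
    exact Finset.sum_congr rfl fun i _ => (Algebra.smul_def _ _).symm
  have hmem : ∑ i, algebraMap E F (a i * (a i₀)⁻¹) * x i ∈ O.nonunits := by
    rw [ccov_normalise, h0, mul_zero]
    exact O.nonunits.zero_mem
  have := hx.2 (fun i => a i * (a i₀)⁻¹) hall hmem i₀
  rw [mul_inv_cancel₀ hi₀] at this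
  exact ccov_one_not_mem_nonunits Ov this

/-- **(a)** a full residually independent family generates `F`. -/
theorem ccov_exists_repr [FiniteDimensional E F] (hO : LiesOverV Ov O) (hx : ResIndep Ov O x)
    (hcard : Fintype.card κ = Module.finrank E F) (f : F) :
    ∃ a : κ → E, f = ∑ i, algebraMap E F (a i) * x i := by
  have hli := ccov_linearIndependent hO hx
  have hspan : Submodule.span E (Set.range x) = ⊤ :=
    hli.span_eq_top_of_card_eq_finrank' hcard
  have hf : f ∈ Submodule.span E (Set.range x) := by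
    rw [hspan]
    exact Submodule.mem_top
  obtain ⟨a, ha⟩ := (Submodule.mem_span_range_iff_exists_fun E).mp hf
  refine ⟨a, ?_⟩
  rw [← ha]
  exact Finset.sum_congr rfl fun i _ => Algebra.smul_def _ _

/-- **(b)** `O = {Σ aᵢ xᵢ | aᵢ ∈ Ov}`. -/
theorem ccov_mem_iff [FiniteDimensional E F] (hO : LiesOverV Ov O) (hx : ResIndep Ov O x)
    (hcard : Fintype.card κ = Module.finrank E F) (f : F) :
    f ∈ O ↔ ∃ a : κ → E, (∀ i, a i ∈ Ov) ∧ f = ∑ i, algebraMap E F (a i) * x i := by
  constructor
  · intro hf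
    obtain ⟨a, ha⟩ := ccov_exists_repr hO hx hcard f
    refine ⟨a, ?_, ha⟩
    rw [ha] at hf
    exact (ccov_sum_mem_iff hO hx a).mp hf
  · rintro ⟨a, ha, rfl⟩
    exact ccov_sum_mem hO hx ha

/-- **(b)** the maximal ideal of `O`. -/
theorem ccov_mem_nonunits_iff [FiniteDimensional E F] (hO : LiesOverV Ov O)
    (hx : ResIndep Ov O x) (hcard : Fintype.card κ = Module.finrank E F) (f : F) :
    f ∈ O.nonunits ↔
      ∃ a : κ → E, (∀ i, a i ∈ Ov.nonunits) ∧ f = ∑ i, algebraMap E F (a i) * x i := by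
  constructor
  · intro hf
    obtain ⟨a, ha⟩ := ccov_exists_repr hO hx hcard f
    refine ⟨a, ?_, ha⟩
    rw [ha] at hf
    exact (ccov_sum_mem_nonunits_iff hO hx a).mp hf
  · rintro ⟨a, ha, rfl⟩
    exact (ccov_sum_mem_nonunits_iff hO hx a).mpr ha

theorem ccov_not_mem_nonunits_of_inv_mem (A : ValuationSubring E) {a : E} (ha0 : a ≠ 0)
    (hinv : a⁻¹ ∈ A) : a ∉ A.nonunits := by
  intro h
  rw [ValuationSubring.mem_nonunits_iff] at h
  have h1 : A.valuation a⁻¹ ≤ 1 := (A.valuation_le_one_iff _).mpr hinv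
  have h2 : A.valuation a * A.valuation a⁻¹ = 1 := by
    rw [← map_mul, mul_inv_cancel₀ ha0, map_one]
  have h3 : A.valuation a * A.valuation a⁻¹ < 1 := by
    calc A.valuation a * A.valuation a⁻¹ ≤ A.valuation a * 1 := mul_le_mul_right h1 _
      _ = A.valuation a := mul_one _
      _ < 1 := h
  rw [h2] at h3
  exact lt_irrefl _ h3

/-! ### (c) uniqueness -/

/-- **(c)** `O` is the only valuation ring of `F` over `Ov` (fundamental inequality).  `c` is a
sequence of elements of `Ov` with pairwise distinct residues. -/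
theorem ccov_unique [FiniteDimensional E F] (hO : LiesOverV Ov O) (hx : ResIndep Ov O x)
    (hcard : Fintype.card κ = Module.finrank E F)
    (c : ℕ → E) (hc : ∀ m, c m ∈ Ov) (hcu : ∀ m m', m ≠ m' → c m - c m' ∉ Ov.nonunits)
    {O' : ValuationSubring F} (hO' : LiesOverV Ov O') : O' = O := by
  classical
  by_contra hne
  let Os : Bool → ValuationSubring F := fun b => cond b O O'
  have hover : ∀ b, LiesOverV Ov (Os b) := by
    intro b
    cases b
    · exact hO'
    · exact hO
  have hinj : Function.Injective Os := by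
    intro b b' h
    cases b <;> cases b'
    · rfl
    · exact absurd h hne
    · exact absurd h.symm hne
    · rfl
  let κs : Bool → Type _ := fun b => cond b κ PUnit
  letI inst : ∀ b, Fintype (κs b) := by
    intro b
    cases b
    · exact (inferInstance : Fintype PUnit)
    · exact (inferInstance : Fintype κ)
  let xs : (b : Bool) → κs b → F := fun b =>
    match b with
    | true => x
    | false => fun _ => 1
  have hxs : ∀ b, ResIndep Ov (Os b) (xs b) := by
    intro b
    cases b
    · refine ⟨fun _ => O'.one_mem, fun a ha hsum l => ?_⟩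
      have e : ∑ l : PUnit, algebraMap E F (a l) * (1 : F) = algebraMap E F (a PUnit.unit) := by
        rw [Fintype.sum_unique, mul_one]
      have hsum' : algebraMap E F (a PUnit.unit) ∈ O'.nonunits := by
        rw [← e]
        exact hsum
      exact (hO'.nonunits_iff _).mp hsum'
    · exact hx
  have h := sum_card_le_finrank Ov Os hover hinj c hc hcu κs xs hxs
  rw [Fintype.sum_bool] at h
  have h1 : @Fintype.card (κs true) (inst true) = Fintype.card κ :=
    Fintype.card_congr (Equiv.refl _)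
  have h2 : @Fintype.card (κs false) (inst false) = 1 := by
    have : @Fintype.card (κs false) (inst false) = Fintype.card PUnit :=
      Fintype.card_congr (Equiv.refl _)
    rw [this, Fintype.card_punit]
  rw [h1, h2, hcard] at h
  omega

end Abstract

/-! ### (d), (e), (f): constant reductions -/

section Setup

variable {K E F k κ1 Fk : Type*} [Field K] [Field E] [Field F] [Algebra K E] [Algebra K F]
  [Algebra E F] [IsScalarTower K E F] [Field k] [Field κ1] [Algebra k κ1] [Field Fk]
  [Algebra k Fk] {κ : Type*} [Fintype κ] {x : κ → F}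

/-- **(d)** `scale` for `O` from `scale` for `S1`. -/
theorem ccov_scale [FiniteDimensional E F] (S1 : ValSetup K E k κ1) {O : ValuationSubring F}
    (hO : LiesOverV S1.Ov O) (hx : ResIndep S1.Ov O x)
    (hcard : Fintype.card κ = Module.finrank E F) (f : F) (hf : f ≠ 0) :
    ∃ c : K, c ≠ 0 ∧ f * (algebraMap K F c)⁻¹ ∈ O ∧ (f * (algebraMap K F c)⁻¹)⁻¹ ∈ O := by
  classical
  obtain ⟨a, ha⟩ := ccov_exists_repr hO hx hcard f
  have hne : ∃ i, a i ≠ 0 := by
    by_contra hcon
    push Not at hcon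
    apply hf
    rw [ha]
    exact Finset.sum_eq_zero fun i _ => by rw [hcon i, map_zero, zero_mul]
  obtain ⟨i₀, hi₀, hall⟩ := exists_max_coeff S1.Ov a hne
  obtain ⟨c, hc, h1, h2⟩ := S1.scale (a i₀) hi₀
  have hcE : algebraMap K E c ≠ 0 := (_root_.map_ne_zero _).mpr hc
  have hcF : algebraMap K F c ≠ 0 := (_root_.map_ne_zero _).mpr hc
  have hb : ∀ i, a i * (algebraMap K E c)⁻¹ ∈ S1.Ov := by
    intro i
    have e : a i * (algebraMap K E c)⁻¹ = (a i * (a i₀)⁻¹) * (a i₀ * (algebraMap K E c)⁻¹) := by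
      rw [mul_assoc, inv_mul_cancel_left₀ hi₀]
    rw [e]
    exact mul_mem (hall i) h1
  have e : f * (algebraMap K F c)⁻¹ =
      ∑ i, algebraMap E F (a i * (algebraMap K E c)⁻¹) * x i := by
    rw [ccov_normalise, ← ha, map_inv₀, ← IsScalarTower.algebraMap_apply, mul_comm]
  have hmem : f * (algebraMap K F c)⁻¹ ∈ O := by
    rw [e]
    exact ccov_sum_mem hO hx hb
  refine ⟨c, hc, hmem, ccov_inv_mem O hmem ?_⟩
  rw [e]
  intro hnon
  have h3 := (ccov_sum_mem_nonunits_iff hO hx _).mp hnon i₀
  exact ccov_not_mem_nonunits_of_inv_mem S1.Ov (mul_ne_zero hi₀ (inv_ne_zero hcE)) h2 h3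

/-- **(e)** the residues of the `xᵢ` are independent over the residue field of `Ov`. -/
theorem ccov_res_indep {Ov : ValuationSubring E} {O : ValuationSubring F}
    (hO : LiesOverV Ov O) (hx : ResIndep Ov O x) (ρ : O →+* Fk)
    (hρ : ∀ f : O, ρ f = 0 ↔ (f : F) ∈ O.nonunits) (a : κ → E) (ha : ∀ i, a i ∈ Ov)
    (h : ρ ⟨∑ i, algebraMap E F (a i) * x i, ccov_sum_mem hO hx ha⟩ = 0) :
    ∀ i, a i ∈ Ov.nonunits :=
  hx.2 a ha ((hρ _).mp h)

/-- **(e)** the residues of the `xᵢ` generate the residue field of `O` over the one of `Ov`. -/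
theorem ccov_res_span [FiniteDimensional E F] {Ov : ValuationSubring E}
    {O : ValuationSubring F} (hO : LiesOverV Ov O) (hx : ResIndep Ov O x)
    (hcard : Fintype.card κ = Module.finrank E F) (ρ : O →+* Fk)
    (hsurj : Function.Surjective ρ) (y : Fk) :
    ∃ (a : κ → E) (ha : ∀ i, a i ∈ Ov),
      ρ ⟨∑ i, algebraMap E F (a i) * x i, ccov_sum_mem hO hx ha⟩ = y := by
  obtain ⟨⟨f, hf⟩, rfl⟩ := hsurj y
  obtain ⟨a, ha, hfa⟩ := (ccov_mem_iff hO hx hcard f).mp hf
  refine ⟨a, ha, ?_⟩
  congr 1
  exact Subtype.ext hfa.symm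

/-- a sequence of constants with pairwise distinct residues. -/
theorem ccov_exists_seq [Infinite k] (S1 : ValSetup K E k κ1) :
    ∃ c : ℕ → E, (∀ m, c m ∈ S1.Ov) ∧ ∀ m m', m ≠ m' → c m - c m' ∉ S1.Ov.nonunits := by
  have hs : ∀ m : ℕ, ∃ a : S1.A, S1.res a = Infinite.natEmbedding k m :=
    fun m => S1.res_surj _
  choose a ha using hs
  refine ⟨fun m => algebraMap K E (a m : K), fun m => S1.algebraMap_mem (a m).2, ?_⟩
  intro m m' hmm
  have hmem : ((a m : K) - (a m' : K)) ∈ S1.A := sub_mem (a m).2 (a m').2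
  have e : algebraMap K E (a m : K) - algebraMap K E (a m' : K) =
      algebraMap K E ((a m : K) - (a m' : K)) := (map_sub _ _ _).symm
  have hres : S1.res ⟨(a m : K) - (a m' : K), hmem⟩ ≠ 0 := by
    have e2 : (⟨(a m : K) - (a m' : K), hmem⟩ : S1.A) = a m - a m' := rfl
    rw [e2, map_sub, ha, ha, sub_ne_zero]
    exact fun h => hmm ((Infinite.natEmbedding k).injective h)
  have hred : S1.red (algebraMap K E ((a m : K) - (a m' : K))) ≠ 0 := by
    rw [S1.red_algebraMap hmem]
    exact (_root_.map_ne_zero _).mpr hres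
  show algebraMap K E (a m : K) - algebraMap K E (a m' : K) ∉ S1.Ov.nonunits
  rw [e]
  exact ccov_not_mem_nonunits_of_inv_mem S1.Ov (S1.ne_zero_of_red_ne_zero hred)
    (S1.inv_mem_of_red_ne_zero hred)

/-- **(c)** uniqueness, for a constant reduction with infinite residue field of constants. -/
theorem ccov_unique_setup [Infinite k] [FiniteDimensional E F] (S1 : ValSetup K E k κ1)
    {O : ValuationSubring F} (hO : LiesOverV S1.Ov O) (hx : ResIndep S1.Ov O x)
    (hcard : Fintype.card κ = Module.finrank E F) {O' : ValuationSubring F}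
    (hO' : LiesOverV S1.Ov O') : O' = O := by
  obtain ⟨c, hc, hcu⟩ := ccov_exists_seq S1
  exact ccov_unique hO hx hcard c hc hcu hO'

/-- the reduction of a finite sum of integral elements. -/
theorem ccov_red_sum (S : ValSetup K F k Fk) {ι : Type*} (s : Finset ι) (f : ι → F)
    (hf : ∀ i, f i ∈ S.Ov) : S.red (∑ i ∈ s, f i) = ∑ i ∈ s, S.red (f i) := by
  classical
  induction s using Finset.induction_on with
  | empty => simp [S.red_zero]
  | insert a s ha ih =>
    rw [Finset.sum_insert ha, Finset.sum_insert ha,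
      S.red_add (hf a) (sum_mem fun i _ => hf i), ih]

/-- an integral element with reduction `0` lies in the maximal ideal. -/
theorem ccov_mem_nonunits_of_red (S : ValSetup K F k Fk) {f : F} (hf : f ∈ S.Ov)
    (h : S.red f = 0) : f ∈ S.Ov.nonunits := by
  by_cases hf0 : f = 0
  · rw [hf0]
    exact S.Ov.nonunits.zero_mem
  have hinv : f⁻¹ ∉ S.Ov := (S.red_eq_zero_iff hf hf0).mp h
  have := ccov_inv_mem_nonunits S.Ov hinv
  rwa [inv_inv] at this

/-- an element of the maximal ideal has reduction `0`. -/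
theorem ccov_red_of_mem_nonunits (S : ValSetup K F k Fk) {f : F} (h : f ∈ S.Ov.nonunits) :
    S.red f = 0 := by
  by_cases hf0 : f = 0
  · rw [hf0, S.red_zero]
  have hf : f ∈ S.Ov := ccov_nonunits_le S.Ov h
  rw [S.red_eq_zero_iff hf hf0]
  exact fun hinv => ccov_not_mem_nonunits_of_inv_mem S.Ov hf0 hinv h

/-- the residue field embedding `κ1 → Fk` induced by `O₁ ⊂ O`. -/
theorem ccov_exists_resHom (S1 : ValSetup K E k κ1) (S : ValSetup K F k Fk)
    (hO : LiesOverV S1.Ov S.Ov)
    (hres : ∀ (c : K) (h1 : c ∈ S1.A) (h : c ∈ S.A), S1.res ⟨c, h1⟩ = S.res ⟨c, h⟩) :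
    ∃ ιk : κ1 →+* Fk, (∀ f ∈ S1.Ov, S.red (algebraMap E F f) = ιk (S1.red f)) ∧
      ∀ c : k, ιk (algebraMap k κ1 c) = algebraMap k Fk c := by
  classical
  let g : S1.Ov →+* Fk :=
    { toFun := fun a => S.red (algebraMap E F (a : E))
      map_one' := by
        show S.red (algebraMap E F (1 : E)) = 1
        rw [map_one, S.red_one]
      map_mul' := fun a b => by
        show S.red (algebraMap E F ((a : E) * (b : E))) = _
        rw [map_mul, S.red_mul ((hO.mem_iff _).mpr a.2) ((hO.mem_iff _).mpr b.2)]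
      map_zero' := by
        show S.red (algebraMap E F (0 : E)) = 0
        rw [map_zero, S.red_zero]
      map_add' := fun a b => by
        show S.red (algebraMap E F ((a : E) + (b : E))) = _
        rw [map_add, S.red_add ((hO.mem_iff _).mpr a.2) ((hO.mem_iff _).mpr b.2)] }
  have hker : RingHom.ker S1.ρ ≤ RingHom.ker g := by
    intro a ha
    rw [RingHom.mem_ker] at ha ⊢
    show S.red (algebraMap E F (a : E)) = 0
    have h1 : S1.red (a : E) = 0 := by
      rw [S1.red_of_mem a.2]
      exact ha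
    have h2 : (a : E) ∈ S1.Ov.nonunits := ccov_mem_nonunits_of_red S1 a.2 h1
    exact ccov_red_of_mem_nonunits S ((hO.nonunits_iff _).mpr h2)
  let ιk : κ1 →+* Fk := S1.ρ.liftOfSurjective S1.ρ_surj ⟨g, hker⟩
  have hιk_apply : ∀ a : S1.Ov, ιk (S1.ρ a) = g a := fun a =>
    RingHom.liftOfRightInverse_comp_apply _ _ _ _ a
  have hred : ∀ f ∈ S1.Ov, S.red (algebraMap E F f) = ιk (S1.red f) := by
    intro f hf
    rw [S1.red_of_mem hf, hιk_apply]
    rfl
  refine ⟨ιk, hred, fun c => ?_⟩
  obtain ⟨⟨a, ha⟩, rfl⟩ := S1.res_surj c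
  have haE : algebraMap K E a ∈ S1.Ov := S1.algebraMap_mem ha
  have haS : a ∈ S.A := by
    rw [← S.mem_Ov_iff, IsScalarTower.algebraMap_apply K E F, hO.mem_iff]
    exact haE
  rw [← S1.red_algebraMap ha, ← hred _ haE, ← IsScalarTower.algebraMap_apply,
    S.red_algebraMap haS, hres a ha haS]

/-- **(f)** the lattice property of `S` from the one of `S1`. -/
theorem ccov_hasLattice [FiniteDimensional E F] (S1 : ValSetup K E k κ1) (hL1 : HasLattice S1)
    (S : ValSetup K F k Fk) (hO : LiesOverV S1.Ov S.Ov)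
    (hres : ∀ (c : K) (h1 : c ∈ S1.A) (h : c ∈ S.A), S1.res ⟨c, h1⟩ = S.res ⟨c, h⟩)
    (hx : ResIndep S1.Ov S.Ov x) (hcard : Fintype.card κ = Module.finrank E F) :
    HasLattice S := by
  classical
  obtain ⟨ιk, hred, hιk⟩ := ccov_exists_resHom S1 S hO hres
  let e : Fin (Fintype.card κ) ≃ κ := (Fintype.equivFin κ).symm
  refine hasLattice_of_tower S1 S hL1 (algebraMap E F) ιk
    (fun c => (IsScalarTower.algebraMap_apply K E F c).symm) hιk
    (fun f hf => (hO.mem_iff _).mpr hf) hred (fun j => x (e j)) (fun j => hx.1 _) ?_ ?_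
  · intro f
    obtain ⟨a, ha⟩ := ccov_exists_repr hO hx hcard f
    refine ⟨fun j => a (e j), ?_⟩
    rw [ha]
    exact (Equiv.sum_comp e (fun i => algebraMap E F (a i) * x i)).symm
  · intro c hc j
    have hlift : ∀ j, ∃ a : S1.Ov, S1.ρ a = c j := fun j => S1.ρ_surj (c j)
    choose a ha using hlift
    have ha' : ∀ i : κ, ((a (e.symm i) : S1.Ov) : E) ∈ S1.Ov := fun i => (a (e.symm i)).2
    have hterm : ∀ i : κ, algebraMap E F ((a (e.symm i) : S1.Ov) : E) * x i ∈ S.Ov :=
      fun i => mul_mem ((hO.mem_iff _).mpr (ha' i)) (hx.1 i)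
    have hred0 : S.red (∑ i, algebraMap E F ((a (e.symm i) : S1.Ov) : E) * x i) = 0 := by
      rw [ccov_red_sum S _ _ hterm, ← hc, ← Equiv.sum_comp e]
      refine Finset.sum_congr rfl fun j _ => ?_
      rw [S.red_mul ((hO.mem_iff _).mpr (ha' _)) (hx.1 _), hred _ (ha' _), Equiv.symm_apply_apply,
        S1.red_of_mem (a j).2, ha j]
    have hnon := ccov_mem_nonunits_of_red S (sum_mem fun i _ => hterm i) hred0
    have h1 := hx.2 (fun i => ((a (e.symm i) : S1.Ov) : E)) ha' hnon (e j)
    rw [Equiv.symm_apply_apply] at h1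
    have h2 := ccov_red_of_mem_nonunits S1 h1
    rw [S1.red_of_mem (a j).2, ha j] at h2
    exact h2

end Setup

end Fermat.Agent.HPVal
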