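/-
Cluster G (S36), W-P, seat CORE-NP (helper94): the residues of the two roots `W ≠ Z` of the scaled
Kronecker polynomial.  Abstract, Mathlib + `Lib/BadRed/FundIneq` + `Lib/HP/OfAdjoin` only.

Setting: fields `E ⊂ F`, a valuation ring `O1` of `E` with residue map `ρ1 : O1 → κ`, a valuation
ring `O` of `F` over `O1` with residue map `ρ : O → Fk`, `j : κ → Fk` the induced map of residue
fields; `Ps ∈ O1[T]` monic with reduction `T^(q+1) - y T + c`, `c ≠ 0`, `q` prime, `q = 0` in `κ`;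
`W ≠ Z` in `F` two roots of `Ps`.  Then (`Wb = ρ W`, `Zb = ρ Z`):

* `CnpHyp.W_mem`, `W_inv_mem`       : `W` (and `Z`, by `CnpHyp.symm`) is a unit of `O`;
* `CnpHyp.res_eq`                   : `Wb^(q+1) - y Wb + c = 0`;
* `CnpHyp.res_ne`                   : `Wb ≠ Zb`;
* `CnpHyp.res_y`                    : `y = Wb^q + c / Wb`;
* `CnpHyp.res_rel`                  : `Wb Zb (Wb - Zb)^(q-1) = c`   (the equation of `H_P`);
* `CnpHyp.linearIndependent_res`    : if `κ = k(y)`, `k` algebraically closed, `y` transcendental,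
                                      `c ∈ k`: the `q (q+1)` monomials `Wb^i Zb^j` (`i ≤ q`,
                                      `j ≤ q - 1`) are linearly independent over `κ`;
* `CnpHyp.resIndep`                 : hence the monomials `W^i Z^j` are `ResIndep O1 O`;
* `CnpHyp.exists_resIndep_fin`      : the same family indexed by `Fin n`, `n = q (q+1)`.
-/
import Mathlib
import Fermat.Agent.Lib.BadRed.FundIneq
import Fermat.Agent.Lib.HP.OfAdjoin

set_option autoImplicit false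
set_option linter.unusedSectionVars false
set_option linter.unusedVariables false
set_option linter.style.haveILetI false

noncomputable section

namespace Fermat.Agent.HPVal

open Polynomial IntermediateField Fermat.Agent.BadRed

variable {E F : Type*} [Field E] [Field F] [Algebra E F]
variable {κ Fk : Type*} [Field κ] [Field Fk]

/-- the inclusion `O1 → O` of a valuation ring into a valuation ring lying over it. -/
def cnpIncl {O1 : ValuationSubring E} {O : ValuationSubring F} (h : LiesOverV O1 O) :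
    O1 →+* O where
  toFun a := ⟨algebraMap E F (a : E), (h.mem_iff _).mpr a.2⟩
  map_one' := by apply Subtype.ext; simp
  map_mul' a b := by apply Subtype.ext; simp
  map_zero' := by apply Subtype.ext; simp
  map_add' a b := by apply Subtype.ext; simp

@[simp] theorem cnpIncl_coe {O1 : ValuationSubring E} {O : ValuationSubring F}
    (h : LiesOverV O1 O) (a : O1) : ((cnpIncl h a : O) : F) = algebraMap E F (a : E) := rfl

theorem cnp_subtype_comp_incl {O1 : ValuationSubring E} {O : ValuationSubring F}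
    (h : LiesOverV O1 O) :
    (O.subtype).comp (cnpIncl h) = (algebraMap E F).comp O1.subtype := by
  ext a; rfl

/-- **hypotheses of CORE-NP.** -/
structure CnpHyp (O1 : ValuationSubring E) (O : ValuationSubring F) (ρ1 : O1 →+* κ)
    (ρ : O →+* Fk) (j : κ →+* Fk) (q : ℕ) (Ps : Polynomial O1) (y c : κ) (W Z : F) : Prop where
  /-- `O` lies over `O1` -/
  liesOver : LiesOverV O1 O
  /-- the kernel of `ρ1` consists of non-units -/
  ρ1_ker : ∀ a : O1, ρ1 a = 0 → ¬ IsUnit a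
  /-- `ρ` kills the non-units -/
  ρ_ker : ∀ f : O, ¬ IsUnit f → ρ f = 0
  /-- `j` is the induced map of residue fields -/
  comp : ∀ (a : O1) (h : algebraMap E F (a : E) ∈ O), ρ ⟨algebraMap E F (a : E), h⟩ = j (ρ1 a)
  /-- `q` is prime -/
  prime : q.Prime
  /-- the residue characteristic is `q` -/
  char : (q : κ) = 0
  /-- `Ps` is monic -/
  monic : Ps.Monic
  /-- the reduction of `Ps` -/
  red : Ps.map ρ1 = X ^ (q + 1) - C y * X + C c
  c_ne : c ≠ 0
  ne : W ≠ Z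
  rootW : eval₂ ((algebraMap E F).comp O1.subtype) W Ps = 0
  rootZ : eval₂ ((algebraMap E F).comp O1.subtype) Z Ps = 0

namespace CnpHyp

variable {O1 : ValuationSubring E} {O : ValuationSubring F} {ρ1 : O1 →+* κ}
  {ρ : O →+* Fk} {j : κ →+* Fk} {q : ℕ} {Ps : Polynomial O1} {y c : κ} {W Z : F}

/-- the hypotheses are symmetric in the two roots. -/
theorem symm (h : CnpHyp O1 O ρ1 ρ j q Ps y c W Z) : CnpHyp O1 O ρ1 ρ j q Ps y c Z W :=
  { h with ne := h.ne.symm, rootW := h.rootZ, rootZ := h.rootW }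

/-- `ρ ∘ incl = j ∘ ρ1`. -/
theorem comp_eq (h : CnpHyp O1 O ρ1 ρ j q Ps y c W Z) :
    ρ.comp (cnpIncl h.liesOver) = j.comp ρ1 := by
  ext a
  exact h.comp a _

/-- the polynomial `Ps` over `O`. -/
def pO (h : CnpHyp O1 O ρ1 ρ j q Ps y c W Z) : Polynomial O := Ps.map (cnpIncl h.liesOver)

theorem pO_monic (h : CnpHyp O1 O ρ1 ρ j q Ps y c W Z) : h.pO.Monic := h.monic.map _

/-- the reduction of `Ps` in `Fk[T]`. -/
theorem pO_map (h : CnpHyp O1 O ρ1 ρ j q Ps y c W Z) :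
    h.pO.map ρ = X ^ (q + 1) - C (j y) * X + C (j c) := by
  unfold pO
  rw [Polynomial.map_map, h.comp_eq, ← Polynomial.map_map, h.red]
  simp

theorem eval₂_pO (h : CnpHyp O1 O ρ1 ρ j q Ps y c W Z) (x : F) :
    eval₂ O.subtype x h.pO = eval₂ ((algebraMap E F).comp O1.subtype) x Ps := by
  unfold pO
  rw [Polynomial.eval₂_map, cnp_subtype_comp_incl]

/-- `W` is integral over `O`, hence lies in `O`. -/
theorem W_mem (h : CnpHyp O1 O ρ1 ρ j q Ps y c W Z) : W ∈ O := by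
  have hint : IsIntegral O W := ⟨h.pO, h.pO_monic, by
    have := h.eval₂_pO W
    rw [h.rootW] at this
    exact this⟩
  obtain ⟨w, hw⟩ := (IsIntegrallyClosed.isIntegral_iff (R := O) (K := F)).mp hint
  rw [← hw]
  exact w.2

theorem Z_mem (h : CnpHyp O1 O ρ1 ρ j q Ps y c W Z) : Z ∈ O := h.symm.W_mem

/-- `W` as an element of `O`. -/
def Wo (h : CnpHyp O1 O ρ1 ρ j q Ps y c W Z) : O := ⟨W, h.W_mem⟩

/-- `Z` as an element of `O`. -/
def Zo (h : CnpHyp O1 O ρ1 ρ j q Ps y c W Z) : O := ⟨Z, h.Z_mem⟩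

@[simp] theorem Wo_coe (h : CnpHyp O1 O ρ1 ρ j q Ps y c W Z) : (h.Wo : F) = W := rfl
@[simp] theorem Zo_coe (h : CnpHyp O1 O ρ1 ρ j q Ps y c W Z) : (h.Zo : F) = Z := rfl

theorem Zo_symm (h : CnpHyp O1 O ρ1 ρ j q Ps y c W Z) : h.symm.Wo = h.Zo := rfl
theorem Wo_symm (h : CnpHyp O1 O ρ1 ρ j q Ps y c W Z) : h.symm.Zo = h.Wo := rfl

theorem Wo_ne_Zo (h : CnpHyp O1 O ρ1 ρ j q Ps y c W Z) : h.Wo ≠ h.Zo := fun e =>
  h.ne (congrArg Subtype.val e)

theorem isRoot_Wo (h : CnpHyp O1 O ρ1 ρ j q Ps y c W Z) : h.pO.IsRoot h.Wo := by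
  rw [IsRoot.def]
  apply Subtype.val_injective
  have h1 : O.subtype (eval h.Wo h.pO) = eval₂ O.subtype (O.subtype h.Wo) h.pO := by
    rw [← Polynomial.eval₂_at_apply]
  have h2 : (O.subtype h.Wo) = W := rfl
  rw [h2, h.eval₂_pO, h.rootW] at h1
  exact h1

theorem isRoot_Zo (h : CnpHyp O1 O ρ1 ρ j q Ps y c W Z) : h.pO.IsRoot h.Zo := h.symm.isRoot_Wo

/-- the residue of `W`. -/
def Wb (h : CnpHyp O1 O ρ1 ρ j q Ps y c W Z) : Fk := ρ h.Wo

/-- the residue of `Z`. -/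
def Zb (h : CnpHyp O1 O ρ1 ρ j q Ps y c W Z) : Fk := ρ h.Zo

theorem Wb_symm (h : CnpHyp O1 O ρ1 ρ j q Ps y c W Z) : h.symm.Wb = h.Zb := rfl
theorem Zb_symm (h : CnpHyp O1 O ρ1 ρ j q Ps y c W Z) : h.symm.Zb = h.Wb := rfl

/-- the reduced polynomial. -/
def Pb (j : κ →+* Fk) (q : ℕ) (y c : κ) : Polynomial Fk := X ^ (q + 1) - C (j y) * X + C (j c)

theorem eval_Pb (x : Fk) : eval x (Pb j q y c) = x ^ (q + 1) - j y * x + j c := by
  simp [Pb]

/-- **the residue equation**: `Wb^(q+1) - y Wb + c = 0`. -/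
theorem res_eq (h : CnpHyp O1 O ρ1 ρ j q Ps y c W Z) :
    h.Wb ^ (q + 1) - j y * h.Wb + j c = 0 := by
  have h1 : eval (ρ h.Wo) (h.pO.map ρ) = ρ (eval h.Wo h.pO) := by
    rw [Polynomial.eval_map, Polynomial.eval₂_at_apply]
  rw [h.isRoot_Wo, map_zero, h.pO_map] at h1
  simpa [Wb] using h1

theorem res_eq' (h : CnpHyp O1 O ρ1 ρ j q Ps y c W Z) :
    h.Zb ^ (q + 1) - j y * h.Zb + j c = 0 := h.symm.res_eq

theorem jc_ne (h : CnpHyp O1 O ρ1 ρ j q Ps y c W Z) : j c ≠ 0 := by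
  rw [Ne, map_eq_zero]
  exact h.c_ne

theorem Wb_ne_zero (h : CnpHyp O1 O ρ1 ρ j q Ps y c W Z) : h.Wb ≠ 0 := by
  intro h0
  have := h.res_eq
  rw [h0] at this
  simp at this
  exact h.c_ne this

theorem Zb_ne_zero (h : CnpHyp O1 O ρ1 ρ j q Ps y c W Z) : h.Zb ≠ 0 := h.symm.Wb_ne_zero

/-- `W` is a unit of `O`. -/
theorem isUnit_Wo (h : CnpHyp O1 O ρ1 ρ j q Ps y c W Z) : IsUnit h.Wo := by
  by_contra hu
  exact h.Wb_ne_zero (h.ρ_ker _ hu)

theorem isUnit_Zo (h : CnpHyp O1 O ρ1 ρ j q Ps y c W Z) : IsUnit h.Zo := h.symm.isUnit_Wo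

theorem W_inv_mem (h : CnpHyp O1 O ρ1 ρ j q Ps y c W Z) : W⁻¹ ∈ O := by
  obtain ⟨u, hu⟩ := h.isUnit_Wo
  have h1 : ((u⁻¹ : Oˣ) : O) * h.Wo = 1 := by rw [← hu]; exact u.inv_mul
  have h2 : (((u⁻¹ : Oˣ) : O) : F) * W = 1 := by
    have := congrArg Subtype.val h1
    simpa using this
  have hW0 : W ≠ 0 := by
    rintro rfl
    simp at h2
  have : W⁻¹ = (((u⁻¹ : Oˣ) : O) : F) := by
    field_simp
    rw [mul_comm] at h2
    exact h2.symm
  rw [this]
  exact Subtype.property _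

theorem Z_inv_mem (h : CnpHyp O1 O ρ1 ρ j q Ps y c W Z) : Z⁻¹ ∈ O := h.symm.W_inv_mem

theorem W_ne_zero (h : CnpHyp O1 O ρ1 ρ j q Ps y c W Z) : W ≠ 0 := by
  rintro rfl
  apply h.Wb_ne_zero
  have : h.Wo = 0 := Subtype.ext rfl
  simp [Wb, this]

theorem Z_ne_zero (h : CnpHyp O1 O ρ1 ρ j q Ps y c W Z) : Z ≠ 0 := h.symm.W_ne_zero

/-- the characteristic of `Fk` is `q`. -/
theorem char_Fk (h : CnpHyp O1 O ρ1 ρ j q Ps y c W Z) : (q : Fk) = 0 := by
  have := congrArg j h.char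
  simpa using this

theorem charP_Fk (h : CnpHyp O1 O ρ1 ρ j q Ps y c W Z) : CharP Fk q := by
  haveI : Fact q.Prime := ⟨h.prime⟩
  exact (CharP.charP_iff_prime_eq_zero h.prime).mpr h.char_Fk

/-- **`y = Wb^q + c / Wb`.** -/
theorem res_y (h : CnpHyp O1 O ρ1 ρ j q Ps y c W Z) : j y = h.Wb ^ q + j c / h.Wb := by
  have h1 := h.res_eq
  have h0 := h.Wb_ne_zero
  field_simp
  linear_combination -h1

theorem res_y' (h : CnpHyp O1 O ρ1 ρ j q Ps y c W Z) : j y = h.Zb ^ q + j c / h.Zb :=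
  h.symm.res_y


/-! ### `Wb ≠ Zb` -/

/-- the quotient `pO / (T - W)`. -/
def p1 (h : CnpHyp O1 O ρ1 ρ j q Ps y c W Z) : Polynomial O := h.pO /ₘ (X - C h.Wo)

theorem p1_mul (h : CnpHyp O1 O ρ1 ρ j q Ps y c W Z) : (X - C h.Wo) * h.p1 = h.pO :=
  Polynomial.mul_divByMonic_eq_iff_isRoot.mpr h.isRoot_Wo

theorem p1_monic (h : CnpHyp O1 O ρ1 ρ j q Ps y c W Z) : h.p1.Monic := by
  have h1 : ((X - C h.Wo) * h.p1).Monic := by rw [h.p1_mul]; exact h.pO_monic
  exact (Polynomial.monic_X_sub_C h.Wo).of_mul_monic_left h1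

theorem natDegree_Pb (hq : 1 ≤ q) : (Pb j q y c).natDegree = q + 1 := by
  have h2 : Pb j q y c = X ^ (q + 1) - (C (j y) * X - C (j c)) := by unfold Pb; ring
  rw [h2]
  have h3 : (C (j y) * X - C (j c) : Polynomial Fk).natDegree < (X ^ (q + 1) : Polynomial Fk).natDegree := by
    rw [Polynomial.natDegree_X_pow]
    refine lt_of_le_of_lt (Polynomial.natDegree_sub_le _ _) ?_
    refine max_lt ?_ ?_
    · refine lt_of_le_of_lt (Polynomial.natDegree_C_mul_le _ _) ?_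
      rw [Polynomial.natDegree_X]; omega
    · rw [Polynomial.natDegree_C]; omega
  rw [Polynomial.natDegree_sub_eq_left_of_natDegree_lt h3, Polynomial.natDegree_X_pow]

theorem Pb_monic (hq : 1 ≤ q) : (Pb j q y c).Monic := by
  have h2 : Pb j q y c = X ^ (q + 1) - (C (j y) * X - C (j c)) := by unfold Pb; ring
  rw [h2]
  apply Polynomial.monic_X_pow_sub
  refine lt_of_le_of_lt (Polynomial.degree_sub_le _ _) ?_
  refine max_lt ?_ ?_
  · refine lt_of_le_of_lt (Polynomial.degree_C_mul_X_le _) ?_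
    exact_mod_cast (by omega : 1 < q + 1)
  · refine lt_of_le_of_lt Polynomial.degree_C_le ?_
    exact_mod_cast (by omega : 0 < q + 1)

theorem natDegree_pO (h : CnpHyp O1 O ρ1 ρ j q Ps y c W Z) : h.pO.natDegree = q + 1 := by
  have h1 : (h.pO.map ρ).natDegree = h.pO.natDegree := h.pO_monic.natDegree_map ρ
  rw [← h1, h.pO_map]
  exact natDegree_Pb h.prime.one_le

theorem natDegree_p1 (h : CnpHyp O1 O ρ1 ρ j q Ps y c W Z) : h.p1.natDegree = q := by
  unfold p1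
  rw [Polynomial.natDegree_divByMonic _ (Polynomial.monic_X_sub_C _), h.natDegree_pO,
    Polynomial.natDegree_X_sub_C]
  omega

theorem p1_isRoot_Zo (h : CnpHyp O1 O ρ1 ρ j q Ps y c W Z) : h.p1.IsRoot h.Zo := by
  have h1 := h.isRoot_Zo
  rw [IsRoot.def, ← h.p1_mul, Polynomial.eval_mul] at h1
  simp only [eval_sub, eval_X, eval_C] at h1
  rcases mul_eq_zero.mp h1 with h2 | h2
  · exact absurd (sub_eq_zero.mp h2).symm h.Wo_ne_Zo
  · exact h2

/-- the reduction of `p1`. -/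
def p1b (h : CnpHyp O1 O ρ1 ρ j q Ps y c W Z) : Polynomial Fk := h.p1.map ρ

theorem p1b_mul (h : CnpHyp O1 O ρ1 ρ j q Ps y c W Z) :
    (X - C h.Wb) * h.p1b = Pb j q y c := by
  have := congrArg (Polynomial.map ρ) h.p1_mul
  rw [h.pO_map, Polynomial.map_mul] at this
  simpa [p1b, Wb, Pb] using this

theorem p1b_monic (h : CnpHyp O1 O ρ1 ρ j q Ps y c W Z) : h.p1b.Monic := h.p1_monic.map ρ

theorem natDegree_p1b (h : CnpHyp O1 O ρ1 ρ j q Ps y c W Z) : h.p1b.natDegree = q := by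
  rw [p1b, h.p1_monic.natDegree_map ρ, h.natDegree_p1]

theorem p1b_eval_Zb (h : CnpHyp O1 O ρ1 ρ j q Ps y c W Z) : eval h.Zb h.p1b = 0 := by
  have h1 : eval (ρ h.Zo) (h.p1.map ρ) = ρ (eval h.Zo h.p1) := by
    rw [Polynomial.eval_map, Polynomial.eval₂_at_apply]
  rw [h.p1_isRoot_Zo, map_zero] at h1
  exact h1

theorem derivative_Pb (h : CnpHyp O1 O ρ1 ρ j q Ps y c W Z) :
    derivative (Pb j q y c) = X ^ q - C (j y) := by
  have hq : ((q : ℕ) : Polynomial Fk) = 0 := by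
    rw [← Polynomial.C_eq_natCast, h.char_Fk, map_zero]
  simp only [Pb, derivative_add, derivative_sub, derivative_X_pow, derivative_C, add_zero,
    derivative_mul, zero_mul, derivative_X, mul_one, zero_add, Nat.add_sub_cancel]
  rw [Polynomial.C_eq_natCast]
  push_cast
  rw [hq]
  ring

/-- **`Wb ≠ Zb`**: the reduced polynomial is separable at its roots. -/
theorem res_ne (h : CnpHyp O1 O ρ1 ρ j q Ps y c W Z) : h.Wb ≠ h.Zb := by
  intro e
  have h1 : eval h.Wb h.p1b = 0 := by rw [e]; exact h.p1b_eval_Zb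
  have h2 : eval h.Wb (derivative (Pb j q y c)) = 0 := by
    rw [← h.p1b_mul, derivative_mul]
    simp [h1]
  rw [h.derivative_Pb] at h2
  simp only [eval_sub, eval_pow, eval_X, eval_C] at h2
  have h3 := h.res_eq
  have h4 : j c = 0 := by
    have : h.Wb ^ (q + 1) = h.Wb ^ q * h.Wb := pow_succ _ _
    rw [this, sub_eq_zero.mp h2] at h3
    simpa using h3
  exact h.jc_ne h4

/-- **the equation of `H_P`**: `Wb Zb (Wb - Zb)^(q-1) = c`. -/
theorem res_rel (h : CnpHyp O1 O ρ1 ρ j q Ps y c W Z) :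
    h.Wb * h.Zb * (h.Wb - h.Zb) ^ (q - 1) = j c := by
  haveI : Fact q.Prime := ⟨h.prime⟩
  haveI : CharP Fk q := h.charP_Fk
  have hW := h.Wb_ne_zero
  have hZ := h.Zb_ne_zero
  have hne : h.Wb - h.Zb ≠ 0 := sub_ne_zero.mpr h.res_ne
  have h1 : (h.Wb - h.Zb) ^ q = h.Wb ^ q - h.Zb ^ q := sub_pow_char _ _
  have e1 := h.res_eq
  have e2 := h.res_eq'
  have h2' : ∀ a : Fk, a ^ q = a ^ (q - 1) * a := fun a => by
    rw [← pow_succ, Nat.sub_add_cancel h.prime.one_le]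
  have h2 : (h.Wb - h.Zb) ^ q = (h.Wb - h.Zb) ^ (q - 1) * (h.Wb - h.Zb) := h2' _
  have e1' : h.Wb ^ q * h.Wb = j y * h.Wb - j c := by
    have : h.Wb ^ (q + 1) = h.Wb ^ q * h.Wb := pow_succ _ _
    rw [← this]; linear_combination e1
  have e2' : h.Zb ^ q * h.Zb = j y * h.Zb - j c := by
    have : h.Zb ^ (q + 1) = h.Zb ^ q * h.Zb := pow_succ _ _
    rw [← this]; linear_combination e2
  have key : (h.Wb * h.Zb * (h.Wb - h.Zb) ^ (q - 1) - j c) * (h.Wb - h.Zb) = 0 := by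
    have : h.Wb * h.Zb * (h.Wb - h.Zb) ^ (q - 1) * (h.Wb - h.Zb) =
        h.Wb * h.Zb * (h.Wb ^ q - h.Zb ^ q) := by
      rw [mul_assoc, ← h2, h1]
    rw [sub_mul, this]
    linear_combination h.Zb * e1' - h.Wb * e2'
  rcases mul_eq_zero.mp key with h3 | h3
  · exact sub_eq_zero.mp h3
  · exact absurd h3 hne


/-! ### residual independence of the monomials `W^i Z^j` -/

section Indep

variable {k : Type*} [Field k] [IsAlgClosed k] [Algebra k κ]

/-- auxiliary: degrees `d₁ ≤ q + 1`, `d₂ ≤ q` with `d₁ d₂ = q (q + 1)` are `q + 1` and `q`. -/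
theorem cnp_deg_eq {q d₁ d₂ : ℕ} (hq : 1 ≤ q) (h1 : d₁ ≤ q + 1) (h2 : d₂ ≤ q)
    (h : d₁ * d₂ = q * (q + 1)) : d₁ = q + 1 ∧ d₂ = q := by
  rcases Nat.lt_or_ge d₁ (q + 1) with h3 | h3
  · exfalso
    have h4 : d₁ ≤ q := by omega
    have h5 : d₁ * d₂ ≤ q * q := Nat.mul_le_mul h4 h2
    have h6 : q * q < q * (q + 1) := by nlinarith
    omega
  · have e1 : d₁ = q + 1 := le_antisymm h1 h3
    refine ⟨e1, ?_⟩
    rw [e1] at h
    have h7 : (q + 1) * d₂ = (q + 1) * q := by rw [h]; ring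
    exact Nat.eq_of_mul_eq_mul_left (by omega) h7

/-- **linear independence of the residues of the monomials** (instance-free form):
if `κ = k(y)`, `k` algebraically closed, `y` transcendental over `k` and `c ∈ k`, then a relation
`∑ g(i,j) Wb^i Zb^j = 0` with `g(i,j) ∈ κ`, `i ≤ q`, `j ≤ q - 1`, is trivial. -/
theorem res_indep (h : CnpHyp O1 O ρ1 ρ j q Ps y c W Z) (hgen : k⟮y⟯ = ⊤)
    (hy : Transcendental k y) (c₀ : k) (hc : algebraMap k κ c₀ = c)
    (g : Fin (q + 1) × Fin q → κ)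
    (hg : ∑ p, j (g p) * (h.Wb ^ (p.1 : ℕ) * h.Zb ^ (p.2 : ℕ)) = 0) : ∀ p, g p = 0 := by
  classical
  letI : Algebra κ Fk := j.toAlgebra
  letI : Algebra k Fk := (j.comp (algebraMap k κ)).toAlgebra
  haveI : IsScalarTower k κ Fk := IsScalarTower.of_algebraMap_eq (fun x => rfl)
  have hjalg : ∀ a : κ, algebraMap κ Fk a = j a := fun a => rfl
  have hq1' : 1 ≤ q := h.prime.one_le
  have hq0k : ((q : ℕ) : k) = 0 := by
    apply (algebraMap k κ).injective
    rw [map_natCast, map_zero]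
    exact h.char
  have hq1 : ((q + 1 : ℕ) : k) ≠ 0 := Fermat.Agent.HP.hp_succ_ne_zero hq0k
  have hc₀ : c₀ ≠ 0 := by
    rintro rfl
    exact h.c_ne (by rw [← hc, map_zero])
  have hkc : algebraMap k Fk c₀ = j c := by
    rw [← hc]; rfl
  have rel : h.Wb * h.Zb * (h.Wb - h.Zb) ^ (q - 1) = algebraMap k Fk c₀ := by
    rw [hkc]; exact h.res_rel
  have hyW : algebraMap κ Fk y = h.Wb ^ q + algebraMap k Fk c₀ / h.Wb := by
    rw [hkc, hjalg]; exact h.res_y
  have hfin := Fermat.Agent.HP.HPCurve.finrank_adjoin_pair (K := k) (q := q) hq1 hgen hy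
    h.Wb h.Zb c₀ hc₀ h.prime.two_le rel hyW
  -- the polynomial over `κ`
  set P : Polynomial κ := X ^ (q + 1) - C y * X + C c with hP
  have hPmap : P.map j = Pb j q y c := by simp [hP, Pb]
  have hPmonic : P.Monic := by
    have h2 : P = X ^ (q + 1) - (C y * X - C c) := by rw [hP]; ring
    rw [h2]
    apply Polynomial.monic_X_pow_sub
    refine lt_of_le_of_lt (Polynomial.degree_sub_le _ _) ?_
    refine max_lt ?_ ?_
    · refine lt_of_le_of_lt (Polynomial.degree_C_mul_X_le _) ?_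
      exact_mod_cast (by omega : 1 < q + 1)
    · refine lt_of_le_of_lt Polynomial.degree_C_le ?_
      exact_mod_cast (by omega : 0 < q + 1)
  have hPdeg : P.natDegree = q + 1 := by
    have := hPmonic.natDegree_map j
    rw [hPmap, natDegree_Pb hq1'] at this
    exact this.symm
  have haevalP : ∀ x : Fk, aeval x P = x ^ (q + 1) - j y * x + j c := by
    intro x
    simp [hP, hjalg]
  have hPW : aeval h.Wb P = 0 := by rw [haevalP]; exact h.res_eq
  have hPZ : aeval h.Zb P = 0 := by rw [haevalP]; exact h.res_eq'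
  have hWint : IsIntegral κ h.Wb := ⟨P, hPmonic, hPW⟩
  have hd1 : (minpoly κ h.Wb).natDegree ≤ q + 1 := by
    have := Polynomial.natDegree_le_of_dvd (minpoly.dvd κ h.Wb hPW) hPmonic.ne_zero
    rwa [hPdeg] at this
  -- the quotient over `κ(Wb)`
  set gW : κ⟮h.Wb⟯ := AdjoinSimple.gen κ h.Wb with hgW
  have hgWcoe : (gW : Fk) = h.Wb := AdjoinSimple.coe_gen κ h.Wb
  set PM : Polynomial κ⟮h.Wb⟯ := P.map (algebraMap κ κ⟮h.Wb⟯) with hPM
  have hPMmonic : PM.Monic := hPmonic.map _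
  have hPMdeg : PM.natDegree = q + 1 := by
    rw [hPM, hPmonic.natDegree_map, hPdeg]
  have hroot : PM.IsRoot gW := by
    rw [IsRoot.def, hPM, Polynomial.eval_map, ← Polynomial.aeval_def]
    apply Subtype.val_injective
    rw [AdjoinSimple.coe_aeval_gen_apply]
    exact hPW
  set Q1 : Polynomial κ⟮h.Wb⟯ := PM /ₘ (X - C gW) with hQ1
  have hQ1mul : (X - C gW) * Q1 = PM := Polynomial.mul_divByMonic_eq_iff_isRoot.mpr hroot
  have hQ1monic : Q1.Monic := by
    have h1 : ((X - C gW) * Q1).Monic := by rw [hQ1mul]; exact hPMmonic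
    exact (Polynomial.monic_X_sub_C gW).of_mul_monic_left h1
  have hQ1deg : Q1.natDegree = q := by
    rw [hQ1, Polynomial.natDegree_divByMonic _ (Polynomial.monic_X_sub_C _), hPMdeg,
      Polynomial.natDegree_X_sub_C]
    omega
  have hQ1Z : aeval h.Zb Q1 = 0 := by
    have h1 : aeval h.Zb PM = 0 := by
      rw [hPM, Polynomial.aeval_map_algebraMap]
      exact hPZ
    rw [← hQ1mul, map_mul] at h1
    simp only [map_sub, aeval_X, aeval_C] at h1
    rcases mul_eq_zero.mp h1 with h2 | h2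
    · exfalso
      apply h.res_ne
      have h3 : algebraMap κ⟮h.Wb⟯ Fk gW = h.Wb := hgWcoe
      rw [h3] at h2
      exact (sub_eq_zero.mp h2).symm
    · exact h2
  have hZint : IsIntegral κ⟮h.Wb⟯ h.Zb := ⟨Q1, hQ1monic, hQ1Z⟩
  have hd2 : (minpoly κ⟮h.Wb⟯ h.Zb).natDegree ≤ q := by
    have := Polynomial.natDegree_le_of_dvd (minpoly.dvd κ⟮h.Wb⟯ h.Zb hQ1Z) hQ1monic.ne_zero
    rwa [hQ1deg] at this
  -- the degrees
  have hf1 : Module.finrank κ κ⟮h.Wb⟯ = (minpoly κ h.Wb).natDegree := adjoin.finrank hWint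
  have hf2 : Module.finrank κ⟮h.Wb⟯ κ⟮h.Wb⟯⟮h.Zb⟯ = (minpoly κ⟮h.Wb⟯ h.Zb).natDegree :=
    adjoin.finrank hZint
  have htower : Module.finrank κ κ⟮h.Wb⟯ * Module.finrank κ⟮h.Wb⟯ κ⟮h.Wb⟯⟮h.Zb⟯ =
      Module.finrank κ κ⟮h.Wb⟯⟮h.Zb⟯ := Module.finrank_mul_finrank _ _ _
  have hrs : Module.finrank κ κ⟮h.Wb⟯⟮h.Zb⟯ =
      Module.finrank κ (IntermediateField.adjoin κ ({h.Wb, h.Zb} : Set Fk)) := by
    have := IntermediateField.adjoin_simple_adjoin_simple κ h.Wb h.Zb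
    rw [← this]
    rfl
  have hprod : (minpoly κ h.Wb).natDegree * (minpoly κ⟮h.Wb⟯ h.Zb).natDegree = q * (q + 1) := by
    rw [← hf1, ← hf2, htower, hrs, hfin]
  obtain ⟨e1, e2⟩ := cnp_deg_eq hq1' hd1 hd2 hprod
  -- linear independence
  have hb : LinearIndependent κ fun i : Fin (minpoly κ gW).natDegree => gW ^ (i : ℕ) :=
    linearIndependent_pow gW
  have hmin : minpoly κ gW = minpoly κ h.Wb := IntermediateField.minpoly_gen κ h.Wb
  have hcI : LinearIndependent κ⟮h.Wb⟯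
      fun i : Fin (minpoly κ⟮h.Wb⟯ h.Zb).natDegree => h.Zb ^ (i : ℕ) :=
    linearIndependent_pow h.Zb
  have hbc := linearIndependent_smul hb hcI
  have e1' : q + 1 = (minpoly κ gW).natDegree := by rw [hmin, e1]
  have e2' : q = (minpoly κ⟮h.Wb⟯ h.Zb).natDegree := e2.symm
  have hinj : Function.Injective
      (fun p : Fin (q + 1) × Fin q =>
        ((Fin.cast e1' p.1, Fin.cast e2' p.2) :
          Fin (minpoly κ gW).natDegree × Fin (minpoly κ⟮h.Wb⟯ h.Zb).natDegree)) := by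
    intro p p' hpp
    simp only [Prod.mk.injEq] at hpp
    exact Prod.ext (Fin.cast_injective _ hpp.1) (Fin.cast_injective _ hpp.2)
  have hli := hbc.comp _ hinj
  rw [Fintype.linearIndependent_iff] at hli
  refine hli g ?_
  rw [← hg]
  refine Finset.sum_congr rfl fun p _ => ?_
  simp only [Function.comp_apply, Fin.val_cast]
  rw [Algebra.smul_def, hjalg]
  congr 1

/-- the monomials `W^i Z^j`, `i ≤ q`, `j ≤ q - 1`. -/
def cnpMono (W Z : F) (q : ℕ) (p : Fin (q + 1) × Fin q) : F := W ^ (p.1 : ℕ) * Z ^ (p.2 : ℕ)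

theorem cnpMono_mem (h : CnpHyp O1 O ρ1 ρ j q Ps y c W Z) (p : Fin (q + 1) × Fin q) :
    cnpMono W Z q p ∈ O :=
  O.mul_mem _ _ (O.pow_mem h.W_mem _) (O.pow_mem h.Z_mem _)

theorem ρ_cnpMono (h : CnpHyp O1 O ρ1 ρ j q Ps y c W Z) (p : Fin (q + 1) × Fin q) :
    ρ ⟨cnpMono W Z q p, h.cnpMono_mem p⟩ = h.Wb ^ (p.1 : ℕ) * h.Zb ^ (p.2 : ℕ) := by
  have : (⟨cnpMono W Z q p, h.cnpMono_mem p⟩ : O) = h.Wo ^ (p.1 : ℕ) * h.Zo ^ (p.2 : ℕ) := by
    apply Subtype.ext
    simp [cnpMono]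
  rw [this, map_mul, map_pow, map_pow]
  rfl

/-- **the `q (q + 1)` monomials `W^i Z^j` are residually independent over `O1`.** -/
theorem resIndep (h : CnpHyp O1 O ρ1 ρ j q Ps y c W Z) (hgen : k⟮y⟯ = ⊤)
    (hy : Transcendental k y) (c₀ : k) (hc : algebraMap k κ c₀ = c) :
    ResIndep O1 O (cnpMono W Z q) := by
  classical
  refine ⟨h.cnpMono_mem, ?_⟩
  intro a ha hsum l
  have hmemt : ∀ p, algebraMap E F (a p) * cnpMono W Z q p ∈ O := fun p =>
    O.mul_mem _ _ ((h.liesOver.mem_iff _).mpr (ha p)) (h.cnpMono_mem p)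
  have hsmem : (∑ p, algebraMap E F (a p) * cnpMono W Z q p) ∈ O := O.sum_mem fun p _ => hmemt p
  have hnu : ¬ IsUnit (⟨_, hsmem⟩ : O) := by
    intro hu
    have := (ValuationSubring.valuation_eq_one_iff O _).mp hu
    rw [ValuationSubring.mem_nonunits_iff] at hsum
    simp only at this
    rw [this] at hsum
    exact lt_irrefl _ hsum
  have h0 := h.ρ_ker _ hnu
  have hdecomp : (⟨_, hsmem⟩ : O) =
      ∑ p, cnpIncl h.liesOver ⟨a p, ha p⟩ * ⟨cnpMono W Z q p, h.cnpMono_mem p⟩ := by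
    apply Subtype.ext
    rw [show ((∑ p, cnpIncl h.liesOver ⟨a p, ha p⟩ * ⟨cnpMono W Z q p, h.cnpMono_mem p⟩ : O) : F)
      = O.subtype (∑ p, cnpIncl h.liesOver ⟨a p, ha p⟩ * ⟨cnpMono W Z q p, h.cnpMono_mem p⟩)
      from rfl, map_sum]
    rfl
  rw [hdecomp, map_sum] at h0
  have h1 : ∑ p, j (ρ1 ⟨a p, ha p⟩) * (h.Wb ^ (p.1 : ℕ) * h.Zb ^ (p.2 : ℕ)) = 0 := by
    rw [← h0]
    refine Finset.sum_congr rfl fun p _ => ?_
    rw [map_mul, h.ρ_cnpMono]
    congr 1
    exact (h.comp ⟨a p, ha p⟩ _).symm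
  have h2 := h.res_indep hgen hy c₀ hc (fun p => ρ1 ⟨a p, ha p⟩) h1 l
  have h3 := h.ρ1_ker _ h2
  rw [ValuationSubring.mem_nonunits_iff]
  by_contra hlt
  apply h3
  have hval : O1.valuation (a l) = 1 :=
    le_antisymm ((O1.valuation_le_one_iff _).mpr (ha l)) (not_lt.mp hlt)
  exact (ValuationSubring.valuation_eq_one_iff O1 ⟨a l, ha l⟩).mpr hval

/-- **the residually independent family indexed by `Fin n`, `n = q (q + 1)`.** -/
theorem exists_resIndep_fin (h : CnpHyp O1 O ρ1 ρ j q Ps y c W Z) (hgen : k⟮y⟯ = ⊤)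
    (hy : Transcendental k y) (c₀ : k) (hc : algebraMap k κ c₀ = c) {n : ℕ}
    (hn : n = q * (q + 1)) :
    ∃ x : Fin n → F, ResIndep O1 O x ∧ ∀ i, ∃ a b : ℕ, a ≤ q ∧ b < q ∧ x i = W ^ a * Z ^ b := by
  classical
  have hcard : Fintype.card (Fin (q + 1) × Fin q) = Fintype.card (Fin n) := by
    simp [hn, mul_comm]
  let e : Fin n ≃ Fin (q + 1) × Fin q := (Fintype.equivOfCardEq hcard).symm
  have hR := h.resIndep hgen hy c₀ hc
  refine ⟨fun i => cnpMono W Z q (e i), ⟨fun i => hR.1 (e i), ?_⟩, ?_⟩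
  · intro a ha hsum l
    have h1 := hR.2 (fun p => a (e.symm p)) (fun p => ha _) (by
      have : ∑ p, algebraMap E F (a (e.symm p)) * cnpMono W Z q p =
          ∑ i, algebraMap E F (a i) * cnpMono W Z q (e i) := by
        rw [← Equiv.sum_comp e]
        simp
      rw [this]
      exact hsum) (e l)
    simpa using h1
  · intro i
    exact ⟨(e i).1, (e i).2, Nat.lt_succ_iff.mp (e i).1.2, (e i).2.2, rfl⟩

end Indep

end CnpHyp

/-! ### adapters -/

/-- the root condition in `aeval` form (the shape of `CoreScale.csc_root_iff`). -/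
theorem cnp_aeval_map_subtype (O1 : ValuationSubring E) (Ps : Polynomial O1) (x : F) :
    aeval x (Ps.map O1.subtype) = eval₂ ((algebraMap E F).comp O1.subtype) x Ps := by
  rw [Polynomial.aeval_def, Polynomial.eval₂_map]

/-- the induced map of residue fields `j : κ → Fk`, when `ρ1` is onto. -/
theorem cnp_exists_resHom {O1 : ValuationSubring E} {O : ValuationSubring F}
    (hover : LiesOverV O1 O) (ρ1 : O1 →+* κ) (ρ : O →+* Fk)
    (hρ1 : Function.Surjective ρ1) (hρ1_ker : ∀ a : O1, ρ1 a = 0 → ¬ IsUnit a)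
    (hρ_ker : ∀ f : O, ¬ IsUnit f → ρ f = 0) :
    ∃ j : κ →+* Fk, ∀ (a : O1) (h : algebraMap E F (a : E) ∈ O),
      ρ ⟨algebraMap E F (a : E), h⟩ = j (ρ1 a) := by
  have hker : RingHom.ker ρ1 ≤ RingHom.ker (ρ.comp (cnpIncl hover)) := by
    intro a ha
    rw [RingHom.mem_ker] at ha ⊢
    have h1 := hρ1_ker a ha
    apply hρ_ker
    intro hu
    apply h1
    rw [ValuationSubring.valuation_eq_one_iff] at hu ⊢
    exact (hover.val_eq_one_iff _).mp hu
  refine ⟨RingHom.liftOfSurjective ρ1 hρ1 ⟨ρ.comp (cnpIncl hover), hker⟩, fun a h => ?_⟩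
  have := RingHom.liftOfRightInverse_comp_apply ρ1 _ (Function.rightInverse_surjInv hρ1)
    ⟨ρ.comp (cnpIncl hover), hker⟩ a
  exact this.symm

/-- **constructor of `CnpHyp`** from the `iff` forms of the kernels (the shape of `ValSetup`) and
the roots in `aeval` form. -/
theorem CnpHyp.of_aeval {O1 : ValuationSubring E} {O : ValuationSubring F} {ρ1 : O1 →+* κ}
    {ρ : O →+* Fk} {j : κ →+* Fk} {q : ℕ} {Ps : Polynomial O1} {y c : κ} {W Z : F}
    (hover : LiesOverV O1 O) (hρ1 : ∀ a : O1, ρ1 a = 0 ↔ ¬ IsUnit a)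
    (hρ : ∀ f : O, ρ f = 0 ↔ ¬ IsUnit f)
    (hcomp : ∀ (a : O1) (h : algebraMap E F (a : E) ∈ O),
      ρ ⟨algebraMap E F (a : E), h⟩ = j (ρ1 a))
    (hq : q.Prime) (hchar : (q : κ) = 0) (hmonic : Ps.Monic)
    (hred : Ps.map ρ1 = X ^ (q + 1) - C y * X + C c) (hc : c ≠ 0) (hne : W ≠ Z)
    (hW : aeval W (Ps.map O1.subtype) = 0) (hZ : aeval Z (Ps.map O1.subtype) = 0) :
    CnpHyp O1 O ρ1 ρ j q Ps y c W Z where
  liesOver := hover
  ρ1_ker a := (hρ1 a).mp
  ρ_ker f := (hρ f).mpr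
  comp := hcomp
  prime := hq
  char := hchar
  monic := hmonic
  red := hred
  c_ne := hc
  ne := hne
  rootW := by rw [← cnp_aeval_map_subtype]; exact hW
  rootZ := by rw [← cnp_aeval_map_subtype]; exact hZ

end Fermat.Agent.HPVal
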