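/-
Cluster G (S36), W-P, seat CORE-FK (helper70; spec by helper59): the residue field of the valuation
ring `O` of CORE is the function field of `H_P`.  Abstract, on top of CORE-NP (`CnpHyp`, helper94)
and CORE-COVER (`ccov_*`, helper75).

Setting of CORE-NP: `E ⊂ F`, `O1` a valuation ring of `E` with residue map `ρ1 : O1 → κ`, `O` a
valuation ring of `F` over `O1` with residue map `ρ : O → Fk`, `j : κ → Fk` the induced map,
`W ≠ Z` roots of `Ps`, `Ps` reducing to `T^(q+1) - y T + c`.  In addition: `k` algebraically closed,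
`κ = k(y)`, `y` transcendental, `c = c₀ ∈ k`, `j` a `k`-map, `[F : E] = q (q + 1)`, `ρ` onto.  Then

* `CnpHyp.cfk_j_mem`       : `j a ∈ k(j y)` for every `a ∈ κ`;
* `CnpHyp.cfk_res_span`    : every element of `Fk` is `∑ j (g (i, l)) Wb^i Zb^l`, `g (i, l) ∈ κ`
                             (`i ≤ q`, `l ≤ q - 1`);
* `CnpHyp.cfk_adjoin_eq_top` : `Fk = k(Wb, Zb)`;
* `CnpHyp.cfkCurve`        : **the curve** `H : HPCurve k Fk q` with `H.X1 = Wb`, `H.X2 = Zb`,
                             `H.c = c₀`  (`cfkCurve_X1`, `cfkCurve_X2`, `cfkCurve_c`, all `rfl`),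
                             `H.Yf = j y` (`cfkCurve_Yf`);
* `CnpHyp.cfk_old_mem`     : `ρ (e) ∈ k(H.Yf)` for every `e ∈ O1`  (the residue field of the
                             restriction of `O` to `E` is `k(Y)`);
* `CnpHyp.cfk_exists_curve` : the `∃`-form of all this (the exact shape of the spec);
* `CnpHyp.cfk_finrank_res` : `[Fk : k(H.Yf)] = q (q + 1)`.
-/
import Mathlib
import Fermat.Agent.Lib.BadRed.HPVal.CoreNP
import Fermat.Agent.Lib.BadRed.HPVal.CoreCover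

set_option autoImplicit false
set_option linter.unusedSectionVars false
set_option linter.unusedVariables false
set_option linter.style.haveILetI false

noncomputable section

namespace Fermat.Agent.HPVal

open Polynomial IntermediateField Fermat.Agent.BadRed

variable {E F : Type*} [Field E] [Field F] [Algebra E F]
variable {k κ Fk : Type*} [Field k] [Field κ] [Algebra k κ] [Field Fk] [Algebra k Fk]

namespace CnpHyp

variable {O1 : ValuationSubring E} {O : ValuationSubring F} {ρ1 : O1 →+* κ}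
  {ρ : O →+* Fk} {j : κ →+* Fk} {q : ℕ} {Ps : Polynomial O1} {y c : κ} {W Z : F}

/-- the image of `κ = k(y)` in `Fk` lies in `k(j y)`. -/
theorem cfk_j_mem (hjk : ∀ a : k, j (algebraMap k κ a) = algebraMap k Fk a) (hgen : k⟮y⟯ = ⊤)
    (a : κ) : j a ∈ k⟮j y⟯ := by
  let φ : κ →ₐ[k] Fk := { j with commutes' := hjk }
  have h1 : a ∈ k⟮y⟯ := by rw [hgen]; exact IntermediateField.mem_top
  have h2 : φ a ∈ (k⟮y⟯).map φ := ⟨a, h1, rfl⟩
  rw [IntermediateField.adjoin_map, Set.image_singleton] at h2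
  exact h2

/-- `j c = c₀` in `Fk`. -/
theorem cfk_jc (hjk : ∀ a : k, j (algebraMap k κ a) = algebraMap k Fk a) (c₀ : k)
    (hc : algebraMap k κ c₀ = c) : j c = algebraMap k Fk c₀ := by
  rw [← hc, hjk]

theorem cfk_c₀_ne (h : CnpHyp O1 O ρ1 ρ j q Ps y c W Z) (c₀ : k)
    (hc : algebraMap k κ c₀ = c) : c₀ ≠ 0 := by
  rintro rfl
  exact h.c_ne (by rw [← hc, map_zero])

/-- the relation of `H_P` with the constant in `k`. -/
theorem cfk_rel (h : CnpHyp O1 O ρ1 ρ j q Ps y c W Z)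
    (hjk : ∀ a : k, j (algebraMap k κ a) = algebraMap k Fk a) (c₀ : k)
    (hc : algebraMap k κ c₀ = c) :
    h.Wb * h.Zb * (h.Wb - h.Zb) ^ (q - 1) = algebraMap k Fk c₀ := by
  rw [← cfk_jc hjk c₀ hc]
  exact h.res_rel

/-- `j y = Wb^q + c₀ / Wb`. -/
theorem cfk_res_y (h : CnpHyp O1 O ρ1 ρ j q Ps y c W Z)
    (hjk : ∀ a : k, j (algebraMap k κ a) = algebraMap k Fk a) (c₀ : k)
    (hc : algebraMap k κ c₀ = c) :
    j y = h.Wb ^ q + algebraMap k Fk c₀ / h.Wb := by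
  rw [← cfk_jc hjk c₀ hc]
  exact h.res_y

section Span

variable [IsAlgClosed k]

/-- **the residues of the monomials span `Fk` over `j (κ)`.** -/
theorem cfk_res_span (h : CnpHyp O1 O ρ1 ρ j q Ps y c W Z) (hgen : k⟮y⟯ = ⊤)
    (hy : Transcendental k y) (c₀ : k) (hc : algebraMap k κ c₀ = c)
    (hfin : Module.finrank E F = q * (q + 1)) (hρ : Function.Surjective ρ) (f : Fk) :
    ∃ g : Fin (q + 1) × Fin q → κ,
      f = ∑ p, j (g p) * (h.Wb ^ (p.1 : ℕ) * h.Zb ^ (p.2 : ℕ)) := by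
  classical
  haveI : FiniteDimensional E F := Module.finite_of_finrank_pos (by
    rw [hfin]
    exact Nat.mul_pos h.prime.pos (Nat.succ_pos q))
  have hR := h.resIndep hgen hy c₀ hc
  have hcard : Fintype.card (Fin (q + 1) × Fin q) = Module.finrank E F := by
    rw [hfin]
    simp [mul_comm]
  obtain ⟨a, ha, hfa⟩ := ccov_res_span h.liesOver hR hcard ρ hρ f
  refine ⟨fun p => ρ1 ⟨a p, ha p⟩, ?_⟩
  rw [← hfa]
  have hdecomp : (⟨∑ p, algebraMap E F (a p) * cnpMono W Z q p,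
      ccov_sum_mem h.liesOver hR ha⟩ : O) =
      ∑ p, cnpIncl h.liesOver ⟨a p, ha p⟩ * ⟨cnpMono W Z q p, h.cnpMono_mem p⟩ := by
    apply Subtype.ext
    rw [show ((∑ p, cnpIncl h.liesOver ⟨a p, ha p⟩ * ⟨cnpMono W Z q p, h.cnpMono_mem p⟩ : O) : F)
      = O.subtype (∑ p, cnpIncl h.liesOver ⟨a p, ha p⟩ * ⟨cnpMono W Z q p, h.cnpMono_mem p⟩)
      from rfl, map_sum]
    rfl
  rw [hdecomp, map_sum]
  refine Finset.sum_congr rfl fun p _ => ?_
  rw [map_mul, h.ρ_cnpMono]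
  congr 1
  exact h.comp ⟨a p, ha p⟩ _

/-- **`Fk = k(Wb, Zb)`.** -/
theorem cfk_adjoin_eq_top (h : CnpHyp O1 O ρ1 ρ j q Ps y c W Z)
    (hjk : ∀ a : k, j (algebraMap k κ a) = algebraMap k Fk a) (hgen : k⟮y⟯ = ⊤)
    (hy : Transcendental k y) (c₀ : k) (hc : algebraMap k κ c₀ = c)
    (hfin : Module.finrank E F = q * (q + 1)) (hρ : Function.Surjective ρ) :
    IntermediateField.adjoin k ({h.Wb, h.Zb} : Set Fk) = ⊤ := by
  rw [eq_top_iff]
  intro f _
  obtain ⟨g, rfl⟩ := h.cfk_res_span hgen hy c₀ hc hfin hρ f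
  have hW : h.Wb ∈ IntermediateField.adjoin k ({h.Wb, h.Zb} : Set Fk) :=
    IntermediateField.subset_adjoin k _ (Set.mem_insert _ _)
  have hZ : h.Zb ∈ IntermediateField.adjoin k ({h.Wb, h.Zb} : Set Fk) :=
    IntermediateField.subset_adjoin k _ (Set.mem_insert_of_mem _ rfl)
  have hyM : j y ∈ IntermediateField.adjoin k ({h.Wb, h.Zb} : Set Fk) := by
    rw [h.cfk_res_y hjk c₀ hc]
    exact add_mem (pow_mem hW q) (div_mem (IntermediateField.algebraMap_mem _ c₀) hW)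
  have hle : k⟮j y⟯ ≤ IntermediateField.adjoin k ({h.Wb, h.Zb} : Set Fk) := by
    rw [IntermediateField.adjoin_simple_le_iff]
    exact hyM
  refine sum_mem fun p _ => mul_mem (hle (cfk_j_mem hjk hgen (g p))) ?_
  exact mul_mem (pow_mem hW _) (pow_mem hZ _)

/-- `Wb` is transcendental over `k`. -/
theorem cfk_transcendental_Wb (h : CnpHyp O1 O ρ1 ρ j q Ps y c W Z)
    (hjk : ∀ a : k, j (algebraMap k κ a) = algebraMap k Fk a)
    (hy : Transcendental k y) (c₀ : k) (hc : algebraMap k κ c₀ = c) :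
    Transcendental k h.Wb := by
  apply Fermat.Agent.HP.hp_transcendental_of_Y (q := q) c₀
  rw [← h.cfk_res_y hjk c₀ hc]
  let φ : κ →ₐ[k] Fk := { j with commutes' := hjk }
  have : Transcendental k (φ y) := fun halg =>
    hy ((isAlgebraic_algHom_iff φ φ.injective).mp halg)
  exact this

/-- **the curve `H_P` on the residue field of `O`.** -/
def cfkCurve (h : CnpHyp O1 O ρ1 ρ j q Ps y c W Z)
    (hjk : ∀ a : k, j (algebraMap k κ a) = algebraMap k Fk a) (hgen : k⟮y⟯ = ⊤)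
    (hy : Transcendental k y) (c₀ : k) (hc : algebraMap k κ c₀ = c)
    (hfin : Module.finrank E F = q * (q + 1)) (hρ : Function.Surjective ρ) :
    Fermat.Agent.HP.HPCurve k Fk q where
  X1 := h.Wb
  X2 := h.Zb
  c := c₀
  c_ne := h.cfk_c₀_ne c₀ hc
  q_two := h.prime.two_le
  rel := h.cfk_rel hjk c₀ hc
  gen := h.cfk_adjoin_eq_top hjk hgen hy c₀ hc hfin hρ
  transc := h.cfk_transcendental_Wb hjk hy c₀ hc

section Curve

variable (h : CnpHyp O1 O ρ1 ρ j q Ps y c W Z)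
  (hjk : ∀ a : k, j (algebraMap k κ a) = algebraMap k Fk a) (hgen : k⟮y⟯ = ⊤)
  (hy : Transcendental k y) (c₀ : k) (hc : algebraMap k κ c₀ = c)
  (hfin : Module.finrank E F = q * (q + 1)) (hρ : Function.Surjective ρ)

@[simp] theorem cfkCurve_X1 : (h.cfkCurve hjk hgen hy c₀ hc hfin hρ).X1 = h.Wb := rfl

@[simp] theorem cfkCurve_X2 : (h.cfkCurve hjk hgen hy c₀ hc hfin hρ).X2 = h.Zb := rfl

@[simp] theorem cfkCurve_c : (h.cfkCurve hjk hgen hy c₀ hc hfin hρ).c = c₀ := rfl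

/-- **`H.Yf = j y`.** -/
theorem cfkCurve_Yf : (h.cfkCurve hjk hgen hy c₀ hc hfin hρ).Yf = j y := by
  rw [h.cfk_res_y hjk c₀ hc]
  rfl

/-- **the residue field of the restriction of `O` to `E` is `k(Y)`**: the residues of the
elements of `O1` lie in `k(H.Yf)`. -/
theorem cfk_old_mem (e : O1) (he : algebraMap E F (e : E) ∈ O) :
    ρ ⟨algebraMap E F (e : E), he⟩ ∈ k⟮(h.cfkCurve hjk hgen hy c₀ hc hfin hρ).Yf⟯ := by
  rw [h.cfkCurve_Yf hjk hgen hy c₀ hc hfin hρ, h.comp e he]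
  exact cfk_j_mem hjk hgen _

/-- the same for an element of `E` which is integral for `O1`. -/
theorem cfk_old_mem' (e : E) (he1 : e ∈ O1) (he : algebraMap E F e ∈ O) :
    ρ ⟨algebraMap E F e, he⟩ ∈ k⟮(h.cfkCurve hjk hgen hy c₀ hc hfin hρ).Yf⟯ :=
  h.cfk_old_mem hjk hgen hy c₀ hc hfin hρ ⟨e, he1⟩ he

/-- conversely `k(H.Yf)` is the image of `κ`: every element of `k(H.Yf)` is `j a`. -/
theorem cfk_mem_range_of_mem (f : Fk)
    (hf : f ∈ k⟮(h.cfkCurve hjk hgen hy c₀ hc hfin hρ).Yf⟯) : ∃ a : κ, j a = f := by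
  rw [h.cfkCurve_Yf hjk hgen hy c₀ hc hfin hρ] at hf
  let φ : κ →ₐ[k] Fk := { j with commutes' := hjk }
  have h1 : (k⟮y⟯).map φ = k⟮j y⟯ := by
    rw [IntermediateField.adjoin_map, Set.image_singleton]
    rfl
  rw [← h1] at hf
  obtain ⟨a, _, ha⟩ := hf
  exact ⟨a, ha⟩

/-- **`[Fk : k(H.Yf)] = q (q + 1)`.** -/
theorem cfk_finrank_res :
    Module.finrank k⟮(h.cfkCurve hjk hgen hy c₀ hc hfin hρ).Yf⟯ Fk = q * (q + 1) := by
  have hq0k : ((q : ℕ) : k) = 0 := by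
    apply (algebraMap k κ).injective
    rw [map_natCast, map_zero]
    exact h.char
  exact (h.cfkCurve hjk hgen hy c₀ hc hfin hρ).finrank_Yf (Fermat.Agent.HP.hp_succ_ne_zero hq0k)

include hjk hgen hy hc hfin hρ in
/-- **CORE-FK, `∃`-form** (the shape of the spec). -/
theorem cfk_exists_curve :
    ∃ H : Fermat.Agent.HP.HPCurve k Fk q, H.X1 = h.Wb ∧ H.X2 = h.Zb ∧ H.c = c₀ ∧
      H.Yf = j y ∧
      (∀ (e : O1) (he : algebraMap E F (e : E) ∈ O), ρ ⟨algebraMap E F (e : E), he⟩ ∈ k⟮H.Yf⟯) ∧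
      Module.finrank k⟮H.Yf⟯ Fk = q * (q + 1) :=
  ⟨h.cfkCurve hjk hgen hy c₀ hc hfin hρ, rfl, rfl, rfl,
    h.cfkCurve_Yf hjk hgen hy c₀ hc hfin hρ,
    h.cfk_old_mem hjk hgen hy c₀ hc hfin hρ,
    h.cfk_finrank_res hjk hgen hy c₀ hc hfin hρ⟩

end Curve

end Span

end CnpHyp

end Fermat.Agent.HPVal
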