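/-
Cluster G (S36), block W-P, seat CORE-SCALE (helper83): **the scaled Kronecker form**.
Abstract, Mathlib only.

`E` a field, `O` a valuation ring of `E` (the disc valuation `O₁` of `ι₁ F₀`), `ρ : O →+* κ` a
residue map, `q ≥ 2`, `ϖ, u, Y ∈ O` with `u` a unit, `ϖ ^ (q + 1) = q u`, `ϖ ≠ 0`, and `R ∈ O[X]`
of degree `≤ q`.  With `x₁ := ϖ ^ q Y`:

    `Ψ   := (X - x₁ ^ q) (X ^ q - x₁) + q R(X)`                         (in `E[X]`),
    `Ψ_s := (X - ϖ ^ (q² - 1) Y ^ q) (X ^ q - Y) + u⁻¹ R(ϖ X)`          (in `O[X]`).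

* `csc_scaled_map`     : `Ψ_s = Ψ(ϖ X) / ϖ ^ (q + 1)` (as polynomials over `E`);
* `csc_scaled_monic`, `csc_scaled_natDegree` : `Ψ_s` is monic of degree `q + 1`;
* `csc_scaled_map_res` : if `ρ ϖ = 0`, then `Ψ_s` reduces to `X ^ (q + 1) - y X + c`,
                         `y = ρ Y`, `c = ρ (u⁻¹) ρ (R(0))`;
* `csc_aeval_scaled`, `csc_root_iff` : `Ψ_s (x / ϖ) = Ψ (x) / ϖ ^ (q + 1)`; the roots of `Ψ_s` are
                         the roots of `Ψ` divided by `ϖ`;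
* `csc_const_mem_range` : `c` is a constant if `ρ (u⁻¹)` and `ρ (R(0))` are.
-/
import Mathlib

set_option autoImplicit false

noncomputable section

namespace Fermat.Agent.HPVal

open Polynomial

variable {E : Type*} [Field E] (O : ValuationSubring E)

/-- the data of the scaled Kronecker form. -/
structure CscData (q : ℕ) where
  /-- `ϖ`, with `ϖ ^ (q + 1) = q u` -/
  ϖ : O
  /-- the unit `u` -/
  u : O
  /-- the inverse of `u` -/
  uinv : O
  /-- `Y = x₁ / ϖ ^ q` -/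
  Y : O
  /-- the polynomial `R` of the Kronecker congruence `Ψ = (X - x₁ ^ q) (X ^ q - x₁) + q R` -/
  R : O[X]
  hq : 2 ≤ q
  hu : u * uinv = 1
  hϖ : ϖ ^ (q + 1) = (q : O) * u
  hϖ0 : ϖ ≠ 0
  hR : R.natDegree ≤ q

namespace CscData

variable {O} {q : ℕ} (D : CscData O q)

/-- `x₁ = ϖ ^ q Y`. -/
def x₁ : E := (D.ϖ : E) ^ q * (D.Y : E)

/-- the Kronecker form `Ψ = (X - x₁ ^ q) (X ^ q - x₁) + q R`. -/
def psi : E[X] :=
  (X - C (D.x₁ ^ q)) * (X ^ q - C D.x₁) + C (q : E) * D.R.map O.subtype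

/-- the scaled Kronecker form `Ψ_s = (X - ϖ ^ (q² - 1) Y ^ q) (X ^ q - Y) + u⁻¹ R(ϖ X)`. -/
def scaled : O[X] :=
  (X - C (D.ϖ ^ (q ^ 2 - 1) * D.Y ^ q)) * (X ^ q - C D.Y) + C D.uinv * D.R.comp (C D.ϖ * X)

theorem coe_ϖ_ne_zero : (D.ϖ : E) ≠ 0 := fun h => D.hϖ0 (Subtype.ext h)

theorem q_eq : (q : E) = (D.ϖ : E) ^ (q + 1) * (D.uinv : E) := by
  have h1 : ((D.ϖ ^ (q + 1) : O) : E) = (((q : O) * D.u : O) : E) := by rw [D.hϖ]
  have h2 : ((D.u * D.uinv : O) : E) = 1 := by rw [D.hu]; rfl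
  push_cast at h1 h2
  rw [h1, mul_assoc, h2, mul_one]

end CscData

theorem csc_sq_sub_one {q : ℕ} (hq : 2 ≤ q) : q ^ 2 - 1 + 1 = q ^ 2 := by
  have : 1 ≤ q ^ 2 := Nat.one_le_pow _ _ (by omega)
  omega

theorem csc_one_le_sq_sub_one {q : ℕ} (hq : 2 ≤ q) : 1 ≤ q ^ 2 - 1 := by
  have : 2 ^ 2 ≤ q ^ 2 := Nat.pow_le_pow_left hq 2
  omega

variable {O} {q : ℕ} (D : CscData O q)

/-- **`Ψ(ϖ X) = ϖ ^ (q + 1) Ψ_s(X)`**. -/
theorem csc_comp_eq :
    D.psi.comp (C (D.ϖ : E) * X) = C ((D.ϖ : E) ^ (q + 1)) * D.scaled.map O.subtype := by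
  have hq2 : (D.ϖ : E) ^ (q ^ 2) = (D.ϖ : E) * (D.ϖ : E) ^ (q ^ 2 - 1) := by
    rw [← pow_succ', csc_sq_sub_one D.hq]
  have hx : D.x₁ ^ q = (D.ϖ : E) * ((D.ϖ : E) ^ (q ^ 2 - 1) * (D.Y : E) ^ q) := by
    rw [CscData.x₁, mul_pow, ← pow_mul, ← sq, hq2, mul_assoc]
  have hmap : D.scaled.map O.subtype =
      (X - C ((D.ϖ : E) ^ (q ^ 2 - 1) * (D.Y : E) ^ q)) * (X ^ q - C (D.Y : E)) +
        C (D.uinv : E) * (D.R.map O.subtype).comp (C (D.ϖ : E) * X) := by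
    simp only [CscData.scaled, Polynomial.map_add, Polynomial.map_mul, Polynomial.map_sub,
      Polynomial.map_X, Polynomial.map_C, Polynomial.map_pow, Polynomial.map_comp, map_mul,
      map_pow, ValuationSubring.subtype_apply]
  rw [hmap, CscData.psi]
  simp only [add_comp, mul_comp, sub_comp, X_comp, C_comp, pow_comp]
  rw [hx]
  conv_lhs => rw [D.q_eq]
  rw [CscData.x₁]
  simp only [map_mul, map_pow, mul_pow]
  ring

/-- **`Ψ_s = Ψ(ϖ X) / ϖ ^ (q + 1)`**. -/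
theorem csc_scaled_map :
    D.scaled.map O.subtype =
      C (((D.ϖ : E) ^ (q + 1))⁻¹) * D.psi.comp (C (D.ϖ : E) * X) := by
  have h0 : (D.ϖ : E) ^ (q + 1) ≠ 0 := pow_ne_zero _ D.coe_ϖ_ne_zero
  rw [csc_comp_eq, ← mul_assoc, ← C_mul, inv_mul_cancel₀ h0, C_1, one_mul]

/-- the principal part `(X - a) (X ^ q - Y)` is monic of degree `q + 1`. -/
theorem csc_main_monic (a : O) :
    ((X - C a) * (X ^ q - C D.Y) : O[X]).Monic :=
  (monic_X_sub_C a).mul (monic_X_pow_sub_C D.Y (by have := D.hq; omega))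

theorem csc_main_natDegree (a : O) :
    ((X - C a) * (X ^ q - C D.Y) : O[X]).natDegree = q + 1 := by
  rw [((monic_X_sub_C a).natDegree_mul (monic_X_pow_sub_C D.Y (by have := D.hq; omega))),
    natDegree_X_sub_C, natDegree_X_pow_sub_C]
  ring

theorem csc_tail_natDegree_le : (C D.uinv * D.R.comp (C D.ϖ * X)).natDegree ≤ q := by
  refine (natDegree_C_mul_le _ _).trans ?_
  refine natDegree_comp_le.trans ?_
  have h1 : (C D.ϖ * X : O[X]).natDegree ≤ 1 :=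
    (natDegree_C_mul_le _ _).trans (natDegree_X_le)
  calc D.R.natDegree * (C D.ϖ * X : O[X]).natDegree ≤ q * 1 := Nat.mul_le_mul D.hR h1
    _ = q := mul_one q

/-- **`Ψ_s` is monic.** -/
theorem csc_scaled_monic : D.scaled.Monic := by
  rw [CscData.scaled]
  refine (csc_main_monic D _).add_of_left ?_
  rw [degree_eq_natDegree (csc_main_monic D _).ne_zero, csc_main_natDegree]
  refine lt_of_le_of_lt degree_le_natDegree ?_
  exact_mod_cast Nat.lt_succ_of_le (csc_tail_natDegree_le D)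

/-- **`Ψ_s` has degree `q + 1`.** -/
theorem csc_scaled_natDegree : D.scaled.natDegree = q + 1 := by
  rw [CscData.scaled]
  rw [natDegree_add_eq_left_of_natDegree_lt, csc_main_natDegree]
  rw [csc_main_natDegree]
  exact Nat.lt_succ_of_le (csc_tail_natDegree_le D)

/-- **the reduction of `Ψ_s`**: `X ^ (q + 1) - y X + c`, `y = ρ Y`, `c = ρ (u⁻¹) ρ (R(0))`. -/
theorem csc_scaled_map_res {κ : Type*} [CommRing κ] (ρ : O →+* κ) (hρ : ρ D.ϖ = 0) :
    D.scaled.map ρ =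
      X ^ (q + 1) - C (ρ D.Y) * X + C (ρ D.uinv * ρ (D.R.coeff 0)) := by
  have h1 : ρ (D.ϖ ^ (q ^ 2 - 1) * D.Y ^ q) = 0 := by
    rw [map_mul, map_pow, hρ, zero_pow (by have := csc_one_le_sq_sub_one D.hq; omega), zero_mul]
  have h2 : (D.R.comp (C D.ϖ * X)).map ρ = C (ρ (D.R.coeff 0)) := by
    rw [Polynomial.map_comp, Polynomial.map_mul, Polynomial.map_C, Polynomial.map_X, hρ, C_0,
      zero_mul, comp_zero, ← coeff_zero_eq_eval_zero, coeff_map]
  rw [CscData.scaled, Polynomial.map_add, Polynomial.map_mul, Polynomial.map_mul,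
    Polynomial.map_sub, Polynomial.map_sub, Polynomial.map_X, Polynomial.map_C, Polynomial.map_C,
    Polynomial.map_C, Polynomial.map_pow, Polynomial.map_X, h1, h2, C_0, sub_zero, C_mul]
  ring

/-- the coefficients of the reduction of `Ψ_s`. -/
theorem csc_scaled_map_res_coeff_zero {κ : Type*} [CommRing κ] (ρ : O →+* κ) (hρ : ρ D.ϖ = 0) :
    ρ (D.scaled.coeff 0) = ρ D.uinv * ρ (D.R.coeff 0) := by
  have h := congrArg (fun p : κ[X] => p.coeff 0) (csc_scaled_map_res D ρ hρ)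
  simpa [coeff_map] using h

/-- **`Ψ_s (x / ϖ) = Ψ (x) / ϖ ^ (q + 1)`**. -/
theorem csc_aeval_scaled {F : Type*} [Field F] [Algebra E F] (x : F) :
    aeval (x / algebraMap E F (D.ϖ : E)) (D.scaled.map O.subtype) =
      (algebraMap E F (D.ϖ : E) ^ (q + 1))⁻¹ * aeval x D.psi := by
  have h0 : algebraMap E F (D.ϖ : E) ≠ 0 := (_root_.map_ne_zero _).mpr D.coe_ϖ_ne_zero
  rw [csc_scaled_map, map_mul, aeval_C, aeval_comp, map_mul, aeval_C, aeval_X, map_inv₀, map_pow,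
    mul_div_cancel₀ _ h0]

/-- **the roots of `Ψ_s` are the roots of `Ψ` divided by `ϖ`.** -/
theorem csc_root_iff {F : Type*} [Field F] [Algebra E F] (x : F) :
    aeval (x / algebraMap E F (D.ϖ : E)) (D.scaled.map O.subtype) = 0 ↔ aeval x D.psi = 0 := by
  have h0 : (algebraMap E F (D.ϖ : E) ^ (q + 1))⁻¹ ≠ 0 :=
    inv_ne_zero (pow_ne_zero _ ((_root_.map_ne_zero _).mpr D.coe_ϖ_ne_zero))
  rw [csc_aeval_scaled, mul_eq_zero]
  exact ⟨fun h => h.resolve_left h0, fun h => Or.inr h⟩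

/-- the same with the root of `Ψ_s` as the variable. -/
theorem csc_root_iff' {F : Type*} [Field F] [Algebra E F] (w : F) :
    aeval w (D.scaled.map O.subtype) = 0 ↔ aeval (algebraMap E F (D.ϖ : E) * w) D.psi = 0 := by
  have h0 : algebraMap E F (D.ϖ : E) ≠ 0 := (_root_.map_ne_zero _).mpr D.coe_ϖ_ne_zero
  rw [← csc_root_iff, mul_div_cancel_left₀ _ h0]

/-- the constant `c` of the reduction is a constant of the residue field if `ρ (u⁻¹)` and
`ρ (R(0))` are. -/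
theorem csc_const_mem_range {κ k : Type*} [CommRing κ] [CommRing k] [Algebra k κ] (ρ : O →+* κ)
    (hu : ρ D.uinv ∈ (algebraMap k κ).range) (hR : ρ (D.R.coeff 0) ∈ (algebraMap k κ).range) :
    ρ D.uinv * ρ (D.R.coeff 0) ∈ (algebraMap k κ).range :=
  mul_mem hu hR

end Fermat.Agent.HPVal
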