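/-
Cluster G (S36), W-P, seat CORE-HYP (helper94): from the scaled Kronecker data (`CoreScale`) to
the hypotheses `CnpHyp` of `CoreNP`.

`O1` a valuation ring of `E` with residue map `ρ1 : O1 → κ1` (onto, kernel = non-units),
`D : CscData O1 q` (`ϖ ^ (q + 1) = q u`, `Ψ = (X - x₁^q)(X^q - x₁) + q R`), `q` prime, `q = 0` in
`κ1`; `x ≠ z` two roots of `Ψ` in `F ⊇ E`; `O` a valuation ring of `F` over `O1` with a residue
map `ρ : O → Fk` killing the non-units.  Then there is `j : κ1 → Fk` (the induced map of residue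
fields) such that `W = x / ϖ`, `Z = z / ϖ` satisfy `CnpHyp` for the polynomial `D.scaled`, with
`y = ρ1 Y` and `c = ρ1 (u⁻¹) ρ1 (R(0))`.

* `chyp_ρ_ϖ`            : `ρ1 ϖ = 0`;
* `cnpHyp_of_csc`       : the general form;
* `cnpHyp_of_csc_setup` : the form for `S1 : ValSetup K E k κ1` (`c` a constant of `k`).
-/
import Mathlib
import Fermat.Agent.Lib.BadRed.HPVal.CoreScale
import Fermat.Agent.Lib.BadRed.HPVal.CoreNP
import Fermat.Agent.Lib.Deuring.Setup

set_option autoImplicit false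
set_option linter.unusedSectionVars false
set_option linter.unusedVariables false
set_option linter.style.haveILetI false

noncomputable section

namespace Fermat.Agent.HPVal

open Polynomial Fermat.Agent.BadRed Fermat.Agent.Deuring

variable {E F : Type*} [Field E] [Field F] [Algebra E F]
variable {κ1 Fk : Type*} [Field κ1] [Field Fk]

/-- `ρ1 ϖ = 0`: `ϖ ^ (q + 1) = q u` and `q = 0` in the residue field. -/
theorem chyp_ρ_ϖ {O1 : ValuationSubring E} {q : ℕ} (D : CscData O1 q) (ρ1 : O1 →+* κ1)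
    (hchar : (q : κ1) = 0) : ρ1 D.ϖ = 0 := by
  have h1 := congrArg ρ1 D.hϖ
  rw [map_pow, map_mul, map_natCast, hchar, zero_mul] at h1
  exact pow_eq_zero_iff (by omega) |>.mp h1

/-- **CORE-HYP, general form.** -/
theorem cnpHyp_of_csc {O1 : ValuationSubring E} {q : ℕ} (D : CscData O1 q) (ρ1 : O1 →+* κ1)
    (hρ1_surj : Function.Surjective ρ1) (hρ1 : ∀ a : O1, ρ1 a = 0 → ¬ IsUnit a)
    (hq : q.Prime) (hchar : (q : κ1) = 0) {y c : κ1} (hY : ρ1 D.Y = y)
    (hc : ρ1 D.uinv * ρ1 (D.R.coeff 0) = c) (hc0 : c ≠ 0)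
    {x z : F} (hx : aeval x D.psi = 0) (hz : aeval z D.psi = 0) (hxz : x ≠ z)
    (O : ValuationSubring F) (hO : LiesOverV O1 O) (ρ : O →+* Fk)
    (hρ : ∀ f : O, ¬ IsUnit f → ρ f = 0) :
    ∃ j : κ1 →+* Fk, CnpHyp O1 O ρ1 ρ j q D.scaled y c
      (x / algebraMap E F (D.ϖ : E)) (z / algebraMap E F (D.ϖ : E)) := by
  obtain ⟨j, hj⟩ := cnp_exists_resHom hO ρ1 ρ hρ1_surj hρ1 hρ
  have h0 : algebraMap E F (D.ϖ : E) ≠ 0 := (_root_.map_ne_zero _).mpr D.coe_ϖ_ne_zero
  refine ⟨j, ?_⟩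
  exact
    { liesOver := hO
      ρ1_ker := hρ1
      ρ_ker := hρ
      comp := hj
      prime := hq
      char := hchar
      monic := csc_scaled_monic D
      red := by rw [csc_scaled_map_res D ρ1 (chyp_ρ_ϖ D ρ1 hchar), hY, hc]
      c_ne := hc0
      ne := fun h => hxz (by
        have := congrArg (fun t => t * algebraMap E F (D.ϖ : E)) h
        simpa [div_mul_cancel₀ _ h0] using this)
      rootW := by
        rw [← cnp_aeval_map_subtype]
        exact (csc_root_iff D x).mpr hx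
      rootZ := by
        rw [← cnp_aeval_map_subtype]
        exact (csc_root_iff D z).mpr hz }

section Setup

variable {K k : Type*} [Field K] [Algebra K E] [Field k] [Algebra k κ1]

/-- the residue characteristic in `κ1`. -/
theorem chyp_char {q : ℕ} (hchar : (q : k) = 0) : (q : κ1) = 0 := by
  have := congrArg (algebraMap k κ1) hchar
  simpa using this

/-- **CORE-HYP** for `S1 : ValSetup K E k κ1` (the disc valuation), `c` a constant of `k`. -/
theorem cnpHyp_of_csc_setup (S1 : ValSetup K E k κ1) {q : ℕ} (D : CscData S1.Ov q)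
    (hq : q.Prime) (hchar : (q : k) = 0) {y : κ1} (hY : S1.ρ D.Y = y) {c : k}
    (hc : S1.ρ D.uinv * S1.ρ (D.R.coeff 0) = algebraMap k κ1 c) (hc0 : c ≠ 0)
    {x z : F} (hx : aeval x D.psi = 0) (hz : aeval z D.psi = 0) (hxz : x ≠ z)
    (O : ValuationSubring F) (hO : LiesOverV S1.Ov O) (ρ : O →+* Fk)
    (hρ : ∀ f : O, ¬ IsUnit f → ρ f = 0) :
    ∃ j : κ1 →+* Fk, CnpHyp S1.Ov O S1.ρ ρ j q D.scaled y (algebraMap k κ1 c)
      (x / algebraMap E F (D.ϖ : E)) (z / algebraMap E F (D.ϖ : E)) :=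
  cnpHyp_of_csc D S1.ρ S1.ρ_surj (fun a h => (S1.ρ_eq_zero_iff a).mp h) hq (chyp_char hchar) hY hc
    ((_root_.map_ne_zero _).mpr hc0) hx hz hxz O hO ρ hρ

end Setup

end Fermat.Agent.HPVal
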