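/-
Cluster G (S36), block W-P, seat CORE (helper42; sub-architect helper59): **the valuation `w_P`**.
THE ASSEMBLY of CORE-EX (helper75), CORE-HYP / CORE-NP (helper94), CORE-FK (helper70),
CORE-COVER (helper75), VAL-IN (helper97).  Abstract: nothing modular.

Setting: fields `K ⊂ E ⊂ F`, `[F : E] = q (q + 1)`; `S1 : ValSetup K E k κ1` the disc valuation of
`E` (`κ1 = k(y)`, `y` transcendental, `k` algebraically closed of characteristic `q`),
`D : CscData S1.Ov q` the scaled Kronecker form (`ϖ ^ (q + 1) = q u`,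
`Ψ = (X - x₁^q)(X^q - x₁) + q R`), with `ρ₁ Y = y` and `ρ₁ (u⁻¹) ρ₁ (R(0)) = c ∈ k`, `c ≠ 0`;
`x ≠ z` two roots of `Ψ` in `F`.  Then (`core_main`) there are a field `Fk / k`, a constant
reduction `S : ValSetup K F k Fk`, a curve `H : HPCurve k Fk q` and `ιk : κ1 →+* Fk` with

* `S.A = S1.A`, `S.res = S1.res`;
* `HasLattice S` (if `HasLattice S1`);
* `S.Ov` lies over `S1.Ov`, `S.red ∘ algebraMap E F = ιk ∘ S1.red` on `S1.Ov`;
* `x / ϖ`, `z / ϖ ∈ S.Ov`, `S.red (x / ϖ) = H.X1`, `S.red (z / ϖ) = H.X2`, `ιk y = H.Yf`,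
  `H.c = c`;
* the reductions of the elements of `S1.Ov` lie in `k(H.Yf)`; `[Fk : k(H.Yf)] = q (q + 1)`;
* UNIQUENESS: `S.Ov` is the only valuation ring of `F` over `S1.Ov`.

`core_main_K` : the same with `ϖ ∈ K` (`W = x * (algebraMap K F ϖ)⁻¹`), the shape used by
`S36/HPVal/Val.lean` (helper93).
-/
import Mathlib
import Fermat.Agent.Lib.BadRed.HPVal.CoreHyp
import Fermat.Agent.Lib.BadRed.HPVal.CoreFk
import Fermat.Agent.Lib.BadRed.HPVal.CoreCover
import Fermat.Agent.Lib.BadRed.HPVal.CoreEx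
import Fermat.Agent.S36.HPVal.ValInHP

set_option autoImplicit false
set_option linter.unusedSectionVars false
set_option linter.unusedVariables false
set_option linter.style.haveILetI false

noncomputable section

namespace Fermat.Agent.HPVal

open Polynomial IntermediateField Fermat.Agent.BadRed Fermat.Agent.Deuring Fermat.Agent.RR
  Fermat.Agent.HP Fermat.Agent.S36G

universe uK uE uF uk uκ

variable {K : Type uK} {E : Type uE} {F : Type uF} {k : Type uk} {κ1 : Type uκ}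
  [Field K] [Field E] [Algebra K E] [Field F] [Algebra K F] [Algebra E F] [IsScalarTower K E F]
  [Field k] [Field κ1] [Algebra k κ1]

/-- the induced map of residue fields is unique. -/
theorem core_j_eq {Fk : Type*} [Field Fk] (S1 : ValSetup K E k κ1) {O : ValuationSubring F}
    (hO : LiesOverV S1.Ov O) {ρ : O →+* Fk} {j ιk : κ1 →+* Fk}
    (hj : ∀ (a : S1.Ov) (h : algebraMap E F (a : E) ∈ O), ρ ⟨algebraMap E F (a : E), h⟩ = j (S1.ρ a))
    (hι : ∀ (e : E) (he : e ∈ S1.Ov) (he' : algebraMap E F e ∈ O),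
      ρ ⟨algebraMap E F e, he'⟩ = ιk (S1.ρ ⟨e, he⟩)) : j = ιk := by
  ext a
  obtain ⟨b, rfl⟩ := S1.ρ_surj a
  have hb : algebraMap E F (b : E) ∈ O := (hO.mem_iff _).mpr b.2
  rw [← hj b hb, hι (b : E) b.2 hb]

/-- **CORE**: the valuation `w_P`, general form. -/
theorem core_main [IsAlgClosed k] (S1 : ValSetup K E k κ1) (hL1 : HasLattice S1)
    (hF : IsRRField K F) {q : ℕ} (hq : q.Prime) (hchar : ((q : ℕ) : k) = 0)
    (hfin : Module.finrank E F = q * (q + 1))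
    (D : CscData S1.Ov q) {y : κ1} (hgen : k⟮y⟯ = ⊤) (hy : Transcendental k y)
    (hY : S1.ρ D.Y = y) {c : k}
    (hc : S1.ρ D.uinv * S1.ρ (D.R.coeff 0) = algebraMap k κ1 c) (hc0 : c ≠ 0)
    {x z : F} (hx : aeval x D.psi = 0) (hz : aeval z D.psi = 0) (hxz : x ≠ z) :
    ∃ (Fk : Type uF) (_ : Field Fk) (_ : Algebra k Fk) (S : ValSetup K F k Fk)
      (H : HPCurve k Fk q) (ιk : κ1 →+* Fk),
      S.A = S1.A ∧
      (∀ (c : K) (h : c ∈ S.A) (h' : c ∈ S1.A), S.res ⟨c, h⟩ = S1.res ⟨c, h'⟩) ∧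
      HasLattice S ∧
      LiesOverV S1.Ov S.Ov ∧
      (∀ c : k, ιk (algebraMap k κ1 c) = algebraMap k Fk c) ∧
      (∀ e ∈ S1.Ov, S.red (algebraMap E F e) = ιk (S1.red e)) ∧
      x / algebraMap E F (D.ϖ : E) ∈ S.Ov ∧ z / algebraMap E F (D.ϖ : E) ∈ S.Ov ∧
      S.red (x / algebraMap E F (D.ϖ : E)) = H.X1 ∧
      S.red (z / algebraMap E F (D.ϖ : E)) = H.X2 ∧
      ιk y = H.Yf ∧ H.c = c ∧
      (∀ e ∈ S1.Ov, S.red (algebraMap E F e) ∈ k⟮H.Yf⟯) ∧
      Module.finrank k⟮H.Yf⟯ Fk = q * (q + 1) ∧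
      (∀ O' : ValuationSubring F, LiesOverV S1.Ov O' → O' = S.Ov) := by
  classical
  haveI : FiniteDimensional E F := Module.finite_of_finrank_pos (by
    rw [hfin]
    exact Nat.mul_pos hq.pos (Nat.succ_pos q))
  haveI : Infinite k := IsAlgClosed.instInfinite
  obtain ⟨O, Fk, iF, iA, ιk, ρ, hO, hιk, hρι, hρsurj, hρker⟩ := cex_exists (F := F) S1
  letI := iF
  letI := iA
  obtain ⟨j, hj⟩ := cnpHyp_of_csc_setup S1 D hq hchar hY hc hc0 hx hz hxz O hO ρ
    (fun f hf => (hρker f).mpr hf)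
  have hjι : j = ιk := core_j_eq S1 hO hj.comp hρι
  subst hjι
  have hR := hj.resIndep hgen hy c rfl
  have hcard : Fintype.card (Fin (q + 1) × Fin q) = Module.finrank E F := by
    rw [hfin]
    simp [mul_comm]
  have hVI : ValIn S1 j O ρ :=
    ⟨hιk, hO, hρι, hρsurj, hρker, fun f hf => ccov_scale S1 hO hR hcard f hf⟩
  let H : HPCurve k Fk q := hj.cfkCurve hιk hgen hy c rfl hfin hρsurj
  have hq1 : ((q + 1 : ℕ) : k) ≠ 0 := hp_succ_ne_zero hchar
  let S : ValSetup K F k Fk := hVI.toValSetupHP H hq1 hF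
  have hW : x / algebraMap E F (D.ϖ : E) ∈ O := hj.W_mem
  have hZ : z / algebraMap E F (D.ϖ : E) ∈ O := hj.Z_mem
  refine ⟨Fk, iF, iA, S, H, j, rfl, fun c h h' => rfl, ?_, hO, hιk, ?_, hW, hZ, ?_, ?_, ?_, rfl,
    ?_, ?_, ?_⟩
  · exact ccov_hasLattice S1 hL1 S hO (fun c h1 h => rfl) hR hcard
  · intro e he
    exact hVI.redHP_algebraMap H hq1 hF he
  · exact hVI.redHP_of_mem H hq1 hF hW
  · exact hVI.redHP_of_mem H hq1 hF hZ
  · exact (hj.cfkCurve_Yf hιk hgen hy c rfl hfin hρsurj).symm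
  · intro e he
    have he' : algebraMap E F e ∈ O := (hO.mem_iff e).mpr he
    rw [hVI.redHP_of_mem H hq1 hF he']
    exact hj.cfk_old_mem' hιk hgen hy c rfl hfin hρsurj e he he'
  · exact hj.cfk_finrank_res hιk hgen hy c rfl hfin hρsurj
  · intro O' hO'
    exact ccov_unique_setup S1 hO hR hcard hO'

end Fermat.Agent.HPVal
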