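import Mathlib
import Fermat.Agent.Lib.BadRed.TwoExtExist
import Fermat.Agent.S27.Lift.ValAdapt

set_option autoImplicit false
set_option linter.unusedSectionVars false
set_option linter.style.haveILetI false

/-!
# Cluster G (S36), block W-P, abstract part: ROOT SELECTION

Extension of a valuation ring to a simple algebraic extension with a PRESCRIBED residue of the
generator.  Nothing modular.

`E ⊆ F` fields, `O` a valuation ring of `E` with residue map `ρ : O → κ` (kernel = the non-units),
`θ ∈ F`, `g ∈ O[T]` primitive (`ρ g ≠ 0`) dividing a power of the minimal polynomial of `θ` over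
`E` (for instance the normalised characteristic polynomial of `θ`), `L` a field over `κ` and
`ξ ∈ L` a root of `ρ g`.

* `rs_exists_primitive` : every nonzero polynomial over `E` is a constant times a polynomial over
  `O` with a coefficient equal to `1`;
* `rs_dvd_of_map_dvd`   : Gauss lemma: `g` primitive and `g ∣ p` over `E` imply `g ∣ p` over `O`;
* `rs_key`              : `h(θ) = 0` implies `(ρ h)(ξ) = 0`;
* **`exists_valuationSubring_root`** : there is a valuation ring `O'` of `F` over `O` with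
  `θ ∈ O'` and, for all `h ∈ O[T]`:  `h(θ) ∈ 𝔪_{O'}  ↔  (ρ h)(ξ) = 0`
  (so `κ(ξ)` embeds into the residue field of `O'`, the residue of `θ` going to `ξ`).

Use (W-P): `θ = t₁ / ϖ^q` over `α² F₀` with the circle valuation, `g` the normalised Kronecker
polynomial, `ρ g = - X T + X^(q+1) + c` (degree one), `ξ = X^q + c / X`;  then `θ = t₂ / ϖ`,
`ρ g` = the equation of `H_P`, `ξ = X₂ ∈ k(H_P)`.
-/

noncomputable section

open Polynomial

namespace Fermat.Agent.HPVal

open Fermat.Agent.BadRed

variable {E F : Type*} [Field E] [Field F] [Algebra E F]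

/-- normalisation: a nonzero polynomial over `E` is a nonzero constant times a polynomial over
the valuation ring `O` which has a coefficient equal to `1`. -/
theorem rs_exists_primitive (O : ValuationSubring E) {r : E[X]} (hr : r ≠ 0) :
    ∃ (d : E) (r₂ : O[X]), d ≠ 0 ∧ r = C d * r₂.map O.subtype ∧ ∃ i, r₂.coeff i = 1 := by
  classical
  have hne : r.support.Nonempty := by
    rw [Finset.nonempty_iff_ne_empty, Ne, Polynomial.support_eq_empty]
    exact hr
  obtain ⟨i₀, hi₀, hmax⟩ := Finset.exists_max_image r.support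
    (fun i => O.valuation (r.coeff i)) hne
  set d := r.coeff i₀ with hd
  have hd0 : d ≠ 0 := Polynomial.mem_support_iff.mp hi₀
  have hcoef : ∀ i, d⁻¹ * r.coeff i ∈ O := by
    intro i
    by_cases hi : i ∈ r.support
    · rw [← ValuationSubring.valuation_le_one_iff, map_mul, map_inv₀]
      have h1 := hmax i hi
      have h2 : O.valuation d ≠ 0 := (Valuation.ne_zero_iff _).mpr hd0
      rw [inv_mul_le_iff₀ (zero_lt_iff.mpr h2), mul_one]
      exact h1
    · rw [Polynomial.notMem_support_iff.mp hi, mul_zero]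
      exact O.zero_mem
  have hsub : (↑(C d⁻¹ * r).coeffs : Set E) ⊆ O.toSubring := by
    intro x hx
    rw [Finset.mem_coe, Polynomial.mem_coeffs_iff] at hx
    obtain ⟨n, -, rfl⟩ := hx
    rw [Polynomial.coeff_C_mul]
    exact hcoef n
  refine ⟨d, (C d⁻¹ * r).toSubring O.toSubring hsub, hd0, ?_, i₀, ?_⟩
  · have h1 : ((C d⁻¹ * r).toSubring O.toSubring hsub).map O.subtype = C d⁻¹ * r :=
      Polynomial.map_toSubring _ _ hsub
    rw [h1, ← mul_assoc, ← C_mul, mul_inv_cancel₀ hd0, C_1, one_mul]
  · apply Subtype.ext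
    have h1 := Polynomial.coeff_toSubring (C d⁻¹ * r) O.toSubring hsub (n := i₀)
    rw [h1, Polynomial.coeff_C_mul, ← hd, inv_mul_cancel₀ hd0]
    rfl

variable (O : ValuationSubring E) {κ : Type*} [Field κ] (ρ : O →+* κ)

/-- **Gauss lemma** over a valuation ring: a primitive polynomial which divides `p` over the
fraction field divides `p` over the valuation ring. -/
theorem rs_dvd_of_map_dvd (hρ : ∀ f : O, ρ f = 0 ↔ ¬ IsUnit f) {g p : O[X]}
    (hg : g.map ρ ≠ 0) (h : g.map O.subtype ∣ p.map O.subtype) : g ∣ p := by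
  have hinj : Function.Injective (Polynomial.map (O.subtype : O →+* E)) :=
    Polynomial.map_injective _ Subtype.coe_injective
  obtain ⟨r, hr⟩ := h
  rcases eq_or_ne r 0 with rfl | hr0
  · rw [mul_zero] at hr
    have : p = 0 := hinj (by rw [hr, Polynomial.map_zero])
    rw [this]
    exact dvd_zero g
  obtain ⟨d, r₂, hd0, hr₂, i, hi⟩ := rs_exists_primitive O hr0
  have hr₂ρ : r₂.map ρ ≠ 0 := by
    intro h0
    have := congrArg (fun q => q.coeff i) h0
    simp only [Polynomial.coeff_map, hi, map_one, Polynomial.coeff_zero] at this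
    exact one_ne_zero this
  by_cases hdO : d ∈ O
  · refine ⟨C (⟨d, hdO⟩ : O) * r₂, hinj ?_⟩
    rw [hr, hr₂, Polynomial.map_mul, Polynomial.map_mul, Polynomial.map_C]
    rfl
  · exfalso
    have hdinv : d⁻¹ ∈ O := (O.mem_or_inv_mem d).resolve_left hdO
    have hnu : ¬ IsUnit (⟨d⁻¹, hdinv⟩ : O) := by
      intro hu
      obtain ⟨u, hu'⟩ := hu
      apply hdO
      have h1 : ((u⁻¹ : Oˣ) : O) * ⟨d⁻¹, hdinv⟩ = 1 := by
        rw [← hu']
        exact u.inv_mul
      have h2 : (((u⁻¹ : Oˣ) : O) : E) * d⁻¹ = 1 := congrArg Subtype.val h1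
      have h3 : (((u⁻¹ : Oˣ) : O) : E) = d := by
        field_simp at h2
        exact h2
      rw [← h3]
      exact SetLike.coe_mem _
    have hzero : ρ ⟨d⁻¹, hdinv⟩ = 0 := (hρ _).mpr hnu
    have heq : g * r₂ = C (⟨d⁻¹, hdinv⟩ : O) * p := by
      apply hinj
      rw [Polynomial.map_mul, Polynomial.map_mul, hr, hr₂, Polynomial.map_C]
      have : (O.subtype : O →+* E) ⟨d⁻¹, hdinv⟩ = d⁻¹ := rfl
      rw [this]
      have hC : (C d⁻¹ : E[X]) * C d = 1 := by
        rw [← C_mul, inv_mul_cancel₀ hd0, C_1]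
      calc Polynomial.map O.subtype g * Polynomial.map O.subtype r₂
          = (C d⁻¹ * C d) * (Polynomial.map O.subtype g * Polynomial.map O.subtype r₂) := by
            rw [hC, one_mul]
        _ = C d⁻¹ * (Polynomial.map O.subtype g * (C d * Polynomial.map O.subtype r₂)) := by
            ring
    have := congrArg (Polynomial.map ρ) heq
    rw [Polynomial.map_mul, Polynomial.map_mul, Polynomial.map_C, hzero, C_0, zero_mul] at this
    exact (mul_ne_zero hg hr₂ρ) this

/-- **the key lemma**: a polynomial over `O` vanishing at `θ` reduces to a polynomial vanishing at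
the chosen root `ξ` of the reduction of `g`. -/
theorem rs_key (hρ : ∀ f : O, ρ f = 0 ↔ ¬ IsUnit f) {θ : F} {g : O[X]} (hg : g.map ρ ≠ 0)
    (hdvd : ∃ m : ℕ, g.map O.subtype ∣ (minpoly E θ) ^ m)
    {L : Type*} [Field L] (ι : κ →+* L) {ξ : L} (hξ : eval₂ (ι.comp ρ) ξ g = 0)
    {h : O[X]} (hh : eval₂ ((algebraMap E F).comp O.subtype) θ h = 0) :
    eval₂ (ι.comp ρ) ξ h = 0 := by
  obtain ⟨m, hm⟩ := hdvd
  have h1 : Polynomial.aeval θ (h.map O.subtype) = 0 := by
    rw [Polynomial.aeval_def, Polynomial.eval₂_map]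
    exact hh
  have h2 : minpoly E θ ∣ h.map O.subtype := minpoly.dvd E θ h1
  have h3 : g.map O.subtype ∣ (h ^ m).map O.subtype := by
    rw [Polynomial.map_pow]
    exact hm.trans (pow_dvd_pow_of_dvd h2 m)
  obtain ⟨r, hr⟩ := rs_dvd_of_map_dvd O ρ hρ hg h3
  have h4 : eval₂ (ι.comp ρ) ξ (h ^ m) = 0 := by
    rw [hr, eval₂_mul, hξ, zero_mul]
  rw [eval₂_pow] at h4
  have hm0 : m ≠ 0 := by
    rintro rfl
    rw [pow_zero] at h4
    exact one_ne_zero h4
  exact (pow_eq_zero_iff hm0).mp h4

/-- **ROOT SELECTION.**  There is a valuation ring `O'` of `F` over `O` containing `θ` in which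
`h(θ)` is a non-unit exactly when the reduction of `h` vanishes at `ξ`. -/
theorem exists_valuationSubring_root (hρ : ∀ f : O, ρ f = 0 ↔ ¬ IsUnit f) (θ : F) {g : O[X]}
    (hg : g.map ρ ≠ 0) (hdvd : ∃ m : ℕ, g.map O.subtype ∣ (minpoly E θ) ^ m)
    {L : Type*} [Field L] (ι : κ →+* L) (ξ : L) (hξ : eval₂ (ι.comp ρ) ξ g = 0) :
    ∃ O' : ValuationSubring F, LiesOverV O O' ∧ θ ∈ O' ∧
      ∀ h : O[X], (eval₂ ((algebraMap E F).comp O.subtype) θ h ∈ O'.nonunits ↔
        eval₂ (ι.comp ρ) ξ h = 0) := by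
  classical
  set φ : O →+* F := (algebraMap E F).comp O.subtype with hφ
  set evθ : O[X] →+* F := Polynomial.eval₂RingHom φ θ with hevθ
  set evξ : O[X] →+* L := Polynomial.eval₂RingHom (ι.comp ρ) ξ with hevξ
  set S : Subring F := evθ.range with hS
  have hsurj : Function.Surjective evθ.rangeRestrict := evθ.rangeRestrict_surjective
  have hker : RingHom.ker evθ.rangeRestrict ≤ RingHom.ker evξ := by
    intro h hh
    rw [RingHom.mem_ker] at hh ⊢
    have h1 : evθ h = 0 := congrArg Subtype.val hh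
    exact rs_key O ρ hρ hg hdvd ι hξ h1
  set ψ : S →+* L := evθ.rangeRestrict.liftOfSurjective hsurj ⟨evξ, hker⟩ with hψ
  have hψ_apply : ∀ h : O[X], ψ (evθ.rangeRestrict h) = evξ h := fun h =>
    RingHom.liftOfSurjective_comp_apply _ hsurj ⟨evξ, hker⟩ h
  haveI : (RingHom.ker ψ).IsPrime := RingHom.ker_isPrime ψ
  obtain ⟨V, hSV, hP, hnP⟩ := Fermat.Agent.S27.exists_valuationSubring_of_prime S (RingHom.ker ψ)
  have hmemS : ∀ h : O[X], evθ h ∈ S := fun h => ⟨h, rfl⟩
  have hiff : ∀ h : O[X], (evθ h ∈ V.nonunits ↔ evξ h = 0) := by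
    intro h
    constructor
    · intro hnu
      by_contra hne
      have h1 : evθ.rangeRestrict h ∉ RingHom.ker ψ := by
        rw [RingHom.mem_ker, hψ_apply]
        exact hne
      obtain ⟨h0, hinv⟩ := hnP _ h1
      have h2 : evθ h ∈ V := hSV (hmemS h)
      have h3 : V.valuation (evθ h) < 1 := (V.mem_nonunits_iff).mp hnu
      have h4 : V.valuation (evθ h)⁻¹ ≤ 1 := (V.valuation_le_one_iff _).mpr hinv
      rw [map_inv₀] at h4
      have h5 : V.valuation (evθ h) ≠ 0 := (Valuation.ne_zero_iff _).mpr h0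
      have h6 : (1 : V.ValueGroup) ≤ V.valuation (evθ h) := by
        have := (inv_le_one₀ (zero_lt_iff.mpr h5)).mp h4
        exact this
      exact absurd h3 (not_lt.mpr h6)
    · intro h0
      have h1 : evθ.rangeRestrict h ∈ RingHom.ker ψ := by
        rw [RingHom.mem_ker, hψ_apply]
        exact h0
      exact hP _ h1
  refine ⟨V, ?_, ?_, ?_⟩
  · apply liesOverV_of_le
    · intro x hx
      have : algebraMap E F x = evθ (C ⟨x, hx⟩) := by
        rw [hevθ, Polynomial.coe_eval₂RingHom, eval₂_C]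
        rfl
      rw [this]
      exact hSV (hmemS _)
    · intro x hx
      have hxO : x ∈ O := by
        have := (O.mem_nonunits_iff).mp hx
        exact (O.valuation_le_one_iff x).mp (le_of_lt this)
      have hnu : ¬ IsUnit (⟨x, hxO⟩ : O) := by
        intro hu
        have h1 : O.valuation x = 1 := (O.valuation_eq_one_iff ⟨x, hxO⟩).mp hu
        have h2 := (O.mem_nonunits_iff).mp hx
        rw [h1] at h2
        exact lt_irrefl _ h2
      have h0 : evξ (C ⟨x, hxO⟩) = 0 := by
        rw [hevξ, Polynomial.coe_eval₂RingHom, eval₂_C, RingHom.comp_apply, (hρ _).mpr hnu,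
          map_zero]
      have := (hiff (C ⟨x, hxO⟩)).mpr h0
      have e : algebraMap E F x = evθ (C ⟨x, hxO⟩) := by
        rw [hevθ, Polynomial.coe_eval₂RingHom, eval₂_C]
        rfl
      rw [e]
      exact this
  · have : θ = evθ X := by
      rw [hevθ, Polynomial.coe_eval₂RingHom, eval₂_X]
    rw [this]
    exact hSV (hmemS _)
  · intro h
    exact hiff h

end Fermat.Agent.HPVal
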