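import Mathlib
import Fermat.Agent.Lib.BadRed.HPVal.Circle
import Fermat.Agent.Lib.BadRed.HPVal.RootSel

set_option autoImplicit false
set_option linter.unusedSectionVars false
set_option linter.style.haveILetI false

/-!
# Cluster G (S36), block W-P, seat DISC-NORM (helper47): the disc valuation is EXACT and UNIQUE

Abstract, on top of `CircleData` (`Lib/BadRed/HPVal/Circle.lean`, helper51).  Nothing modular.

`F / K` fields, `A` a valuation ring of `K` with residue map `res : A → k`, `B ⊆ O` subrings of `F`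
(`B` = integral functions without pole on the residue disc of `P`), `t ∈ B`, `π ∈ A`, `ϖ` the
image of `π` in `F`, `ev : B → k` (evaluation of the reduction at `P`), `W = t / ϖ`.  Hypotheses
(`DiscData`): the circle hypotheses, `A ⊆ B` with `ev = res` on `A`, and

* `taylor` : `∀ g ∈ B, ∃ a ∈ A, (g - a) / t ∈ B`                (division lemma (D));
* `sep`    : `g ∈ B` with `g / t^N ∈ B` for all `N` is `0`       (finite order at the centre);
* `arch`   : `∀ c ≠ 0, ∃ N, |π^N| < |c|`                         (`A` has rank one);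
* `frac`   : every `f ∈ F` is a quotient of elements of `B`.

Results:

* `DiscData.taylorN`     : finite Taylor expansion `g = Q(t) + t^M g'`, `Q ∈ A[X]`, `g' ∈ B`;
* `DiscData.exists_unit` : every `g ∈ B`, `g ≠ 0`, is `c * G(W)` with `c ∈ K^×` and `G ∈ B[X]` of
  non-zero reduction (norm formula (N));
* `DiscData.exists_decomp` : every `f ∈ F^×` is `c * G(W) / H(W)`;
* `IsDiscVal` : the defining property of the disc valuation; `DiscData.exists_isDiscVal`
  (existence, from the circle lemma), `IsDiscVal.mem_iff`, **`IsDiscVal.unique`** (uniqueness),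
  **`IsDiscVal.scale`** (`e = 1`), **`IsDiscVal.residue`** (every element of `V` is congruent to
  `G(W) / H(W)` modulo the maximal ideal: the residue field is `k(W̄)` EXACTLY).
-/

noncomputable section

open Polynomial

namespace Fermat.Agent.HPVal

variable {K F k : Type*} [Field K] [Field F] [Algebra K F] [Field k]

/-- the hypotheses of the disc valuation (circle hypotheses + Taylor division). -/
structure DiscData (A : ValuationSubring K) (res : A →+* k) (O B : Subring F) (π : K) (t : F)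
    (ev : B →+* k) : Prop where
  circle : CircleData O B (algebraMap K F π) t ev
  π_mem : π ∈ A
  res_eq_zero_iff : ∀ a : A, res a = 0 ↔ ¬ IsUnit a
  const_mem : ∀ a ∈ A, algebraMap K F a ∈ B
  ev_const : ∀ (a : K) (ha : a ∈ A) (h : algebraMap K F a ∈ B),
    ev ⟨algebraMap K F a, h⟩ = res ⟨a, ha⟩
  taylor : ∀ g ∈ B, ∃ a ∈ A, (g - algebraMap K F a) * t⁻¹ ∈ B
  sep : ∀ g ∈ B, (∀ N : ℕ, g * (t ^ N)⁻¹ ∈ B) → g = 0
  arch : ∀ c : K, c ≠ 0 → ∃ N : ℕ, A.valuation (π ^ N) < A.valuation c
  frac : ∀ f : F, ∃ g ∈ B, g ≠ 0 ∧ f * g ∈ B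

namespace DiscData

variable {A : ValuationSubring K} {res : A →+* k} {O B : Subring F} {π : K} {t : F}
  {ev : B →+* k}

/-- the inclusion `A → B`. -/
def incl (D : DiscData A res O B π t ev) : A →+* B :=
  ((algebraMap K F).comp A.subtype).codRestrict B (fun a => D.const_mem a a.2)

theorem coe_incl (D : DiscData A res O B π t ev) (a : A) :
    ((D.incl a : B) : F) = algebraMap K F a := rfl

theorem ev_incl (D : DiscData A res O B π t ev) (a : A) : ev (D.incl a) = res a :=
  D.ev_const a a.2 _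

theorem π_ne (D : DiscData A res O B π t ev) : π ≠ 0 := by
  intro h
  apply D.circle.ϖ_ne
  rw [h, map_zero]

/-- `t = ϖ * W`. -/
theorem t_eq (D : DiscData A res O B π t ev) :
    algebraMap K F π * (t * (algebraMap K F π)⁻¹) = t := by
  have := D.circle.ϖ_ne
  field_simp

/-- evaluation at `W` of a polynomial with coefficients in `A`. -/
theorem evalHom_map_incl (D : DiscData A res O B π t ev) (Q : A[X]) :
    CircleData.evalHom B (algebraMap K F π) t (Q.map D.incl) =
      eval₂ ((algebraMap K F).comp A.subtype) (t * (algebraMap K F π)⁻¹) Q := by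
  show eval₂ B.subtype (t * (algebraMap K F π)⁻¹) (Q.map D.incl) = _
  rw [Polynomial.eval₂_map]
  rfl

/-- **finite Taylor expansion.** -/
theorem taylorN (D : DiscData A res O B π t ev) (M : ℕ) {g : F} (hg : g ∈ B) :
    ∃ (Q : A[X]) (g' : F), g' ∈ B ∧
      g = eval₂ ((algebraMap K F).comp A.subtype) t Q + t ^ M * g' := by
  induction M with
  | zero => exact ⟨0, g, hg, by simp⟩
  | succ M ih =>
    obtain ⟨Q, g', hg', e⟩ := ih
    obtain ⟨a, ha, h1⟩ := D.taylor g' hg'
    refine ⟨Q + C (⟨a, ha⟩ : A) * X ^ M, (g' - algebraMap K F a) * t⁻¹, h1, ?_⟩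
    rw [eval₂_add, eval₂_mul, eval₂_C, eval₂_pow, eval₂_X, e]
    have ht := D.circle.t_ne
    show _ = _ + algebraMap K F a * t ^ M + _
    field_simp
    ring

/-- the substitution `X ↦ π X` on `A[X]`. -/
def scalePoly (D : DiscData A res O B π t ev) (Q : A[X]) : A[X] :=
  Q.comp (C (⟨π, D.π_mem⟩ : A) * X)

theorem eval₂_scalePoly (D : DiscData A res O B π t ev) (Q : A[X]) :
    eval₂ ((algebraMap K F).comp A.subtype) (t * (algebraMap K F π)⁻¹) (D.scalePoly Q) =
      eval₂ ((algebraMap K F).comp A.subtype) t Q := by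
  unfold scalePoly
  rw [Polynomial.eval₂_comp, eval₂_mul, eval₂_C, eval₂_X]
  congr 1
  exact D.t_eq

theorem coeff_zero_scalePoly (D : DiscData A res O B π t ev) (Q : A[X]) :
    (D.scalePoly Q).coeff 0 = Q.coeff 0 := by
  unfold scalePoly
  rw [Polynomial.coeff_zero_eq_eval_zero, Polynomial.eval_comp, eval_mul, eval_X, mul_zero,
    ← Polynomial.coeff_zero_eq_eval_zero]

/-- a non-unit of `A` maps to `0` under `ev`. -/
theorem ev_eq_zero_of_val_lt (D : DiscData A res O B π t ev) {x : K} (hx : A.valuation x < 1)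
    (h : algebraMap K F x ∈ B) : ev ⟨algebraMap K F x, h⟩ = 0 := by
  have hxA : x ∈ A := (A.valuation_le_one_iff x).mp hx.le
  rw [D.ev_const x hxA h, D.res_eq_zero_iff]
  intro hu
  have h1 : A.valuation x = 1 := (A.valuation_eq_one_iff ⟨x, hxA⟩).mp hu
  rw [h1] at hx
  exact lt_irrefl _ hx

/-- (N), first case: a function with non-zero constant term is a constant times `G(W)`, `G` of
non-zero reduction. -/
theorem exists_unit_of_const_ne (D : DiscData A res O B π t ev) {g : F} {a : K}
    (ha : a ∈ A) (ha0 : a ≠ 0) (h1 : (g - algebraMap K F a) * t⁻¹ ∈ B) :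
    ∃ (c : K) (G : (↥B)[X]), c ≠ 0 ∧ G.map ev ≠ 0 ∧
      g = algebraMap K F c * CircleData.evalHom B (algebraMap K F π) t G := by
  classical
  have ht := D.circle.t_ne
  have hϖ := D.circle.ϖ_ne
  obtain ⟨N, hN⟩ := D.arch a ha0
  obtain ⟨Q₁, g', hg', e⟩ := D.taylorN N h1
  -- the polynomial `Q = a + X Q₁`
  set Q : A[X] := C (⟨a, ha⟩ : A) + X * Q₁ with hQ
  have hg : g = eval₂ ((algebraMap K F).comp A.subtype) t Q + t ^ (N + 1) * g' := by
    rw [hQ, eval₂_add, eval₂_C, eval₂_mul, eval₂_X]
    have e' : g = algebraMap K F a + t * ((g - algebraMap K F a) * t⁻¹) := by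
      field_simp
      ring
    rw [e', e]
    show _ = algebraMap K F a + _ + _
    ring
  set Qs : A[X] := D.scalePoly Q with hQs
  have hQs0 : Qs.coeff 0 = ⟨a, ha⟩ := by
    rw [hQs, D.coeff_zero_scalePoly, hQ]
    simp
  have hQsK : Qs.map A.subtype ≠ 0 := by
    intro h0
    have := congrArg (fun p => p.coeff 0) h0
    simp only [Polynomial.coeff_map, hQs0, Polynomial.coeff_zero] at this
    exact ha0 this
  obtain ⟨d, Q₂, hd0, hQ₂, i, hi⟩ := rs_exists_primitive A hQsK
  -- `a / d ∈ A`
  have had : a = d * ((Q₂.coeff 0 : A) : K) := by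
    have := congrArg (fun p => p.coeff 0) hQ₂
    simp only [Polynomial.coeff_map, hQs0, Polynomial.coeff_C_mul] at this
    exact this
  have hval : A.valuation a ≤ A.valuation d := by
    rw [had, map_mul]
    have h2 : A.valuation ((Q₂.coeff 0 : A) : K) ≤ 1 :=
      (A.valuation_le_one_iff _).mpr (Q₂.coeff 0).2
    calc A.valuation d * A.valuation ((Q₂.coeff 0 : A) : K) ≤ A.valuation d * 1 :=
          mul_le_mul_right h2 _
      _ = A.valuation d := mul_one _
  have hπ1 : A.valuation π ≤ 1 := (A.valuation_le_one_iff _).mpr D.π_mem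
  have hsmall : A.valuation (π ^ (N + 1) * d⁻¹) < 1 := by
    rw [map_mul, map_inv₀]
    have hd' : 0 < A.valuation d := zero_lt_iff.mpr ((Valuation.ne_zero_iff _).mpr hd0)
    rw [mul_inv_lt_iff₀ hd', one_mul]
    calc A.valuation (π ^ (N + 1)) = A.valuation (π ^ N) * A.valuation π := by
          rw [pow_succ, map_mul]
      _ ≤ A.valuation (π ^ N) * 1 := mul_le_mul_right hπ1 _
      _ = A.valuation (π ^ N) := mul_one _
      _ < A.valuation a := hN
      _ ≤ A.valuation d := hval
  have hsmallA : π ^ (N + 1) * d⁻¹ ∈ A := (A.valuation_le_one_iff _).mp hsmall.le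
  have hcB : algebraMap K F (π ^ (N + 1) * d⁻¹) ∈ B := D.const_mem _ hsmallA
  set b : B := ⟨algebraMap K F (π ^ (N + 1) * d⁻¹), hcB⟩ * ⟨g', hg'⟩ with hb
  have hevb : ev b = 0 := by
    rw [hb, map_mul, D.ev_eq_zero_of_val_lt hsmall hcB, zero_mul]
  refine ⟨d, Q₂.map D.incl + C b * X ^ (N + 1), hd0, ?_, ?_⟩
  · rw [Polynomial.map_add, Polynomial.map_mul, Polynomial.map_C, hevb, C_0, zero_mul, add_zero]
    intro h0
    have := congrArg (fun p => p.coeff i) h0
    simp only [Polynomial.coeff_map, hi, map_one, Polynomial.coeff_zero] at this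
    exact one_ne_zero this
  · rw [map_add, D.evalHom_map_incl, map_mul, CircleData.evalHom_C, map_pow,
      CircleData.evalHom_X]
    -- `d * Q₂(W) = Qs(W) = Q(t)`
    have h2 : algebraMap K F d *
        eval₂ ((algebraMap K F).comp A.subtype) (t * (algebraMap K F π)⁻¹) Q₂ =
        eval₂ ((algebraMap K F).comp A.subtype) t Q := by
      rw [← D.eval₂_scalePoly Q, ← hQs]
      have h3 : eval₂ ((algebraMap K F).comp A.subtype) (t * (algebraMap K F π)⁻¹) Qs =
          eval₂ (algebraMap K F) (t * (algebraMap K F π)⁻¹) (Qs.map A.subtype) := by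
        rw [Polynomial.eval₂_map]
      rw [h3, hQ₂, eval₂_mul, eval₂_C, Polynomial.eval₂_map]
    rw [mul_add, h2, hg]
    congr 1
    show _ = algebraMap K F d * (algebraMap K F (π ^ (N + 1) * d⁻¹) * g' *
      (t * (algebraMap K F π)⁻¹) ^ (N + 1))
    rw [map_mul, map_pow, map_inv₀, mul_pow, inv_pow]
    have hd' : algebraMap K F d ≠ 0 := (map_ne_zero_iff _ (algebraMap K F).injective).mpr hd0
    have hp : algebraMap K F π ^ (N + 1) ≠ 0 := pow_ne_zero _ hϖ
    field_simp

/-- **(N), norm formula**: every non-zero `g ∈ B` is a constant times `G(W)` with `G ∈ B[X]` of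
non-zero reduction. -/
theorem exists_unit (D : DiscData A res O B π t ev) {g : F} (hg : g ∈ B) (hg0 : g ≠ 0) :
    ∃ (c : K) (G : (↥B)[X]), c ≠ 0 ∧ G.map ev ≠ 0 ∧
      g = algebraMap K F c * CircleData.evalHom B (algebraMap K F π) t G := by
  have ht := D.circle.t_ne
  have hϖ := D.circle.ϖ_ne
  have hex : ∃ N : ℕ, g * (t ^ N)⁻¹ ∉ B := by
    by_contra hcon
    simp only [not_exists, not_not] at hcon
    exact hg0 (D.sep g hg hcon)
  obtain ⟨N, hN⟩ := hex
  induction N generalizing g with
  | zero =>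
    exfalso
    apply hN
    rw [pow_zero, inv_one, mul_one]
    exact hg
  | succ N ih =>
    obtain ⟨a, ha, h1⟩ := D.taylor g hg
    rcases eq_or_ne a 0 with rfl | ha0
    · rw [map_zero, sub_zero] at h1
      have hg1 : g * t⁻¹ ≠ 0 := mul_ne_zero hg0 (inv_ne_zero ht)
      have hN1 : g * t⁻¹ * (t ^ N)⁻¹ ∉ B := by
        intro h
        apply hN
        have e : g * (t ^ (N + 1))⁻¹ = g * t⁻¹ * (t ^ N)⁻¹ := by
          rw [pow_succ, mul_inv]
          ring
        rw [e]
        exact h
      obtain ⟨c, G, hc0, hG, e⟩ := ih h1 hg1 hN1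
      refine ⟨π * c, X * G, mul_ne_zero D.π_ne hc0, ?_, ?_⟩
      · rw [Polynomial.map_mul, Polynomial.map_X]
        exact mul_ne_zero Polynomial.X_ne_zero hG
      · have hX : CircleData.evalHom B (algebraMap K F π) t (X * G) =
            (t * (algebraMap K F π)⁻¹) * CircleData.evalHom B (algebraMap K F π) t G := by
          rw [map_mul, CircleData.evalHom_X]
        rw [hX, map_mul]
        have e' : g = t * (g * t⁻¹) := by
          field_simp
        rw [e', e]
        field_simp
    · exact D.exists_unit_of_const_ne ha ha0 h1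

/-- **decomposition**: every non-zero `f ∈ F` is `c * G(W) / H(W)`. -/
theorem exists_decomp (D : DiscData A res O B π t ev) {f : F} (hf : f ≠ 0) :
    ∃ (c : K) (G H : (↥B)[X]), c ≠ 0 ∧ G.map ev ≠ 0 ∧ H.map ev ≠ 0 ∧
      CircleData.evalHom B (algebraMap K F π) t H ≠ 0 ∧
      f * CircleData.evalHom B (algebraMap K F π) t H =
        algebraMap K F c * CircleData.evalHom B (algebraMap K F π) t G := by
  obtain ⟨h, hh, hh0, hfh⟩ := D.frac f
  obtain ⟨c₁, G, hc₁, hG, e₁⟩ := D.exists_unit hfh (mul_ne_zero hf hh0)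
  obtain ⟨c₂, H, hc₂, hH, e₂⟩ := D.exists_unit hh hh0
  have hc₂' : algebraMap K F c₂ ≠ 0 := (map_ne_zero_iff _ (algebraMap K F).injective).mpr hc₂
  have hH0 : CircleData.evalHom B (algebraMap K F π) t H ≠ 0 := by
    intro h0
    apply hh0
    rw [e₂, h0, mul_zero]
  refine ⟨c₁ * c₂⁻¹, G, H, mul_ne_zero hc₁ (inv_ne_zero hc₂), hG, hH, hH0, ?_⟩
  rw [map_mul, map_inv₀]
  have e₃ : f * (algebraMap K F c₂ * CircleData.evalHom B (algebraMap K F π) t H) =
      algebraMap K F c₁ * CircleData.evalHom B (algebraMap K F π) t G := by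
    rw [← e₂, e₁]
  field_simp
  linear_combination e₃

end DiscData

/-- the defining property of the disc valuation `V`: it lies over `A` and `G(W)` is a unit of `V`
for every `G ∈ B[X]` of non-zero reduction. -/
structure IsDiscVal (A : ValuationSubring K) (B : Subring F) (π : K) (t : F) (ev : B →+* k)
    (V : ValuationSubring F) : Prop where
  mem_iff : ∀ c : K, algebraMap K F c ∈ V ↔ c ∈ A
  unit : ∀ G : (↥B)[X], G.map ev ≠ 0 →
    CircleData.evalHom B (algebraMap K F π) t G ∈ V ∧
      (CircleData.evalHom B (algebraMap K F π) t G)⁻¹ ∈ V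

namespace DiscData

variable {A : ValuationSubring K} {res : A →+* k} {O B : Subring F} {π : K} {t : F}
  {ev : B →+* k}

/-- `G(W) ≠ 0` if `G` has non-zero reduction. -/
theorem evalHom_ne_zero (D : DiscData A res O B π t ev) {G : (↥B)[X]} (hG : G.map ev ≠ 0) :
    CircleData.evalHom B (algebraMap K F π) t G ≠ 0 := fun h0 =>
  hG (D.circle.ker_le G h0)

/-- **existence** of the disc valuation (from the circle lemma). -/
theorem exists_isDiscVal (D : DiscData A res O B π t ev) :
    ∃ V : ValuationSubring F, IsDiscVal A B π t ev V ∧ (∀ b ∈ B, b ∈ V) ∧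
      (∀ b : B, (b : F) ∈ V.nonunits ↔ ev b = 0) ∧
      ∀ G : (↥B)[X],
        (CircleData.evalHom B (algebraMap K F π) t G ∈ V.nonunits ↔ G.map ev = 0) := by
  obtain ⟨V, hB, -, -, hnu, hG, hunit⟩ := D.circle.exists_circle'
  refine ⟨V, ⟨fun c => ⟨fun hc => ?_, fun hc => hB _ (D.const_mem c hc)⟩, hunit⟩, hB, hnu, hG⟩
  by_contra hcA
  have hc0 : c ≠ 0 := by
    rintro rfl
    exact hcA A.zero_mem
  have hinv : c⁻¹ ∈ A := (A.mem_or_inv_mem c).resolve_left hcA
  have hval : A.valuation c⁻¹ < 1 := by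
    rw [map_inv₀]
    have h1 : ¬ A.valuation c ≤ 1 := fun h => hcA ((A.valuation_le_one_iff c).mp h)
    have h2 : 1 < A.valuation c := not_le.mp h1
    exact inv_lt_one_of_one_lt₀ h2
  have hB' : algebraMap K F c⁻¹ ∈ B := D.const_mem _ hinv
  have h0 : ev ⟨algebraMap K F c⁻¹, hB'⟩ = 0 := D.ev_eq_zero_of_val_lt hval hB'
  have h1 : algebraMap K F c⁻¹ ∈ V.nonunits := (hnu ⟨_, hB'⟩).mpr h0
  rw [ValuationSubring.mem_nonunits_iff_or] at h1
  rcases h1 with h1 | h1
  · apply hc0
    have : c⁻¹ = 0 := (map_eq_zero_iff _ (algebraMap K F).injective).mp h1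
    exact inv_eq_zero.mp this
  · apply h1
    rw [map_inv₀, inv_inv]
    exact hc

/-- membership in a disc valuation is read off from a decomposition. -/
theorem mem_iff_of_decomp (D : DiscData A res O B π t ev) {V : ValuationSubring F}
    (hV : IsDiscVal A B π t ev V) {f : F} {c : K} {G H : (↥B)[X]}
    (hG : G.map ev ≠ 0) (hH : H.map ev ≠ 0)
    (e : f * CircleData.evalHom B (algebraMap K F π) t H =
      algebraMap K F c * CircleData.evalHom B (algebraMap K F π) t G) :
    f ∈ V ↔ c ∈ A := by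
  obtain ⟨hG1, hG2⟩ := hV.unit G hG
  obtain ⟨hH1, hH2⟩ := hV.unit H hH
  have hG0 := D.evalHom_ne_zero hG
  have hH0 := D.evalHom_ne_zero hH
  constructor
  · intro hf
    rw [← hV.mem_iff]
    have e' : algebraMap K F c = f * CircleData.evalHom B (algebraMap K F π) t H *
        (CircleData.evalHom B (algebraMap K F π) t G)⁻¹ := by
      rw [e, mul_assoc, mul_inv_cancel₀ hG0, mul_one]
    rw [e']
    exact V.mul_mem _ _ (V.mul_mem _ _ hf hH1) hG2
  · intro hc
    have e' : f = algebraMap K F c * CircleData.evalHom B (algebraMap K F π) t G *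
        (CircleData.evalHom B (algebraMap K F π) t H)⁻¹ := by
      rw [← e, mul_assoc, mul_inv_cancel₀ hH0, mul_one]
    rw [e']
    exact V.mul_mem _ _ (V.mul_mem _ _ ((hV.mem_iff c).mpr hc) hG1) hH2

/-- **uniqueness** of the disc valuation. -/
theorem isDiscVal_unique (D : DiscData A res O B π t ev) {V V' : ValuationSubring F}
    (hV : IsDiscVal A B π t ev V) (hV' : IsDiscVal A B π t ev V') : V = V' := by
  ext f
  rcases eq_or_ne f 0 with rfl | hf
  · exact ⟨fun _ => V'.zero_mem, fun _ => V.zero_mem⟩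
  obtain ⟨c, G, H, -, hG, hH, -, e⟩ := D.exists_decomp hf
  rw [D.mem_iff_of_decomp hV hG hH e, D.mem_iff_of_decomp hV' hG hH e]

/-- **scale** (`e = 1`): every non-zero function is a constant times a unit of `V`. -/
theorem isDiscVal_scale (D : DiscData A res O B π t ev) {V : ValuationSubring F}
    (hV : IsDiscVal A B π t ev V) {f : F} (hf : f ≠ 0) :
    ∃ c : K, c ≠ 0 ∧ f * (algebraMap K F c)⁻¹ ∈ V ∧ (f * (algebraMap K F c)⁻¹)⁻¹ ∈ V := by
  obtain ⟨c, G, H, hc, hG, hH, hH0, e⟩ := D.exists_decomp hf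
  obtain ⟨hG1, hG2⟩ := hV.unit G hG
  obtain ⟨hH1, hH2⟩ := hV.unit H hH
  have hG0 := D.evalHom_ne_zero hG
  have hc' : algebraMap K F c ≠ 0 := (map_ne_zero_iff _ (algebraMap K F).injective).mpr hc
  have e' : f * (algebraMap K F c)⁻¹ = CircleData.evalHom B (algebraMap K F π) t G *
      (CircleData.evalHom B (algebraMap K F π) t H)⁻¹ := by
    field_simp
    linear_combination e
  refine ⟨c, hc, ?_, ?_⟩
  · rw [e']
    exact V.mul_mem _ _ hG1 hH2
  · rw [e', mul_inv, inv_inv]
    exact V.mul_mem _ _ hG2 hH1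

/-- in a disc valuation, `G(W)` is a non-unit exactly if `G` reduces to `0`. -/
theorem isDiscVal_nonunits_iff (D : DiscData A res O B π t ev) {V : ValuationSubring F}
    (hV : IsDiscVal A B π t ev V) (G : (↥B)[X]) :
    CircleData.evalHom B (algebraMap K F π) t G ∈ V.nonunits ↔ G.map ev = 0 := by
  obtain ⟨V₀, hV₀, -, -, hG⟩ := D.exists_isDiscVal
  rw [D.isDiscVal_unique hV hV₀]
  exact hG G

/-- a disc valuation contains `B`. -/
theorem isDiscVal_le (D : DiscData A res O B π t ev) {V : ValuationSubring F}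
    (hV : IsDiscVal A B π t ev V) : ∀ b ∈ B, b ∈ V := by
  obtain ⟨V₀, hV₀, hB, -, -⟩ := D.exists_isDiscVal
  rw [D.isDiscVal_unique hV hV₀]
  exact hB

/-- **the residue field is `k(W̄)` exactly**: every element of `V` is congruent to
`c * G(W) / H(W)`, `c ∈ A`. -/
theorem isDiscVal_residue (D : DiscData A res O B π t ev) {V : ValuationSubring F}
    (hV : IsDiscVal A B π t ev V) {f : F} (hf : f ∈ V) :
    ∃ (c : K) (G H : (↥B)[X]), c ∈ A ∧ G.map ev ≠ 0 ∧ H.map ev ≠ 0 ∧
      f * CircleData.evalHom B (algebraMap K F π) t H =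
        algebraMap K F c * CircleData.evalHom B (algebraMap K F π) t G := by
  rcases eq_or_ne f 0 with rfl | hf0
  · refine ⟨0, 1, 1, A.zero_mem, ?_, ?_, by simp⟩ <;>
    · rw [Polynomial.map_one]
      exact one_ne_zero
  obtain ⟨c, G, H, -, hG, hH, -, e⟩ := D.exists_decomp hf0
  exact ⟨c, G, H, (D.mem_iff_of_decomp hV hG hH e).mp hf, hG, hH, e⟩

end DiscData

end Fermat.Agent.HPVal
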