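import Mathlib
import Fermat.Agent.Lib.BadRed.HPVal.DiscNorm

set_option autoImplicit false
set_option linter.unusedSectionVars false
set_option linter.style.haveILetI false

/-!
# Cluster G (S36), block W-P, seat DISC-NORM part 2 (helper47): the residue map of the disc valuation

On top of `DiscNorm.lean`.  For a disc valuation `V` (`IsDiscVal`) of `DiscData` with `res`
surjective:

* **`DiscData.exists_residueMap`** : a ring homomorphism `ρ : V → RatFunc k` which is surjective,
  with kernel the maximal ideal, and `ρ (G(W)) = G̅` (the reduction of `G ∈ B[X]`, a polynomial in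
  `X`) — so `ρ W = X` is transcendental, `ρ b = ev b` for `b ∈ B`, `ρ a = res a` for `a ∈ A`.
* `DiscData.exists_disc_residueMap` : existence of `V` together with `ρ`.
-/

noncomputable section

open Polynomial

namespace Fermat.Agent.HPVal

open Fermat.Agent.BadRed

variable {K F k : Type*} [Field K] [Field F] [Algebra K F] [Field k]

namespace DiscData

variable {A : ValuationSubring K} {res : A →+* k} {O B : Subring F} {π : K} {t : F}
  {ev : B →+* k}

/-- `G(W) ∈ V` for all `G ∈ B[X]`. -/
theorem isDiscVal_evalHom_mem (D : DiscData A res O B π t ev) {V : ValuationSubring F}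
    (hV : IsDiscVal A B π t ev V) (G : (↥B)[X]) :
    CircleData.evalHom B (algebraMap K F π) t G ∈ V := by
  have hW : t * (algebraMap K F π)⁻¹ ∈ V := by
    have h1 := (hV.unit X (by
      rw [Polynomial.map_X]
      exact Polynomial.X_ne_zero)).1
    rwa [CircleData.evalHom_X] at h1
  show Polynomial.eval₂ B.subtype (t * (algebraMap K F π)⁻¹) G ∈ V
  rw [Polynomial.eval₂_eq_sum]
  refine Subring.sum_mem V.toSubring fun i _ => ?_
  exact mul_mem (D.isDiscVal_le hV _ (G.coeff i).2) (pow_mem hW _)

theorem ev_surjective (D : DiscData A res O B π t ev) (hres : Function.Surjective res) :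
    Function.Surjective ev := fun y => by
  obtain ⟨a, rfl⟩ := hres y
  exact ⟨D.incl a, D.ev_incl a⟩

/-- **the residue map of the disc valuation**, with values in `k(X)`. -/
theorem exists_residueMap (D : DiscData A res O B π t ev) (hres : Function.Surjective res)
    {V : ValuationSubring F} (hV : IsDiscVal A B π t ev V) :
    ∃ ρ : V →+* RatFunc k, Function.Surjective ρ ∧ (∀ f : V, ρ f = 0 ↔ ¬ IsUnit f) ∧
      ∀ (G : (↥B)[X]) (h : CircleData.evalHom B (algebraMap K F π) t G ∈ V),
        ρ ⟨CircleData.evalHom B (algebraMap K F π) t G, h⟩ =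
          algebraMap k[X] (RatFunc k) (G.map ev) := by
  classical
  have hmem := D.isDiscVal_evalHom_mem hV
  let evV : (↥B)[X] →+* V :=
    (CircleData.evalHom B (algebraMap K F π) t).codRestrict V.toSubring hmem
  have hevV : ∀ G, ((evV G : V) : F) = CircleData.evalHom B (algebraMap K F π) t G :=
    fun _ => rfl
  let q₀ : (↥B)[X] →+* IsLocalRing.ResidueField V := (IsLocalRing.residue V).comp evV
  let χ : (↥B)[X] →+* k[X] := Polynomial.mapRingHom ev
  have hχ : Function.Surjective χ := Polynomial.map_surjective ev (D.ev_surjective hres)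
  have hq₀ : ∀ G : (↥B)[X], q₀ G = 0 ↔ G.map ev = 0 := by
    intro G
    show IsLocalRing.residue V (evV G) = 0 ↔ _
    rw [residue_eq_zero_iff_mem_nonunits, hevV, D.isDiscVal_nonunits_iff hV]
  have hker : RingHom.ker χ ≤ RingHom.ker q₀ := by
    intro G hG
    rw [RingHom.mem_ker] at hG ⊢
    exact (hq₀ G).mpr hG
  let j : k[X] →+* IsLocalRing.ResidueField V := χ.liftOfSurjective hχ ⟨q₀, hker⟩
  have hjχ : ∀ G : (↥B)[X], j (χ G) = q₀ G := fun G =>
    RingHom.liftOfSurjective_comp_apply χ hχ ⟨q₀, hker⟩ G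
  have hj : Function.Injective j := by
    rw [injective_iff_map_eq_zero]
    intro p hp
    obtain ⟨G, rfl⟩ := hχ p
    rw [hjχ] at hp
    exact (hq₀ G).mp hp
  let J : RatFunc k →+* IsLocalRing.ResidueField V := IsFractionRing.lift hj
  have hJ : ∀ p : k[X], J (algebraMap k[X] (RatFunc k) p) = j p := fun p =>
    IsFractionRing.lift_algebraMap hj p
  have hJsurj : Function.Surjective J := by
    intro x
    obtain ⟨f, rfl⟩ := IsLocalRing.residue_surjective x
    obtain ⟨c, G, H, hc, hG, hH, e⟩ := D.isDiscVal_residue hV f.2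
    -- the relation in `V`
    have e' : f * evV H = evV (C (D.incl ⟨c, hc⟩) * G) := by
      apply Subtype.ext
      show (f : F) * CircleData.evalHom B (algebraMap K F π) t H =
        CircleData.evalHom B (algebraMap K F π) t (C (D.incl ⟨c, hc⟩) * G)
      rw [map_mul, CircleData.evalHom_C, e]
      rfl
    have e'' : IsLocalRing.residue V f * q₀ H = q₀ (C (D.incl ⟨c, hc⟩) * G) := by
      show IsLocalRing.residue V f * IsLocalRing.residue V (evV H) = IsLocalRing.residue V _
      rw [← map_mul, e']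
    have hH0 : q₀ H ≠ 0 := fun h0 => hH ((hq₀ H).mp h0)
    refine ⟨algebraMap k[X] (RatFunc k) (χ (C (D.incl ⟨c, hc⟩) * G)) /
      algebraMap k[X] (RatFunc k) (χ H), ?_⟩
    rw [map_div₀, hJ, hJ, hjχ, hjχ, ← e'', mul_div_assoc, div_self hH0, mul_one]
  let e : RatFunc k ≃+* IsLocalRing.ResidueField V :=
    RingEquiv.ofBijective J ⟨J.injective, hJsurj⟩
  refine ⟨(e.symm : IsLocalRing.ResidueField V →+* RatFunc k).comp (IsLocalRing.residue V),
    ?_, ?_, ?_⟩
  · exact e.symm.surjective.comp IsLocalRing.residue_surjective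
  · intro f
    show e.symm (IsLocalRing.residue V f) = 0 ↔ _
    rw [map_eq_zero_iff e.symm e.symm.injective, IsLocalRing.residue_eq_zero_iff,
      IsLocalRing.mem_maximalIdeal, mem_nonunits_iff]
  · intro G h
    show e.symm (IsLocalRing.residue V ⟨_, h⟩) = _
    rw [RingEquiv.symm_apply_eq]
    show _ = J _
    rw [hJ]
    exact (hjχ G).symm

/-- existence of the disc valuation together with its residue map to `k(X)`:
`V ∩ K = A`, `B ⊆ V`, `ρ` onto with kernel the maximal ideal, `ρ a = res a` on `A`,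
`ρ b = ev b` on `B`, `ρ (t/ϖ) = X`, `ρ (G(t/ϖ)) = G̅`. -/
theorem exists_disc_residueMap (D : DiscData A res O B π t ev) (hres : Function.Surjective res) :
    ∃ (V : ValuationSubring F) (ρ : V →+* RatFunc k), IsDiscVal A B π t ev V ∧
      Function.Surjective ρ ∧ (∀ f : V, ρ f = 0 ↔ ¬ IsUnit f) ∧
      (∀ (c : K) (hc : c ∈ A) (hc' : algebraMap K F c ∈ V),
        ρ ⟨algebraMap K F c, hc'⟩ = algebraMap k (RatFunc k) (res ⟨c, hc⟩)) ∧
      (∀ (b : B) (hb : (b : F) ∈ V), ρ ⟨(b : F), hb⟩ = algebraMap k (RatFunc k) (ev b)) ∧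
      (∀ h : t * (algebraMap K F π)⁻¹ ∈ V, ρ ⟨t * (algebraMap K F π)⁻¹, h⟩ = RatFunc.X) ∧
      ∀ (G : (↥B)[X]) (h : CircleData.evalHom B (algebraMap K F π) t G ∈ V),
        ρ ⟨CircleData.evalHom B (algebraMap K F π) t G, h⟩ =
          algebraMap k[X] (RatFunc k) (G.map ev) := by
  obtain ⟨V, hV, -, -, -⟩ := D.exists_isDiscVal
  obtain ⟨ρ, hsurj, hker, hG⟩ := D.exists_residueMap hres hV
  have hb : ∀ (b : B) (hb : (b : F) ∈ V),
      ρ ⟨(b : F), hb⟩ = algebraMap k (RatFunc k) (ev b) := by
    intro b hb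
    have h1 : CircleData.evalHom B (algebraMap K F π) t (C b) = (b : F) :=
      CircleData.evalHom_C b
    have h2 := hG (C b) (by rw [h1]; exact hb)
    have h3 : (⟨CircleData.evalHom B (algebraMap K F π) t (C b), by rw [h1]; exact hb⟩ : V) =
        ⟨(b : F), hb⟩ := Subtype.ext h1
    rw [h3, Polynomial.map_C] at h2
    rw [h2]
    rfl
  refine ⟨V, ρ, hV, hsurj, hker, ?_, hb, ?_, hG⟩
  · intro c hc hc'
    have := hb (D.incl ⟨c, hc⟩) hc'
    rw [D.ev_incl] at this
    exact this
  · intro h
    have h1 : CircleData.evalHom B (algebraMap K F π) t (X : (↥B)[X]) =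
        t * (algebraMap K F π)⁻¹ := CircleData.evalHom_X
    have h2 := hG X (by rw [h1]; exact h)
    have h3 : (⟨CircleData.evalHom B (algebraMap K F π) t (X : (↥B)[X]),
        by rw [h1]; exact h⟩ : V) = ⟨t * (algebraMap K F π)⁻¹, h⟩ := Subtype.ext h1
    rw [h3, Polynomial.map_X] at h2
    rw [h2]
    exact RatFunc.algebraMap_X

end DiscData

end Fermat.Agent.HPVal
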