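/-
Cluster G (S36), block W-P, seat CORE-CSC (helper47; sub-architect helper59): **the scaled Kronecker
form on the disc valuation**.  Abstract: `DiscNorm` / `DiscRes` (helper47) + `CoreScale`
(helper83).  Nothing modular.

Setting (`CcsIn`): `F / K` fields, `A` a valuation ring of `K` with residue map `res : A → k`,
`B` the disc ring, `ev : B → k`, `q ≥ 2`, `ϖ ∈ A` with `ϖ ^ (q + 1) = q`, the `DiscData` of the disc
`|t| ≤ |ϖ ^ q|`, and its disc valuation ring `V` (`IsDiscVal`).  For `R ∈ B[X]` of degree `≤ q`: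

* `CcsIn.data`        : the `CscData V q` with `ϖ = ϖ`, `u = u⁻¹ = 1`, `Y = t / ϖ ^ q`, `R = R`;
* `CcsIn.data_x₁`     : `x₁ = t`;
* `CcsIn.data_psi`    : `Ψ = (X - t ^ q) (X ^ q - t) + q R(X)`  (the Kronecker form in `F[X]`);
* `CcsIn.res_natCast`, `CcsIn.map_natCast_eq_zero` : `q = 0` in the residue fields;
* `CcsIn.map_ϖ`       : a residue map `ρ` of `V` kills `ϖ`;
* `CcsIn.scaled_map`  : `Ψ_s` reduces to `T ^ (q + 1) - y T + c`, `y = ρ (t / ϖ ^ q)`,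
                        `c = ev (R(0))`, for every `ρ : V → κ` killing the non-units with
                        `ρ b = ev b` on `B`;
* `CcsIn.scaled_map_ratFunc` : the case `κ = k(X)`, `ρ (t / ϖ ^ q) = X` (`DiscRes`):
                        `Ψ_s ↦ T ^ (q + 1) - X T + c`   [the input `red` of CORE-NP];
* `ccs_exists`        : existence of `V`, `ρ` and `D : CscData V q` with all of the above, from
                        the `DiscData` alone.
-/
import Mathlib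
import Fermat.Agent.Lib.BadRed.HPVal.DiscRes
import Fermat.Agent.Lib.BadRed.HPVal.CoreScale

set_option autoImplicit false
set_option linter.unusedSectionVars false
set_option linter.style.haveILetI false

noncomputable section

open Polynomial

namespace Fermat.Agent.HPVal

variable {K F k : Type*} [Field K] [Field F] [Algebra K F] [Field k]

/-- **the input of CORE-CSC**: the disc `|t| ≤ |ϖ ^ q|` with `ϖ ^ (q + 1) = q`, and its disc
valuation ring `V`. -/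
structure CcsIn (A : ValuationSubring K) (res : A →+* k) (O B : Subring F) (t : F)
    (ev : B →+* k) (q : ℕ) (ϖ : K) (V : ValuationSubring F) : Prop where
  hq : 2 ≤ q
  ϖ_mem : ϖ ∈ A
  ϖ_pow : ϖ ^ (q + 1) = (q : K)
  disc : DiscData A res O B (ϖ ^ q) t ev
  isDiscVal : IsDiscVal A B (ϖ ^ q) t ev V

namespace CcsIn

variable {A : ValuationSubring K} {res : A →+* k} {O B : Subring F} {t : F} {ev : B →+* k}
  {q : ℕ} {ϖ : K} {V : ValuationSubring F}

theorem q_pos (h : CcsIn A res O B t ev q ϖ V) : 0 < q := by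
  have := h.hq
  omega

theorem ϖ_ne (h : CcsIn A res O B t ev q ϖ V) : ϖ ≠ 0 := by
  intro h0
  apply h.disc.π_ne
  rw [h0, zero_pow h.q_pos.ne']

theorem coe_ϖ_ne (h : CcsIn A res O B t ev q ϖ V) : algebraMap K F ϖ ≠ 0 :=
  (_root_.map_ne_zero _).mpr h.ϖ_ne

theorem coe_ϖ_mem (h : CcsIn A res O B t ev q ϖ V) : algebraMap K F ϖ ∈ V :=
  (h.isDiscVal.mem_iff ϖ).mpr h.ϖ_mem

/-- `Y = t / ϖ ^ q ∈ V`. -/
theorem Y_mem (h : CcsIn A res O B t ev q ϖ V) : t * (algebraMap K F (ϖ ^ q))⁻¹ ∈ V := by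
  have h1 := (h.isDiscVal.unit X (by
    rw [Polynomial.map_X]
    exact Polynomial.X_ne_zero)).1
  rwa [CircleData.evalHom_X] at h1

/-- `Y⁻¹ = ϖ ^ q / t ∈ V`. -/
theorem Y_inv_mem (h : CcsIn A res O B t ev q ϖ V) : (t * (algebraMap K F (ϖ ^ q))⁻¹)⁻¹ ∈ V := by
  have h1 := (h.isDiscVal.unit X (by
    rw [Polynomial.map_X]
    exact Polynomial.X_ne_zero)).2
  rwa [CircleData.evalHom_X] at h1

/-- the inclusion `B → V` of the disc ring in the disc valuation ring. -/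
def incl (h : CcsIn A res O B t ev q ϖ V) : B →+* V :=
  (B.subtype).codRestrict V (fun b => h.disc.isDiscVal_le h.isDiscVal _ b.2)

@[simp] theorem coe_incl (h : CcsIn A res O B t ev q ϖ V) (b : B) :
    ((h.incl b : V) : F) = (b : F) := rfl

theorem subtype_comp_incl (h : CcsIn A res O B t ev q ϖ V) :
    (V.subtype).comp h.incl = B.subtype := by
  ext b
  rfl

/-- **the `CscData` of the disc valuation**: `ϖ = ϖ`, `u = u⁻¹ = 1`, `Y = t / ϖ ^ q`, `R = R`. -/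
def data (h : CcsIn A res O B t ev q ϖ V) (R : (↥B)[X]) (hR : R.natDegree ≤ q) :
    CscData V q where
  ϖ := ⟨algebraMap K F ϖ, h.coe_ϖ_mem⟩
  u := 1
  uinv := 1
  Y := ⟨t * (algebraMap K F (ϖ ^ q))⁻¹, h.Y_mem⟩
  R := R.map h.incl
  hq := h.hq
  hu := one_mul 1
  hϖ := by
    apply Subtype.ext
    rw [mul_one]
    show (algebraMap K F ϖ) ^ (q + 1) = ((q : V) : F)
    rw [← map_pow, h.ϖ_pow, map_natCast]
    simp
  hϖ0 := fun h0 => h.coe_ϖ_ne (congrArg Subtype.val h0)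
  hR := (natDegree_map_le).trans hR

section data

variable (h : CcsIn A res O B t ev q ϖ V) (R : (↥B)[X]) (hR : R.natDegree ≤ q)

@[simp] theorem data_ϖ : ((h.data R hR).ϖ : F) = algebraMap K F ϖ := rfl

@[simp] theorem data_u : (h.data R hR).u = 1 := rfl

@[simp] theorem data_uinv : (h.data R hR).uinv = 1 := rfl

@[simp] theorem data_Y : ((h.data R hR).Y : F) = t * (algebraMap K F (ϖ ^ q))⁻¹ := rfl

@[simp] theorem data_R : (h.data R hR).R = R.map h.incl := rfl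

theorem data_R_map : (h.data R hR).R.map V.subtype = R.map B.subtype := by
  rw [data_R, Polynomial.map_map, h.subtype_comp_incl]

theorem data_R_coeff (n : ℕ) : (h.data R hR).R.coeff n = h.incl (R.coeff n) := by
  rw [data_R, coeff_map]

/-- **`x₁ = t`**. -/
theorem data_x₁ : (h.data R hR).x₁ = t := by
  have h0 : algebraMap K F ϖ ^ q ≠ 0 := pow_ne_zero _ h.coe_ϖ_ne
  show (algebraMap K F ϖ) ^ q * (t * (algebraMap K F (ϖ ^ q))⁻¹) = t
  rw [map_pow]
  field_simp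

/-- **`Ψ = (X - t ^ q) (X ^ q - t) + q R(X)`**: the Kronecker form. -/
theorem data_psi :
    (h.data R hR).psi = (X - C (t ^ q)) * (X ^ q - C t) + C (q : F) * R.map B.subtype := by
  rw [CscData.psi, data_x₁, data_R_map]

/-- the roots of `Ψ_s` are the roots of the Kronecker form divided by `ϖ`. -/
theorem root_iff {F' : Type*} [Field F'] [Algebra F F'] (w : F') :
    aeval w ((h.data R hR).scaled.map V.subtype) = 0 ↔
      aeval (algebraMap F F' (algebraMap K F ϖ) * w)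
        ((X - C (t ^ q)) * (X ^ q - C t) + C (q : F) * R.map B.subtype) = 0 := by
  rw [csc_root_iff', data_psi]
  rfl

end data

/-- `ϖ` is not a unit of `A`. -/
theorem ϖ_not_isUnit (h : CcsIn A res O B t ev q ϖ V) : ¬ IsUnit (⟨ϖ, h.ϖ_mem⟩ : A) := by
  intro hu
  have h1 : IsUnit ((⟨ϖ, h.ϖ_mem⟩ : A) ^ q) := hu.pow q
  have hmem : ϖ ^ q ∈ A := h.disc.π_mem
  have h2 : ((⟨ϖ, h.ϖ_mem⟩ : A) ^ q) = ⟨ϖ ^ q, hmem⟩ := Subtype.ext rfl
  rw [h2] at h1
  have h3 : res ⟨ϖ ^ q, hmem⟩ = 0 := by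
    rw [← h.disc.ev_const (ϖ ^ q) hmem h.disc.circle.ϖ_mem]
    exact h.disc.circle.ev_ϖ _
  exact (h.disc.res_eq_zero_iff _).mp h3 h1

/-- `res ϖ = 0`. -/
theorem res_ϖ (h : CcsIn A res O B t ev q ϖ V) : res ⟨ϖ, h.ϖ_mem⟩ = 0 :=
  (h.disc.res_eq_zero_iff _).mpr h.ϖ_not_isUnit

/-- **the residue characteristic is `q`** (in `k`). -/
theorem res_natCast (h : CcsIn A res O B t ev q ϖ V) : (q : k) = 0 := by
  have h1 : ((⟨ϖ, h.ϖ_mem⟩ : A) ^ (q + 1)) = (q : A) := by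
    apply Subtype.ext
    show ϖ ^ (q + 1) = ((q : A) : K)
    rw [h.ϖ_pow]
    simp
  have h2 := congrArg res h1
  rw [map_pow, h.res_ϖ, zero_pow (Nat.succ_ne_zero q), map_natCast] at h2
  exact h2.symm

/-- `ϖ` is not a unit of `V`. -/
theorem coe_ϖ_not_isUnit (h : CcsIn A res O B t ev q ϖ V) :
    ¬ IsUnit (⟨algebraMap K F ϖ, h.coe_ϖ_mem⟩ : V) := by
  intro hu
  obtain ⟨b, hb⟩ := isUnit_iff_exists_inv.mp hu
  have h1 : algebraMap K F ϖ * (b : F) = 1 := by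
    have := congrArg Subtype.val hb
    simpa using this
  have h2 : (b : F) = algebraMap K F ϖ⁻¹ := by
    rw [map_inv₀]
    exact (inv_eq_of_mul_eq_one_right h1).symm
  have h3 : ϖ⁻¹ ∈ A := (h.isDiscVal.mem_iff _).mp (h2 ▸ b.2)
  exact h.ϖ_not_isUnit ⟨⟨⟨ϖ, h.ϖ_mem⟩, ⟨ϖ⁻¹, h3⟩, Subtype.ext (mul_inv_cancel₀ h.ϖ_ne),
    Subtype.ext (inv_mul_cancel₀ h.ϖ_ne)⟩, rfl⟩

section residue

variable {κ : Type*} [CommRing κ] (h : CcsIn A res O B t ev q ϖ V) (R : (↥B)[X])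
  (hR : R.natDegree ≤ q) (ρ : V →+* κ)

/-- a residue map of `V` kills `ϖ`. -/
theorem map_ϖ (hρ : ∀ f : V, ¬ IsUnit f → ρ f = 0) : ρ (h.data R hR).ϖ = 0 :=
  hρ _ h.coe_ϖ_not_isUnit

/-- `q = 0` in the residue ring of `V`. -/
theorem map_natCast_eq_zero {κ' : Type*} [CommRing κ'] (h' : CcsIn A res O B t ev q ϖ V)
    (ρ' : V →+* κ') (hρ : ∀ f : V, ¬ IsUnit f → ρ' f = 0) : (q : κ') = 0 := by
  have h0 : ρ' ⟨algebraMap K F ϖ, h'.coe_ϖ_mem⟩ = 0 := hρ _ h'.coe_ϖ_not_isUnit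
  have h1 : (⟨algebraMap K F ϖ, h'.coe_ϖ_mem⟩ : V) ^ (q + 1) = (q : V) := by
    apply Subtype.ext
    show (algebraMap K F ϖ) ^ (q + 1) = ((q : V) : F)
    rw [← map_pow, h'.ϖ_pow, map_natCast]
    simp
  have h2 := congrArg ρ' h1
  rw [map_pow, h0, zero_pow (Nat.succ_ne_zero q), map_natCast] at h2
  exact h2.symm

/-- **the reduction of `Ψ_s`**: `T ^ (q + 1) - y T + c` with `y = ρ (t / ϖ ^ q)` and
`c = ev (R(0))`. -/
theorem scaled_map [Algebra k κ] (hρ : ∀ f : V, ¬ IsUnit f → ρ f = 0)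
    (hρB : ∀ b : B, ρ (h.incl b) = algebraMap k κ (ev b)) :
    (h.data R hR).scaled.map ρ =
      X ^ (q + 1) - C (ρ (h.data R hR).Y) * X + C (algebraMap k κ (ev (R.coeff 0))) := by
  rw [csc_scaled_map_res _ ρ (h.map_ϖ R hR ρ hρ), data_uinv, map_one, one_mul, data_R_coeff, hρB]

/-- the constant coefficient of the reduction of `Ψ_s`. -/
theorem scaled_coeff_zero [Algebra k κ] (hρ : ∀ f : V, ¬ IsUnit f → ρ f = 0)
    (hρB : ∀ b : B, ρ (h.incl b) = algebraMap k κ (ev b)) :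
    ρ ((h.data R hR).scaled.coeff 0) = algebraMap k κ (ev (R.coeff 0)) := by
  rw [csc_scaled_map_res_coeff_zero _ ρ (h.map_ϖ R hR ρ hρ), data_uinv, map_one, one_mul,
    data_R_coeff, hρB]

end residue

/-- **the reduction of `Ψ_s` for the residue map of `DiscRes`** (`κ = k(X)`, `ρ (t / ϖ ^ q) = X`):
`Ψ_s ↦ T ^ (q + 1) - X T + c`, `c = ev (R(0))`. -/
theorem scaled_map_ratFunc (h : CcsIn A res O B t ev q ϖ V) (R : (↥B)[X])
    (hR : R.natDegree ≤ q) (ρ : V →+* RatFunc k) (hρ : ∀ f : V, ρ f = 0 ↔ ¬ IsUnit f)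
    (hρB : ∀ (b : B) (hb : (b : F) ∈ V), ρ ⟨(b : F), hb⟩ = algebraMap k (RatFunc k) (ev b))
    (hρY : ∀ hY : t * (algebraMap K F (ϖ ^ q))⁻¹ ∈ V,
      ρ ⟨t * (algebraMap K F (ϖ ^ q))⁻¹, hY⟩ = RatFunc.X) :
    (h.data R hR).scaled.map ρ =
      X ^ (q + 1) - C (RatFunc.X : RatFunc k) * X +
        C (algebraMap k (RatFunc k) (ev (R.coeff 0))) := by
  have hY : ρ (h.data R hR).Y = RatFunc.X := hρY _
  rw [h.scaled_map R hR ρ (fun f hf => (hρ f).mpr hf) (fun b => hρB b _), hY]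

end CcsIn

/-- **CORE-CSC, existence form**: from the `DiscData` of the disc `|t| ≤ |ϖ ^ q|`
(`ϖ ^ (q + 1) = q`) alone: the disc valuation ring `V`, its residue map `ρ : V → k(X)` and the
scaled Kronecker form `D : CscData V q` of `R`, with `Ψ = (X - t ^ q) (X ^ q - t) + q R`,
`Ψ_s` monic of degree `q + 1` and `Ψ_s ↦ T ^ (q + 1) - X T + ev (R(0))`. -/
theorem ccs_exists {A : ValuationSubring K} {res : A →+* k} {O B : Subring F} {t : F}
    {ev : B →+* k} {q : ℕ} {ϖ : K} (hq : 2 ≤ q) (hϖA : ϖ ∈ A) (hϖq : ϖ ^ (q + 1) = (q : K))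
    (DD : DiscData A res O B (ϖ ^ q) t ev) (hres : Function.Surjective res)
    (R : (↥B)[X]) (hR : R.natDegree ≤ q) :
    ∃ (V : ValuationSubring F) (ρ : V →+* RatFunc k) (D : CscData V q),
      IsDiscVal A B (ϖ ^ q) t ev V ∧
      Function.Surjective ρ ∧ (∀ f : V, ρ f = 0 ↔ ¬ IsUnit f) ∧
      (∀ (c : K) (hc : c ∈ A) (hc' : algebraMap K F c ∈ V),
        ρ ⟨algebraMap K F c, hc'⟩ = algebraMap k (RatFunc k) (res ⟨c, hc⟩)) ∧
      (∀ (b : B) (hb : (b : F) ∈ V), ρ ⟨(b : F), hb⟩ = algebraMap k (RatFunc k) (ev b)) ∧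
      (D.ϖ : F) = algebraMap K F ϖ ∧ D.u = 1 ∧ D.uinv = 1 ∧
      (D.Y : F) = t * (algebraMap K F (ϖ ^ q))⁻¹ ∧ D.R.map V.subtype = R.map B.subtype ∧
      ρ D.Y = RatFunc.X ∧ ρ D.ϖ = 0 ∧ (q : RatFunc k) = 0 ∧
      D.psi = (X - C (t ^ q)) * (X ^ q - C t) + C (q : F) * R.map B.subtype ∧
      D.scaled.Monic ∧ D.scaled.natDegree = q + 1 ∧
      D.scaled.map ρ =
        X ^ (q + 1) - C (RatFunc.X : RatFunc k) * X +
          C (algebraMap k (RatFunc k) (ev (R.coeff 0))) := by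
  obtain ⟨V, ρ, hV, hsurj, hker, hc, hb, hY, -⟩ := DD.exists_disc_residueMap hres
  have h : CcsIn A res O B t ev q ϖ V := ⟨hq, hϖA, hϖq, DD, hV⟩
  have hker' : ∀ f : V, ¬ IsUnit f → ρ f = 0 := fun f hf => (hker f).mpr hf
  exact ⟨V, ρ, h.data R hR, hV, hsurj, hker, hc, hb, rfl, rfl, rfl, rfl, h.data_R_map R hR,
    hY _, h.map_ϖ R hR ρ hker', h.map_natCast_eq_zero ρ hker', h.data_psi R hR,
    csc_scaled_monic _, csc_scaled_natDegree _, h.scaled_map_ratFunc R hR ρ hker hb hY⟩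

end Fermat.Agent.HPVal
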