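/-
S36 (cluster G), block W-P, seat CORE-EX (helper75; sub-architect helper59).

EXISTENCE of an extension of a valuation ring (Chevalley) and the residue map of the extension.

`E ⊂ F` fields, `O1` a valuation ring of `E`.

* `cex_exists_liesOverV O1` : there is a valuation ring `O` of `F` with `O ∩ E = O1`
  (`BadRed.LiesOverV O1 O`);
* `cexFk O`, `cexRho O` : the residue field of `O` and the residue map `O →+* cexFk O`;
  `cexRho_surjective`, `cexRho_eq_zero_iff` (kernel = non-units), `cexRho_eq_zero_iff_nonunits`;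
* `cex_exists_iotaK` : for residue maps `ρ1 : O1 →+* κ1` (onto, kernel = non-units) and
  `ρ : O →+* Fk` (kernel ⊇ non-units is enough) the induced map `ιk : κ1 →+* Fk` with
  `ρ (e) = ιk (ρ1 e)` on `O1`;
* `cexIotaK S1 hO`, `cexAlgebra S1 hO` : for a constant reduction `S1 : ValSetup K E k κ1` and `O`
  over `S1.Ov`: the induced `ιk : κ1 →+* cexFk O` and the `k`-algebra structure of `cexFk O`
  (NOT an instance: use `letI := cexAlgebra S1 hO`), with `cexIotaK_algebraMap` (`ιk_alg`) and
  `cexIotaK_rho` (`ρ_ι`): the fields of `S36G.ValIn` other than `scale`;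
* `cex_exists` : everything packaged in one existence statement.
-/
import Mathlib
import Fermat.Agent.Lib.BadRed.FundIneq
import Fermat.Agent.Lib.Deuring.Basic

set_option autoImplicit false
set_option linter.style.haveILetI false
set_option linter.unusedSectionVars false

noncomputable section

namespace Fermat.Agent.HPVal

open Fermat.Agent.BadRed Fermat.Agent.Deuring

section Chevalley

variable {E F : Type*} [Field E] [Field F] [Algebra E F]

/-- **Chevalley's extension theorem**: every valuation ring of `E` is the trace of a valuation ring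
of `F`. -/
theorem cex_exists_liesOverV (O1 : ValuationSubring E) :
    ∃ O : ValuationSubring F, LiesOverV O1 O := by
  obtain ⟨O, hmem, hloc⟩ := IsLocalRing.exists_factor_valuationRing (K := F)
    ((algebraMap E F).comp O1.subtype)
  refine ⟨O, ?_⟩
  have hin : ∀ e : E, e ∈ O1 → algebraMap E F e ∈ O := fun e he => hmem ⟨e, he⟩
  unfold LiesOverV
  ext e
  rw [ValuationSubring.mem_comap]
  refine ⟨fun he => ?_, hin e⟩
  by_contra hne
  -- `e ∉ O1`: `e⁻¹` is a non-unit of `O1` whose image is a unit of `O`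
  have he0 : e ≠ 0 := fun h0 => hne (h0 ▸ zero_mem _)
  have hinv : e⁻¹ ∈ O1 := (O1.mem_or_inv_mem e).resolve_left hne
  have hunit : IsUnit ((((algebraMap E F).comp O1.subtype).codRestrict O.toSubring hmem)
      ⟨e⁻¹, hinv⟩) := by
    refine IsUnit.of_mul_eq_one (⟨algebraMap E F e, he⟩ : O.toSubring) ?_
    apply Subtype.ext
    show algebraMap E F e⁻¹ * algebraMap E F e = 1
    rw [← map_mul, inv_mul_cancel₀ he0, map_one]
  have h1 : IsUnit (⟨e⁻¹, hinv⟩ : O1) := hloc.map_nonunit _ hunit
  obtain ⟨u, hu⟩ := h1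
  have h2 : e⁻¹ * ((↑(u⁻¹ : (O1)ˣ) : O1) : E) = 1 := by
    have := congrArg Subtype.val u.mul_inv
    rw [hu] at this
    exact this
  have h3 : ((↑(u⁻¹ : (O1)ˣ) : O1) : E) = e := by
    have := congrArg (fun z => e * z) h2
    simpa [← mul_assoc, mul_inv_cancel₀ he0] using this
  exact hne (h3 ▸ (↑(u⁻¹ : (O1)ˣ) : O1).2)

end Chevalley

section Residue

variable {F : Type*} [Field F]

/-- the residue field of a valuation ring (a name for `IsLocalRing.ResidueField O`). -/
abbrev cexFk (O : ValuationSubring F) : Type _ := IsLocalRing.ResidueField O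

/-- the residue map of a valuation ring. -/
def cexRho (O : ValuationSubring F) : O →+* cexFk O := IsLocalRing.residue O

theorem cexRho_surjective (O : ValuationSubring F) : Function.Surjective (cexRho O) :=
  IsLocalRing.residue_surjective

/-- the kernel of the residue map is the set of non-units. -/
theorem cexRho_eq_zero_iff (O : ValuationSubring F) (f : O) : cexRho O f = 0 ↔ ¬ IsUnit f := by
  unfold cexRho
  rw [IsLocalRing.residue_eq_zero_iff, IsLocalRing.mem_maximalIdeal, mem_nonunits_iff]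

theorem cexRho_eq_zero_iff_nonunits (O : ValuationSubring F) (f : O) :
    cexRho O f = 0 ↔ (f : F) ∈ O.nonunits := by
  rw [cexRho_eq_zero_iff, ValuationSubring.mem_nonunits_iff_exists_mem_maximalIdeal]
  constructor
  · intro h
    exact ⟨f.2, (IsLocalRing.mem_maximalIdeal _).mpr h⟩
  · rintro ⟨hf, h⟩
    exact (IsLocalRing.mem_maximalIdeal _).mp h

end Residue

section IotaK

variable {E F κ1 Fk : Type*} [Field E] [Field F] [Algebra E F] [Field κ1] [Field Fk]

/-- a non-unit of `O1` is a non-unit of `O`. -/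
theorem cex_not_isUnit_map {O1 : ValuationSubring E} {O : ValuationSubring F}
    (hO : LiesOverV O1 O) (a : O1) (ha : ¬ IsUnit a) :
    ¬ IsUnit (⟨algebraMap E F (a : E), (hO.mem_iff _).mpr a.2⟩ : O) := by
  intro hu
  apply ha
  obtain ⟨u, hu⟩ := hu
  have h2 : algebraMap E F (a : E) * ((↑(u⁻¹ : (O)ˣ) : O) : F) = 1 := by
    have := congrArg Subtype.val u.mul_inv
    rw [hu] at this
    exact this
  have ha0 : (a : E) ≠ 0 := by
    intro h0
    rw [h0, map_zero, zero_mul] at h2
    exact zero_ne_one h2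
  have h3 : ((↑(u⁻¹ : (O)ˣ) : O) : F) = algebraMap E F ((a : E)⁻¹) := by
    rw [map_inv₀]
    exact eq_inv_of_mul_eq_one_right h2
  have h4 : (a : E)⁻¹ ∈ O1 := by
    rw [← hO.mem_iff, ← h3]
    exact (↑(u⁻¹ : (O)ˣ) : O).2
  refine IsUnit.of_mul_eq_one (⟨(a : E)⁻¹, h4⟩ : O1) ?_
  apply Subtype.ext
  show (a : E) * (a : E)⁻¹ = 1
  exact mul_inv_cancel₀ ha0

/-- **the induced map of residue fields**: `ρ1 : O1 →+* κ1` onto with kernel the non-units,
`ρ : O →+* Fk` killing the non-units, `O` over `O1`. -/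
theorem cex_exists_iotaK {O1 : ValuationSubring E} {O : ValuationSubring F}
    (hO : LiesOverV O1 O) (ρ1 : O1 →+* κ1) (hρ1 : Function.Surjective ρ1)
    (hker1 : ∀ a : O1, ρ1 a = 0 ↔ ¬ IsUnit a)
    (ρ : O →+* Fk) (hker : ∀ f : O, ¬ IsUnit f → ρ f = 0) :
    ∃ ιk : κ1 →+* Fk, ∀ (e : E) (he : e ∈ O1) (he' : algebraMap E F e ∈ O),
      ρ ⟨algebraMap E F e, he'⟩ = ιk (ρ1 ⟨e, he⟩) := by
  classical
  let incl : O1 →+* O :=
    { toFun := fun a => ⟨algebraMap E F (a : E), (hO.mem_iff _).mpr a.2⟩
      map_one' := Subtype.ext (by simp)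
      map_mul' := fun a b => Subtype.ext (by simp)
      map_zero' := Subtype.ext (by simp)
      map_add' := fun a b => Subtype.ext (by simp) }
  let g : O1 →+* Fk := ρ.comp incl
  have hk : RingHom.ker ρ1 ≤ RingHom.ker g := by
    intro a ha
    rw [RingHom.mem_ker] at ha ⊢
    exact hker _ (cex_not_isUnit_map hO a ((hker1 a).mp ha))
  refine ⟨RingHom.liftOfSurjective ρ1 hρ1 ⟨g, hk⟩, fun e he he' => ?_⟩
  have := RingHom.liftOfRightInverse_comp_apply ρ1 (Function.surjInv hρ1)
    (Function.rightInverse_surjInv hρ1) ⟨g, hk⟩ ⟨e, he⟩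
  exact this.symm

end IotaK

section Setup

universe uF

variable {K E k κ1 : Type*} {F : Type uF} [Field K] [Field E] [Field F] [Algebra K E]
  [Algebra E F] [Field k] [Field κ1] [Algebra k κ1]

/-- the map of residue fields `κ1 → cexFk O` induced by `O1 = S1.Ov ⊆ O`. -/
def cexIotaK (S1 : ValSetup K E k κ1) {O : ValuationSubring F} (hO : LiesOverV S1.Ov O) :
    κ1 →+* cexFk O :=
  (cex_exists_iotaK hO S1.ρ S1.ρ_surj S1.ρ_eq_zero_iff (cexRho O)
    (fun f hf => (cexRho_eq_zero_iff O f).mpr hf)).choose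

/-- `ρ_ι`: the residue map of `O` extends the residue map of `S1` along `cexIotaK`. -/
theorem cexIotaK_rho (S1 : ValSetup K E k κ1) {O : ValuationSubring F}
    (hO : LiesOverV S1.Ov O) (e : E) (he : e ∈ S1.Ov) (he' : algebraMap E F e ∈ O) :
    cexRho O ⟨algebraMap E F e, he'⟩ = cexIotaK S1 hO (S1.ρ ⟨e, he⟩) :=
  (cex_exists_iotaK hO S1.ρ S1.ρ_surj S1.ρ_eq_zero_iff (cexRho O)
    (fun f hf => (cexRho_eq_zero_iff O f).mpr hf)).choose_spec e he he'

/-- the `k`-algebra structure of the residue field of `O` (through `κ1`).  Not an instance. -/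
@[reducible] def cexAlgebra (S1 : ValSetup K E k κ1) {O : ValuationSubring F} (hO : LiesOverV S1.Ov O) :
    Algebra k (cexFk O) :=
  ((cexIotaK S1 hO).comp (algebraMap k κ1)).toAlgebra

/-- `ιk_alg`: `cexIotaK` is a `k`-algebra map for `cexAlgebra`. -/
theorem cexIotaK_algebraMap (S1 : ValSetup K E k κ1) {O : ValuationSubring F}
    (hO : LiesOverV S1.Ov O) (c : k) :
    cexIotaK S1 hO (algebraMap k κ1 c) =
      letI := cexAlgebra S1 hO
      algebraMap k (cexFk O) c := rfl

/-- `cexIotaK` is injective (a map of fields). -/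
theorem cexIotaK_injective (S1 : ValSetup K E k κ1) {O : ValuationSubring F}
    (hO : LiesOverV S1.Ov O) : Function.Injective (cexIotaK S1 hO) :=
  (cexIotaK S1 hO).injective

/-- **CORE-EX, packaged**: over any constant reduction `S1` of `E` there is a valuation ring `O`
of `F`, a field `Fk` with a `k`-algebra structure, a residue map `ρ : O →+* Fk` (onto, kernel =
non-units) and `ιk : κ1 →+* Fk` with `ιk_alg`, `lies`, `ρ_ι` (the fields of `ValIn` other than
`scale`). -/
theorem cex_exists (S1 : ValSetup K E k κ1) :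
    ∃ (O : ValuationSubring F) (Fk : Type uF) (_ : Field Fk) (_ : Algebra k Fk)
      (ιk : κ1 →+* Fk) (ρ : O →+* Fk),
      LiesOverV S1.Ov O ∧ (∀ c : k, ιk (algebraMap k κ1 c) = algebraMap k Fk c) ∧
      (∀ (e : E) (he : e ∈ S1.Ov) (he' : algebraMap E F e ∈ O),
        ρ ⟨algebraMap E F e, he'⟩ = ιk (S1.ρ ⟨e, he⟩)) ∧
      Function.Surjective ρ ∧ ∀ f : O, ρ f = 0 ↔ ¬ IsUnit f := by
  obtain ⟨O, hO⟩ := cex_exists_liesOverV (F := F) S1.Ov
  exact ⟨O, cexFk O, inferInstance, cexAlgebra S1 hO, cexIotaK S1 hO, cexRho O, hO,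
    cexIotaK_algebraMap S1 hO, cexIotaK_rho S1 hO, cexRho_surjective O, cexRho_eq_zero_iff O⟩

end Setup

end Fermat.Agent.HPVal
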