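/-
Cluster G (S36), block W-P, seat CORE, part 2 (helper42; sub-architect helper59): `core_main` in
the shapes used by the modular assembly `S36/HPVal/Val.lean` (helper93) with the bundle
`CoreModIn` (helper16).

* `core_main_K`  : `ϖ ∈ K` with `(D.ϖ : E) = algebraMap K E ϖ`, `D.uinv = 1`; the roots are given
  by `eval₂ (algebraMap E F)`; `W = x * (algebraMap K F ϖ)⁻¹`;
* `core_main_ratFunc` : the case `κ1 = k(X)`, `y = X`, the residue characteristic given in `k(X)`.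
-/
import Mathlib
import Fermat.Agent.Lib.BadRed.HPVal.Core

set_option autoImplicit false
set_option linter.unusedSectionVars false
set_option linter.unusedVariables false
set_option linter.style.haveILetI false

noncomputable section

namespace Fermat.Agent.HPVal

open Polynomial IntermediateField Fermat.Agent.BadRed Fermat.Agent.Deuring Fermat.Agent.RR
  Fermat.Agent.HP Fermat.Agent.S36G

universe uK uE uF uk uκ

variable {K : Type uK} {E : Type uE} {F : Type uF} {k : Type uk} {κ1 : Type uκ}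
  [Field K] [Field E] [Algebra K E] [Field F] [Algebra K F] [Algebra E F] [IsScalarTower K E F]
  [Field k] [Field κ1] [Algebra k κ1]

/-- `x / ϖ` for `ϖ ∈ K`. -/
theorem coreK_div_eq {O1 : ValuationSubring E} {q : ℕ} (D : CscData O1 q) {ϖ : K}
    (hϖ : (D.ϖ : E) = algebraMap K E ϖ) (x : F) :
    x / algebraMap E F (D.ϖ : E) = x * (algebraMap K F ϖ)⁻¹ := by
  rw [hϖ, ← IsScalarTower.algebraMap_apply K E F, div_eq_mul_inv]

/-- **CORE**, with the uniformiser in `K`. -/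
theorem core_main_K [IsAlgClosed k] (S1 : ValSetup K E k κ1) (hL1 : HasLattice S1)
    (hF : IsRRField K F) {q : ℕ} (hq : q.Prime) (hchar : ((q : ℕ) : k) = 0)
    (hfin : Module.finrank E F = q * (q + 1))
    (D : CscData S1.Ov q) {ϖ : K} (hϖ : (D.ϖ : E) = algebraMap K E ϖ) (huinv : D.uinv = 1)
    {y : κ1} (hgen : k⟮y⟯ = ⊤) (hy : Transcendental k y) (hY : S1.ρ D.Y = y) {c : k}
    (hc : S1.ρ (D.R.coeff 0) = algebraMap k κ1 c) (hc0 : c ≠ 0)
    {x z : F} (hx : D.psi.eval₂ (algebraMap E F) x = 0)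
    (hz : D.psi.eval₂ (algebraMap E F) z = 0) (hxz : x ≠ z) :
    ∃ (Fk : Type uF) (_ : Field Fk) (_ : Algebra k Fk) (S : ValSetup K F k Fk)
      (H : HPCurve k Fk q) (ιk : κ1 →+* Fk),
      S.A = S1.A ∧
      (∀ (c : K) (h : c ∈ S.A) (h' : c ∈ S1.A), S.res ⟨c, h⟩ = S1.res ⟨c, h'⟩) ∧
      HasLattice S ∧
      LiesOverV S1.Ov S.Ov ∧
      (∀ c : k, ιk (algebraMap k κ1 c) = algebraMap k Fk c) ∧
      (∀ e ∈ S1.Ov, S.red (algebraMap E F e) = ιk (S1.red e)) ∧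
      x * (algebraMap K F ϖ)⁻¹ ∈ S.Ov ∧ z * (algebraMap K F ϖ)⁻¹ ∈ S.Ov ∧
      S.red (x * (algebraMap K F ϖ)⁻¹) = H.X1 ∧
      S.red (z * (algebraMap K F ϖ)⁻¹) = H.X2 ∧
      ιk y = H.Yf ∧ H.c = c ∧
      (∀ e ∈ S1.Ov, S.red (algebraMap E F e) ∈ k⟮H.Yf⟯) ∧
      Module.finrank k⟮H.Yf⟯ Fk = q * (q + 1) ∧
      (∀ O' : ValuationSubring F, LiesOverV S1.Ov O' → O' = S.Ov) := by
  have hc' : S1.ρ D.uinv * S1.ρ (D.R.coeff 0) = algebraMap k κ1 c := by
    rw [huinv, map_one, one_mul, hc]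
  have hx' : aeval x D.psi = 0 := by rw [aeval_def]; exact hx
  have hz' : aeval z D.psi = 0 := by rw [aeval_def]; exact hz
  have h := core_main S1 hL1 hF hq hchar hfin D hgen hy hY hc' hc0 hx' hz' hxz
  rw [coreK_div_eq D hϖ x, coreK_div_eq D hϖ z] at h
  exact h

/-- **CORE**, for the disc valuation with residue field `k(X)`. -/
theorem core_main_ratFunc [IsAlgClosed k] (S1 : ValSetup K E k (RatFunc k)) (hL1 : HasLattice S1)
    (hF : IsRRField K F) {q : ℕ} (hq : q.Prime) (hchar : ((q : ℕ) : RatFunc k) = 0)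
    (hfin : Module.finrank E F = q * (q + 1))
    (D : CscData S1.Ov q) {ϖ : K} (hϖ : (D.ϖ : E) = algebraMap K E ϖ) (huinv : D.uinv = 1)
    (hY : S1.ρ D.Y = RatFunc.X) {c : k}
    (hc : S1.ρ (D.R.coeff 0) = algebraMap k (RatFunc k) c) (hc0 : c ≠ 0)
    {x z : F} (hx : D.psi.eval₂ (algebraMap E F) x = 0)
    (hz : D.psi.eval₂ (algebraMap E F) z = 0) (hxz : x ≠ z) :
    ∃ (Fk : Type uF) (_ : Field Fk) (_ : Algebra k Fk) (S : ValSetup K F k Fk)
      (H : HPCurve k Fk q) (ιk : RatFunc k →+* Fk),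
      S.A = S1.A ∧
      (∀ (c : K) (h : c ∈ S.A) (h' : c ∈ S1.A), S.res ⟨c, h⟩ = S1.res ⟨c, h'⟩) ∧
      HasLattice S ∧
      LiesOverV S1.Ov S.Ov ∧
      (∀ c : k, ιk (algebraMap k (RatFunc k) c) = algebraMap k Fk c) ∧
      (∀ e ∈ S1.Ov, S.red (algebraMap E F e) = ιk (S1.red e)) ∧
      x * (algebraMap K F ϖ)⁻¹ ∈ S.Ov ∧ z * (algebraMap K F ϖ)⁻¹ ∈ S.Ov ∧
      S.red (x * (algebraMap K F ϖ)⁻¹) = H.X1 ∧
      S.red (z * (algebraMap K F ϖ)⁻¹) = H.X2 ∧
      ιk RatFunc.X = H.Yf ∧ H.c = c ∧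
      (∀ e ∈ S1.Ov, S.red (algebraMap E F e) ∈ k⟮H.Yf⟯) ∧
      Module.finrank k⟮H.Yf⟯ Fk = q * (q + 1) ∧
      (∀ O' : ValuationSubring F, LiesOverV S1.Ov O' → O' = S.Ov) := by
  have hchar' : ((q : ℕ) : k) = 0 := by
    apply (algebraMap k (RatFunc k)).injective
    rw [map_natCast, map_zero]
    exact hchar
  exact core_main_K S1 hL1 hF hq hchar' hfin D hϖ huinv RatFunc.adjoin_X
    RatFunc.transcendental_X hY hc hc0 hx hz hxz

end Fermat.Agent.HPVal
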