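/-
Cluster G (S36), block W-P, seat DISC-TAYLOR (helper51; sub-architect helper59, route of helper29).

`S : S18Key.RedSetup K F k Fk` a good reduction, `P` a place of `Fk`, `Pt` a place of `F` over `P`,
`t ∈ F` integral without poles on the residue disc of `P`, `t (Pt) = 0`, `ord_P (red t) = 1`.

* `discRing S P`      : `R_P = {g ∈ Ov | no pole at any place x with r x = P}` (a subring of `F`)
* `DiscPoint`         : the hypotheses on `(Pt, t)`
* `DiscPoint.ord_t_eq_one`, `ord_t_eq_zero` : `Pt` is the ONLY zero of `t` on the disc, and simple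
* `DiscPoint.div_mem` : **(D) division lemma**: `g ∈ R_P`, `g (Pt) = 0`  ⟹  `g / t ∈ R_P`
* `DiscPoint.exists_div` : `g ∈ R_P` ⟹ `∃ a ∈ A, (g - a) / t ∈ R_P`  (`a = g (Pt)`)
* `DiscPoint.exists_taylor` : finite Taylor expansion `g = Σ_{n<N} a_n t^n + t^N g_N`, `a_n ∈ A`,
                              `g_N ∈ R_P`
* `DiscPoint.taylor_ne_zero`  : for `g ≠ 0` and `N > ord_Pt g` some `a_n ≠ 0`
* `discEv`            : the evaluation `R_P →+* k`, `g ↦ (red g)(P)`; `discEv_const`, `discEv_t`,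
                        `discEv_eq_res` (`= res (g (Pt))`)
* `DiscPoint.circleData` : the `CircleData` of `Circle.lean`; `DiscPoint.exists_disc` : the disc
                        valuation `|t| ≤ |ϖ|` around `Pt` exists (`(W) + (C)`).
* `DiscPoint.exists_unique_zero` : **(P)** for `c ∈ m_A` the function `t - c` has exactly one zero
                        on the disc.
-/
import Mathlib
import Fermat.Agent.S18.KeyBasic
import Fermat.Agent.Lib.FF.Value
import Fermat.Agent.Lib.BadRed.HPVal.Circle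

set_option autoImplicit false

noncomputable section

namespace Fermat.Agent.HPVal

open AlgebraicCurve Fermat.Agent.S18Key Fermat.Agent.RR

variable {K F k Fk : Type*} [Field K] [Field F] [Algebra K F] [Field k] [Field Fk] [Algebra k Fk]

/-- `R_P`: the integral functions without poles on the residue disc of `P`. -/
def discRing (S : RedSetup K F k Fk) (P : Place k Fk) : Subring F where
  carrier := {g | g ∈ S.Ov ∧ ∀ x : Place K F, S.r x = P → 0 ≤ x.ord g}
  zero_mem' := ⟨zero_mem _, fun x _ => by rw [Place.ord_zero]⟩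
  one_mem' := ⟨one_mem _, fun x _ => by rw [Place.ord_one]⟩
  add_mem' := fun {a b} ha hb =>
    ⟨add_mem ha.1 hb.1, fun x hx => ord_nonneg_add x (ha.2 x hx) (hb.2 x hx)⟩
  mul_mem' := fun {a b} ha hb =>
    ⟨mul_mem ha.1 hb.1, fun x hx => ord_nonneg_mul x (ha.2 x hx) (hb.2 x hx)⟩
  neg_mem' := fun {a} ha => ⟨neg_mem ha.1, fun x hx => by rw [ord_neg']; exact ha.2 x hx⟩

variable {S : RedSetup K F k Fk} {P : Place k Fk}

theorem mem_discRing_iff {g : F} :
    g ∈ discRing S P ↔ g ∈ S.Ov ∧ ∀ x : Place K F, S.r x = P → 0 ≤ x.ord g := Iff.rfl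

theorem discRing_le : discRing S P ≤ S.Ov.toSubring := fun _ hg => hg.1

theorem const_mem_discRing {c : K} (hc : c ∈ S.A) : algebraMap K F c ∈ discRing S P :=
  ⟨(const_mem_iff c).mpr hc, fun x _ => ord_const_nonneg x c⟩

/-- the reduction of a function of `R_P` is regular at `P`. -/
theorem ord_red_nonneg_of_mem {g : F} (hg : g ∈ discRing S P) : 0 ≤ P.ord (S.red g) := by
  by_cases hU : S.IsU g
  · exact push_nonneg hU P hg.2
  · rw [red_eq_zero_of_not_isU hg.1 hU, Place.ord_zero]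

/-- `R_P` is stable under division by non-zero constants inside `Ov`. -/
theorem discRing_div_const {g : F} (hg : g ∈ discRing S P) (c : K)
    (h : g * (algebraMap K F c)⁻¹ ∈ S.Ov) : g * (algebraMap K F c)⁻¹ ∈ discRing S P := by
  refine ⟨h, fun x hx => ?_⟩
  rcases eq_or_ne g 0 with rfl | hg0
  · rw [zero_mul, Place.ord_zero]
  rcases eq_or_ne c 0 with rfl | hc0
  · rw [map_zero, inv_zero, mul_zero, Place.ord_zero]
  have hcF : (algebraMap K F c)⁻¹ ≠ 0 := inv_ne_zero (by simpa using hc0)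
  rw [x.ord_mul hg0 hcF, Place.ord_inv, Fermat.Agent.S24Res.ord_algebraMap, neg_zero, add_zero]
  exact hg.2 x hx

/-- the hypotheses on the centre `Pt` and the parameter `t`. -/
structure DiscPoint (S : RedSetup K F k Fk) (P : Place k Fk) (Pt : Place K F) (t : F) :
    Prop where
  r_Pt : S.r Pt = P
  t_mem : t ∈ discRing S P
  t_Pt : 0 < Pt.ord t
  ord_t : P.ord (S.red t) = 1

namespace DiscPoint

variable {Pt : Place K F} {t : F}

theorem red_t_ne (D : DiscPoint S P Pt t) : S.red t ≠ 0 := by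
  intro h
  have := D.ord_t
  rw [h, Place.ord_zero] at this
  exact zero_ne_one this

theorem isU_t (D : DiscPoint S P Pt t) : S.IsU t := isU_of_red_ne_zero D.t_mem.1 D.red_t_ne

theorem t_ne (D : DiscPoint S P Pt t) : t ≠ 0 := D.isU_t.ne_zero

/-- `Pt` is a simple zero of `t`. -/
theorem ord_t_eq_one (D : DiscPoint S P Pt t) : Pt.ord t = 1 :=
  push_eq_one_ord D.isU_t P D.t_mem.2 D.ord_t Pt D.r_Pt D.t_Pt

/-- `t` has no other zero on the disc. -/
theorem ord_t_eq_zero (D : DiscPoint S P Pt t) {x : Place K F} (hx : S.r x = P) (hne : x ≠ Pt) :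
    x.ord t = 0 := by
  have h0 : 0 ≤ x.ord t := D.t_mem.2 x hx
  rcases h0.eq_or_lt with h | h
  · exact h.symm
  · exact absurd (push_eq_one_unique D.isU_t P D.t_mem.2 D.ord_t x Pt hx D.r_Pt h D.t_Pt) hne

/-- **(D) division lemma**: a function of `R_P` vanishing at `Pt` is divisible by `t` in
`R_P`. -/
theorem div_mem (D : DiscPoint S P Pt t) {g : F} (hg : g ∈ discRing S P)
    (h0 : g = 0 ∨ 0 < Pt.ord g) : g * t⁻¹ ∈ discRing S P := by
  rcases eq_or_ne g 0 with rfl | hg0
  · rw [zero_mul]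
    exact zero_mem _
  have hpos : 0 < Pt.ord g := h0.resolve_left hg0
  refine ⟨mul_mem hg.1 D.isU_t.inv_mem, fun x hx => ?_⟩
  rw [x.ord_mul hg0 (inv_ne_zero D.t_ne), Place.ord_inv]
  by_cases hxP : x = Pt
  · subst hxP
    rw [D.ord_t_eq_one]
    omega
  · rw [D.ord_t_eq_zero hx hxP]
    have := hg.2 x hx
    omega

/-- the value at `Pt` of a function of `R_P` lies in `A`. -/
theorem value_mem (D : DiscPoint S P Pt t) {g : F} (hg : g ∈ discRing S P) :
    Fermat.Agent.FF.valueAt S.hF Pt g ∈ S.A := by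
  have hreg : ∀ P', S.r P' = S.r Pt → 0 ≤ P'.ord g := fun P' hP' =>
    hg.2 P' (hP'.trans D.r_Pt)
  have hgPt : g ∈ Pt.toValuationSubring :=
    Fermat.Agent.S24Res.mem_of_ord_nonneg Pt (hg.2 Pt D.r_Pt)
  exact value_mem_A hg.1 Pt hreg _ (Fermat.Agent.FF.valueAt_spec S.hF Pt hgPt)

/-- `g ∈ R_P` ⟹ `(g - g (Pt)) / t ∈ R_P`. -/
theorem sub_value_div_mem (D : DiscPoint S P Pt t) {g : F} (hg : g ∈ discRing S P) :
    (g - algebraMap K F (Fermat.Agent.FF.valueAt S.hF Pt g)) * t⁻¹ ∈ discRing S P := by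
  have hgPt : g ∈ Pt.toValuationSubring :=
    Fermat.Agent.S24Res.mem_of_ord_nonneg Pt (hg.2 Pt D.r_Pt)
  have hsub : g - algebraMap K F (Fermat.Agent.FF.valueAt S.hF Pt g) ∈ discRing S P :=
    sub_mem hg (const_mem_discRing (D.value_mem hg))
  refine D.div_mem hsub ?_
  rcases Fermat.Agent.FF.valueAt_spec S.hF Pt hgPt with h | h
  · left
    rw [sub_eq_zero]
    exact h
  · exact Or.inr h

/-- `g ∈ R_P` ⟹ `∃ a ∈ A, (g - a) / t ∈ R_P`. -/
theorem exists_div (D : DiscPoint S P Pt t) {g : F} (hg : g ∈ discRing S P) :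
    ∃ a : K, a ∈ S.A ∧ (g - algebraMap K F a) * t⁻¹ ∈ discRing S P :=
  ⟨_, D.value_mem hg, D.sub_value_div_mem hg⟩

/-- **finite Taylor expansion** in `R_P`. -/
theorem exists_taylor (D : DiscPoint S P Pt t) {g : F} (hg : g ∈ discRing S P) (N : ℕ) :
    ∃ (a : ℕ → K) (gN : F), (∀ n, a n ∈ S.A) ∧ gN ∈ discRing S P ∧
      g = ∑ n ∈ Finset.range N, algebraMap K F (a n) * t ^ n + t ^ N * gN := by
  induction N generalizing g with
  | zero =>
    exact ⟨fun _ => 0, g, fun _ => zero_mem _, hg, by simp⟩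
  | succ N ih =>
    obtain ⟨a₀, ha₀, hq⟩ := D.exists_div hg
    obtain ⟨a, gN, ha, hgN, hexp⟩ := ih hq
    refine ⟨fun n => if n = 0 then a₀ else a (n - 1), gN, fun n => ?_, hgN, ?_⟩
    · by_cases hn : n = 0
      · simp only [hn, if_true]
        exact ha₀
      · simp only [hn, if_false]
        exact ha _
    · have hg' : g = algebraMap K F a₀ + t * ((g - algebraMap K F a₀) * t⁻¹) := by
        rw [mul_comm (g - algebraMap K F a₀), ← mul_assoc, mul_inv_cancel₀ D.t_ne, one_mul]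
        ring
      rw [Finset.sum_range_succ']
      simp only [Nat.add_eq_zero_iff, one_ne_zero, and_false, if_false, Nat.add_sub_cancel,
        if_true, pow_zero, mul_one]
      conv_lhs => rw [hg', hexp]
      rw [mul_add, Finset.mul_sum]
      have h1 : ∀ n, t * (algebraMap K F (a n) * t ^ n) = algebraMap K F (a n) * t ^ (n + 1) := by
        intro n
        rw [pow_succ]
        ring
      simp only [h1]
      rw [pow_succ]
      ring

/-- a non-zero function of `R_P` has a non-zero Taylor coefficient below `ord_Pt g + 1`. -/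
theorem taylor_ne_zero (D : DiscPoint S P Pt t) {g : F} (hg0 : g ≠ 0) {N : ℕ}
    (hN : Pt.ord g < N) {a : ℕ → K} {gN : F} (hgN : gN ∈ discRing S P)
    (hexp : g = ∑ n ∈ Finset.range N, algebraMap K F (a n) * t ^ n + t ^ N * gN) :
    ∃ n, n < N ∧ a n ≠ 0 := by
  by_contra hall
  have hzero : ∀ n, n < N → a n = 0 := fun n hn => by
    by_contra h
    exact hall ⟨n, hn, h⟩
  have hsum : ∑ n ∈ Finset.range N, algebraMap K F (a n) * t ^ n = 0 :=
    Finset.sum_eq_zero fun n hn => by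
      rw [hzero n (Finset.mem_range.mp hn), map_zero, zero_mul]
  rw [hsum, zero_add] at hexp
  have hgN0 : gN ≠ 0 := by
    rintro rfl
    rw [mul_zero] at hexp
    exact hg0 hexp
  have hord : Pt.ord g = N * Pt.ord t + Pt.ord gN := by
    rw [hexp, Pt.ord_mul (pow_ne_zero _ D.t_ne) hgN0]
    congr 1
    clear hexp hsum hzero hall hN
    induction N with
    | zero => simp
    | succ N ih =>
      rw [pow_succ, Pt.ord_mul (pow_ne_zero _ D.t_ne) D.t_ne, ih]
      push_cast
      ring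
  rw [D.ord_t_eq_one, mul_one] at hord
  have := hgN.2 Pt D.r_Pt
  omega

end DiscPoint

/-! ### the evaluation at `P` -/

/-- the reduction map `R_P → O_P`. -/
def discRed (S : RedSetup K F k Fk) (P : Place k Fk) :
    discRing S P →+* P.toValuationSubring where
  toFun g := ⟨S.red (g : F),
    Fermat.Agent.S24Res.mem_of_ord_nonneg P (ord_red_nonneg_of_mem g.2)⟩
  map_one' := Subtype.ext red_one
  map_mul' a b := Subtype.ext (red_mul a.2.1 b.2.1)
  map_zero' := Subtype.ext red_zero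
  map_add' a b := Subtype.ext (red_add a.2.1 b.2.1)

/-- **the evaluation** `R_P →+* k`, `g ↦ (red g)(P)`. -/
def discEv (S : RedSetup K F k Fk) (P : Place k Fk) (hFk : IsRRField k Fk) :
    discRing S P →+* k :=
  (Fermat.Agent.FF.valueHom hFk P).comp (discRed S P)

theorem discEv_apply (hFk : IsRRField k Fk) (g : discRing S P) :
    discEv S P hFk g = Fermat.Agent.FF.valueAt hFk P (S.red (g : F)) := by
  rw [Fermat.Agent.FF.valueAt_of_mem hFk P
    (Fermat.Agent.S24Res.mem_of_ord_nonneg P (ord_red_nonneg_of_mem g.2))]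
  rfl

theorem discEv_const (hFk : IsRRField k Fk) {c : K} (hc : c ∈ S.A) :
    discEv S P hFk ⟨algebraMap K F c, const_mem_discRing hc⟩ = S.res ⟨c, hc⟩ := by
  rw [discEv_apply, red_const hc, Fermat.Agent.FF.valueAt_algebraMap]

/-- `ev g = 0` iff the reduction of `g` vanishes at `P`. -/
theorem discEv_eq_zero_iff (hFk : IsRRField k Fk) (g : discRing S P) :
    discEv S P hFk g = 0 ↔ S.red (g : F) = 0 ∨ 0 < P.ord (S.red (g : F)) := by
  rw [discEv_apply]
  exact Fermat.Agent.FF.valueAt_eq_zero_iff hFk P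
    (Fermat.Agent.S24Res.mem_of_ord_nonneg P (ord_red_nonneg_of_mem g.2))

namespace DiscPoint

variable {Pt : Place K F} {t : F}

theorem discEv_t (D : DiscPoint S P Pt t) (hFk : IsRRField k Fk) (h : t ∈ discRing S P) :
    discEv S P hFk ⟨t, h⟩ = 0 := by
  rw [discEv_eq_zero_iff]
  right
  show 0 < P.ord (S.red t)
  rw [D.ord_t]
  exact one_pos

/-- evaluation commutes with reduction: `ev g = res (g (Pt))`. -/
theorem discEv_eq_res (D : DiscPoint S P Pt t) (hFk : IsRRField k Fk) (g : discRing S P) :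
    discEv S P hFk g = S.res ⟨Fermat.Agent.FF.valueAt S.hF Pt (g : F), D.value_mem g.2⟩ := by
  have hreg : ∀ P', S.r P' = S.r Pt → 0 ≤ P'.ord (g : F) := fun P' hP' =>
    g.2.2 P' (hP'.trans D.r_Pt)
  have hgPt : (g : F) ∈ Pt.toValuationSubring :=
    Fermat.Agent.S24Res.mem_of_ord_nonneg Pt (g.2.2 Pt D.r_Pt)
  have hA := D.value_mem g.2
  have h1 := value_red g.2.1 Pt hreg _ hA (Fermat.Agent.FF.valueAt_spec S.hF Pt hgPt)
  rw [D.r_Pt, red_const hA] at h1
  rw [discEv_apply]
  have hmem : S.red (g : F) ∈ P.toValuationSubring :=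
    Fermat.Agent.S24Res.mem_of_ord_nonneg P (ord_red_nonneg_of_mem g.2)
  rw [Fermat.Agent.FF.valueAt_eq_iff hFk P hmem]
  exact h1

/-- the `CircleData` of the disc `|t| ≤ |ϖ|` around `Pt`. -/
theorem circleData (D : DiscPoint S P Pt t) (hFk : IsRRField k Fk) {ϖ : K} (hϖ0 : ϖ ≠ 0)
    (hϖA : ϖ ∈ S.A) (hϖ : S.res ⟨ϖ, hϖA⟩ = 0) :
    CircleData S.Ov.toSubring (discRing S P) (algebraMap K F ϖ) t (discEv S P hFk) where
  le := discRing_le
  ϖ_ne := by simpa using hϖ0
  ϖ_mem := const_mem_discRing hϖA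
  t_ne := D.t_ne
  t_mem := D.t_mem
  t_inv := D.isU_t.inv_mem
  div := fun b hb h => discRing_div_const hb ϖ h
  ev_ϖ := fun _ => by rw [discEv_const hFk hϖA, hϖ]
  ev_t := fun h => D.discEv_t hFk h

/-- **the disc valuation exists** (`(W) + (C)`): a valuation ring `V` of `F` containing
`R_P [t / ϖ]`, in which `t / ϖ` is a unit, `g ∈ R_P` is a non-unit iff `(red g)(P) = 0`, and
`G (t / ϖ)`, `G ∈ R_P [X]`, is a non-unit iff `G` reduces to `0` in `k[X]`. -/
theorem exists_disc (D : DiscPoint S P Pt t) (hFk : IsRRField k Fk) {ϖ : K} (hϖ0 : ϖ ≠ 0)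
    (hϖA : ϖ ∈ S.A) (hϖ : S.res ⟨ϖ, hϖA⟩ = 0) :
    ∃ V : ValuationSubring F, (∀ b ∈ discRing S P, b ∈ V) ∧
      t * (algebraMap K F ϖ)⁻¹ ∈ V ∧ (t * (algebraMap K F ϖ)⁻¹)⁻¹ ∈ V ∧
      (∀ b : discRing S P, (b : F) ∈ V.nonunits ↔ discEv S P hFk b = 0) ∧
      (∀ G : Polynomial (discRing S P),
        (CircleData.evalHom (discRing S P) (algebraMap K F ϖ) t G ∈ V.nonunits ↔
          G.map (discEv S P hFk) = 0)) ∧
      (∀ G : Polynomial (discRing S P), G.map (discEv S P hFk) ≠ 0 →
        CircleData.evalHom (discRing S P) (algebraMap K F ϖ) t G ∈ V ∧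
          (CircleData.evalHom (discRing S P) (algebraMap K F ϖ) t G)⁻¹ ∈ V) :=
  (D.circleData hFk hϖ0 hϖA hϖ).exists_circle'

end DiscPoint

end Fermat.Agent.HPVal
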