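/-
Cluster G (S36), block W-P, seat RESTR (helper95), abstract leaf DENOM
(helper25's step 4(c) of the test of helper29's disc route; used by WP-OLD / RESTR).

`S : Deuring.ValSetup K F k Fk` a good reduction, `r` its Deuring reduction of places
(`hr : FF.IsReduction S r`), `P` a place of `Fk`, `Z` a set of places of `F` (the cusps) none of
which reduces to `P`.

* `cuspRing S Z`  : the Gauss-integral functions with poles only in `Z` (a subring of `F`);
* `cuspRing_le_discRing` : `cuspRing S Z ≤ R_P = discRing hr.redSetup P`;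
* `exists_ord_eq_zero` : (Riemann-Roch) if `deg D ≥ 2g` and `D P = 0` there is `y ∈ L(D)`, `y ≠ 0`,
  with `ord_P y = 0`;
* `exists_denom`  : **denominators**: every `g ∈ R_P` is `(g d) / d` with `d, g d ∈ cuspRing S Z`
  and `d̄ (P) ≠ 0` (`red d ≠ 0`, `ord_P (red d) = 0`);
* `exists_denom_ev` : the same in terms of `discEv`: this is the hypothesis `hloc` of
  `restrOld_of_loc` (`RestrAbs.lean`) for `C = cuspRing S Z`, `B = R_P`.
-/
import Mathlib
import Fermat.Agent.Lib.FF.RedValue
import Fermat.Agent.Lib.RR.Weil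
import Fermat.Agent.Lib.BadRed.HPVal.DiscTaylor

set_option autoImplicit false

noncomputable section

namespace Fermat.Agent.HPVal

open AlgebraicCurve Fermat.Agent.RR Fermat.Agent.Deuring Fermat.Agent.FF Fermat.Agent.S18Key

variable {K F k Fk : Type*} [Field K] [Field F] [Algebra K F] [Field k] [Field Fk] [Algebra k Fk]

/-- the Gauss-integral functions with poles only in `Z` ("cuspidal poles"). -/
def cuspRing (S : ValSetup K F k Fk) (Z : Set (Place K F)) : Subring F where
  carrier := {g | g ∈ S.Ov ∧ ∀ x : Place K F, x ∉ Z → 0 ≤ x.ord g}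
  zero_mem' := ⟨zero_mem _, fun x _ => by rw [Place.ord_zero]⟩
  one_mem' := ⟨one_mem _, fun x _ => by rw [Place.ord_one]⟩
  add_mem' := fun {a b} ha hb =>
    ⟨add_mem ha.1 hb.1, fun x hx => ord_nonneg_add x (ha.2 x hx) (hb.2 x hx)⟩
  mul_mem' := fun {a b} ha hb =>
    ⟨mul_mem ha.1 hb.1, fun x hx => ord_nonneg_mul x (ha.2 x hx) (hb.2 x hx)⟩
  neg_mem' := fun {a} ha => ⟨neg_mem ha.1, fun x hx => by rw [ord_neg']; exact ha.2 x hx⟩

theorem mem_cuspRing_iff {S : ValSetup K F k Fk} {Z : Set (Place K F)} {g : F} :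
    g ∈ cuspRing S Z ↔ g ∈ S.Ov ∧ ∀ x : Place K F, x ∉ Z → 0 ≤ x.ord g := Iff.rfl

variable {S : ValSetup K F k Fk} {r : Place K F → Place k Fk}

theorem cuspRing_le_discRing (hr : IsReduction S r) {P : Place k Fk} {Z : Set (Place K F)}
    (hZ : ∀ z ∈ Z, r z ≠ P) : cuspRing S Z ≤ discRing hr.redSetup P := by
  intro g hg
  refine ⟨hg.1, fun x hx => hg.2 x fun hxZ => hZ x hxZ hx⟩

theorem const_mem_cuspRing {Z : Set (Place K F)} {c : K} (hc : c ∈ S.A) :
    algebraMap K F c ∈ cuspRing S Z :=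
  ⟨(S.mem_Ov_iff c).mpr hc, fun x _ => ord_const_nonneg x c⟩

/-- **Riemann-Roch**: in degree `≥ 2g` a place outside the support is not a base point. -/
theorem exists_ord_eq_zero (hFk : IsRRField k Fk) {D : Divisor k Fk}
    (hD : 2 * (genusFF k Fk : ℤ) ≤ Divisor.degree D) {P : Place k Fk} (hP : D P = 0) :
    ∃ y ∈ riemannRochSpace D, y ≠ 0 ∧ P.ord y = 0 := by
  classical
  set D' : Divisor k Fk := D - Finsupp.single P 1 with hD'
  have hDD' : D' + Finsupp.single P 1 = D := by rw [hD', sub_add_cancel]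
  have hdeg' : Divisor.degree D' = Divisor.degree D - 1 := by
    rw [hD', map_sub, degree_single_one hFk]
  have h1 : (ell D : ℤ) = Divisor.degree D + 1 - (genusFF k Fk : ℤ) :=
    ell_of_degree_gt hFk (by linarith)
  have h2 : (ell D' : ℤ) = Divisor.degree D' + 1 - (genusFF k Fk : ℤ) :=
    ell_of_degree_gt hFk (by rw [hdeg']; linarith)
  have hlt : ell D' < ell D := by
    have : (ell D' : ℤ) < (ell D : ℤ) := by rw [h1, h2, hdeg']; linarith
    exact_mod_cast this
  have hex : ∃ y ∈ riemannRochSpace D, y ∉ riemannRochSpace D' := by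
    by_contra hcon
    push Not at hcon
    have hle : riemannRochSpace D ≤ riemannRochSpace D' := fun y hy => hcon y hy
    have := finite_riemannRochSpace hFk D'
    have h3 := Submodule.finrank_mono hle
    rw [← ell_def, ← ell_def] at h3
    omega
  obtain ⟨y, hy, hyD'⟩ := hex
  rw [← hDD'] at hy
  obtain ⟨hy0, hord⟩ := ord_eq_of_mem_add_single_of_not_mem hy hyD'
  rw [hDD'] at hy
  refine ⟨y, hy, hy0, ?_⟩
  rw [hord, hD', Finsupp.sub_apply, Finsupp.single_eq_same, hP]
  norm_num

/-- **denominators**: every function of `R_P` becomes a function with cuspidal poles after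
multiplication by a function `d` with cuspidal poles whose reduction does not vanish at `P`. -/
theorem exists_denom (hr : IsReduction S r) (P : Place k Fk) (Z : Set (Place K F))
    {z₀ : Place K F} (hz₀ : z₀ ∈ Z) (hz₀P : r z₀ ≠ P) {g : F}
    (hg : g ∈ discRing hr.redSetup P) :
    ∃ d : F, d ∈ cuspRing S Z ∧ g * d ∈ cuspRing S Z ∧ S.red d ≠ 0 ∧ P.ord (S.red d) = 0 := by
  classical
  -- the non-cuspidal part of the pole divisor of `g`
  set E : Divisor K F := (poleDiv S.hF g).filter (fun x => x ∉ Z) with hE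
  have hEout : ∀ x, x ∉ Z → E x = max (-(x.ord g)) 0 := by
    intro x hx
    rw [hE, Finsupp.filter_apply, if_pos hx, poleDiv_apply]
  have hEin : ∀ x, x ∈ Z → E x = 0 := by
    intro x hx
    rw [hE, Finsupp.filter_apply, if_neg (not_not.mpr hx)]
  have hEnn : ∀ x, 0 ≤ E x := by
    intro x
    by_cases hx : x ∈ Z
    · rw [hEin x hx]
    · rw [hEout x hx]
      exact le_max_right (-(x.ord g)) 0
  set N : ℤ := 2 * (genusFF K F : ℤ) + 2 * (genusFF k Fk : ℤ) + Divisor.degree E with hN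
  set B : Divisor K F := Finsupp.single z₀ N - E with hB
  have hdegB : Divisor.degree B = 2 * (genusFF K F : ℤ) + 2 * (genusFF k Fk : ℤ) := by
    rw [hB, map_sub, degree_single_one S.hF, hN]
    ring
  have hBK : 2 * (genusFF K F : ℤ) ≤ Divisor.degree B := by
    rw [hdegB]
    have : (0 : ℤ) ≤ (genusFF k Fk : ℤ) := Int.natCast_nonneg _
    linarith
  have hBk : 2 * (genusFF k Fk : ℤ) ≤ Divisor.degree (redDiv r B) := by
    rw [hr.degree_redDiv, hdegB]
    have : (0 : ℤ) ≤ (genusFF K F : ℤ) := Int.natCast_nonneg _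
    linarith
  -- `P` is not in the support of `r_* B`
  have hBP : redDiv r B P = 0 := by
    by_contra hne
    obtain ⟨x, hx, hxP⟩ := exists_of_redDiv_apply_ne_zero r hne
    apply hx
    have hxz : x ≠ z₀ := fun h => hz₀P (h ▸ hxP)
    rw [hB, Finsupp.sub_apply, Finsupp.single_apply, if_neg (Ne.symm hxz), zero_sub,
      neg_eq_zero]
    by_cases hxZ : x ∈ Z
    · exact hEin x hxZ
    · rw [hEout x hxZ]
      have h0 : 0 ≤ x.ord g := hg.2 x hxP
      exact max_eq_right (by omega)
  obtain ⟨y, hy, hy0, hyP⟩ := exists_ord_eq_zero S.hFk hBk hBP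
  obtain ⟨d, hdB, hdO, hdy⟩ := hr.exists_lift hBK hy
  have hd0 : d ≠ 0 := by
    rintro rfl
    rw [S.red_zero] at hdy
    exact hy0 hdy.symm
  have hdord : ∀ x : Place K F, x ∉ Z → E x ≤ x.ord d := by
    intro x hx
    have h1 := ((mem_riemannRochSpace_iff.mp hdB) x).resolve_left hd0
    have hxz : x ≠ z₀ := fun h => hx (h ▸ hz₀)
    rw [hB, Finsupp.sub_apply, Finsupp.single_apply, if_neg (Ne.symm hxz)] at h1
    omega
  refine ⟨d, ⟨hdO, fun x hx => (hEnn x).trans (hdord x hx)⟩, ⟨mul_mem hg.1 hdO, fun x hx => ?_⟩,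
    ?_, ?_⟩
  · rcases eq_or_ne g 0 with rfl | hg0
    · rw [zero_mul, Place.ord_zero]
    rw [x.ord_mul hg0 hd0]
    have h1 := hdord x hx
    rw [hEout x hx] at h1
    have h2 := le_max_left (-(x.ord g)) 0
    omega
  · rw [hdy]
    exact hy0
  · rw [hdy]
    exact hyP

/-- `exists_denom` in terms of the evaluation `discEv` at `P`: the hypothesis `hloc` of
`restrOld_of_loc` for `C = cuspRing S Z`, `B = R_P`. -/
theorem exists_denom_ev (hr : IsReduction S r) (P : Place k Fk) (Z : Set (Place K F))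
    {z₀ : Place K F} (hz₀ : z₀ ∈ Z) (hZ : ∀ z ∈ Z, r z ≠ P)
    (b : discRing hr.redSetup P) :
    ∃ (d : F) (hd : d ∈ cuspRing S Z),
      discEv hr.redSetup P S.hFk ⟨d, cuspRing_le_discRing hr hZ hd⟩ ≠ 0 ∧
        (b : F) * d ∈ cuspRing S Z := by
  obtain ⟨d, hd, hgd, hd0, hdP⟩ := exists_denom hr P Z hz₀ (hZ z₀ hz₀) b.2
  refine ⟨d, hd, ?_, hgd⟩
  rw [Ne, discEv_eq_zero_iff]
  rintro (h | h)
  · exact hd0 h
  · have h' : 0 < P.ord (S.red d) := h
    omega

end Fermat.Agent.HPVal
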