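/-
Cluster G (S36), block W-P, seat RESTR (helper95), abstract leaf DENOM, part 2:
the denominators for a `S18Key.RedSetup` (a reduction map with PUSH only).

* `isReduction_of_push` : a reduction map of places with the push-forward property is a Deuring
  reduction (`FF.IsReduction`: push, (GR) in degree `≥ 2g`, degrees), as soon as the constant
  reduction has the lattice property and the genera agree;
* `discRing_congr`      : `discRing` only depends on `Ov` and `r`;
* `exists_denom_redSetup` : **denominators** for a `RedSetup S0` and a constant reduction `S'` with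
  the same valuation ring and the same residue map: every `g ∈ discRing S0 P` is `(g d) / d`
  with `d`, `g d` integral with poles only in `Z` and `d̄ (P) ≠ 0`;
* `exists_denom_redSetup_ev` : the same with `discEv`.
-/
import Mathlib
import Fermat.Agent.Lib.BadRed.HPVal.Denom
import Fermat.Agent.Lib.FF.GoodEll.Semi

set_option autoImplicit false

noncomputable section

namespace Fermat.Agent.HPVal

open AlgebraicCurve Fermat.Agent.RR Fermat.Agent.Deuring Fermat.Agent.FF Fermat.Agent.S18Key

variable {K F k Fk : Type*} [Field K] [Field F] [Algebra K F] [Field k] [Field Fk] [Algebra k Fk]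

/-- **push + lattice + genus equality ⟹ Deuring reduction.** -/
theorem isReduction_of_push (S : ValSetup K F k Fk) (hL : HasLattice S)
    (hg : genusFF K F = genusFF k Fk) {r : Place K F → Place k Fk}
    (hr : Fermat.Agent.FFGoodEll.IsPush S r) : IsReduction S r where
  push := hr
  gr := fun B hB => by
    have hle := Fermat.Agent.FFGoodEll.redSpace_le S hr B
    have f1 := finite_riemannRochSpace S.hF B
    have f2 := finite_riemannRochSpace S.hFk (Finsupp.mapDomain r B)
    have h1 := finrank_redSpace S hL (riemannRochSpace B)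
    have hdeg : Divisor.degree (Finsupp.mapDomain r B) = Divisor.degree B :=
      degree_redDiv_of_isRRField S.hF S.hFk r B
    have e1 : (ell B : ℤ) = Divisor.degree B + 1 - (genusFF K F : ℤ) :=
      ell_of_degree_gt S.hF (by linarith)
    have e2 : (ell (Finsupp.mapDomain r B) : ℤ) =
        Divisor.degree (Finsupp.mapDomain r B) + 1 - (genusFF k Fk : ℤ) :=
      ell_of_degree_gt S.hFk (by rw [hdeg, ← hg]; linarith)
    have e3 : ell (Finsupp.mapDomain r B) = ell B := by
      have : (ell (Finsupp.mapDomain r B) : ℤ) = (ell B : ℤ) := by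
        rw [e1, e2, hdeg, hg]
      exact_mod_cast this
    have h2 : Module.finrank k (redSpace S (riemannRochSpace B)) =
        Module.finrank k (riemannRochSpace (Finsupp.mapDomain r B)) := by
      rw [h1, ← ell_def, ← ell_def, e3]
    exact Submodule.eq_of_le_of_finrank_eq hle h2
  deg := fun B => degree_redDiv_of_isRRField S.hF S.hFk r B

/-- `discRing` only depends on the valuation ring and on the reduction map of places. -/
theorem discRing_congr {S S' : RedSetup K F k Fk} (hOv : ∀ f : F, f ∈ S.Ov ↔ f ∈ S'.Ov)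
    (hr : S.r = S'.r) (P : Place k Fk) {g : F} :
    g ∈ discRing S P ↔ g ∈ discRing S' P := by
  rw [mem_discRing_iff, mem_discRing_iff, hOv, hr]

/-- the push-forward property of the reduction map of a `RedSetup`, for a constant reduction
with the same valuation ring and the same residue map. -/
theorem isPush_of_redSetup (S0 : RedSetup K F k Fk) (S' : ValSetup K F k Fk)
    (hOv : ∀ f : F, f ∈ S0.Ov ↔ f ∈ S'.Ov)
    (hred : ∀ f : F, f ∈ S0.Ov → S0.red f = S'.red f) :
    Fermat.Agent.FFGoodEll.IsPush S' S0.r := by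
  intro f hf hinv hf0 Q
  have hf' : f ∈ S0.Ov := (hOv f).mpr hf
  have hinv' : f⁻¹ ∈ S0.Ov := (hOv _).mpr hinv
  have h1 := S0.push f hf' hinv' hf0 Q
  rw [← hred f hf', red_of_mem hf', ← h1]

/-- **denominators for a `RedSetup`.** -/
theorem exists_denom_redSetup (S0 : RedSetup K F k Fk) (S' : ValSetup K F k Fk)
    (hOv : ∀ f : F, f ∈ S0.Ov ↔ f ∈ S'.Ov)
    (hred : ∀ f : F, f ∈ S0.Ov → S0.red f = S'.red f)
    (hL : HasLattice S') (hg : genusFF K F = genusFF k Fk)
    (P : Place k Fk) (Z : Set (Place K F)) {z₀ : Place K F} (hz₀ : z₀ ∈ Z)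
    (hz₀P : S0.r z₀ ≠ P) {g : F} (hgP : g ∈ discRing S0 P) :
    ∃ d : F, d ∈ S0.Ov ∧ (∀ x : Place K F, x ∉ Z → 0 ≤ x.ord d) ∧
      (∀ x : Place K F, x ∉ Z → 0 ≤ x.ord (g * d)) ∧ S0.red d ≠ 0 ∧ P.ord (S0.red d) = 0 := by
  have hr : IsReduction S' S0.r :=
    isReduction_of_push S' hL hg (isPush_of_redSetup S0 S' hOv hred)
  have hgP' : g ∈ discRing hr.redSetup P := by
    refine ⟨(hOv g).mp hgP.1, fun x hx => hgP.2 x hx⟩
  obtain ⟨d, hd, hgd, hd0, hdP⟩ := exists_denom hr P Z hz₀ hz₀P hgP'
  have hdO : d ∈ S0.Ov := (hOv d).mpr hd.1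
  refine ⟨d, hdO, hd.2, hgd.2, ?_, ?_⟩
  · rw [hred d hdO]
    exact hd0
  · rw [hred d hdO]
    exact hdP

/-- **denominators for a `RedSetup`**, in terms of `discEv`. -/
theorem exists_denom_redSetup_ev (S0 : RedSetup K F k Fk) (S' : ValSetup K F k Fk)
    (hOv : ∀ f : F, f ∈ S0.Ov ↔ f ∈ S'.Ov)
    (hred : ∀ f : F, f ∈ S0.Ov → S0.red f = S'.red f)
    (hL : HasLattice S') (hg : genusFF K F = genusFF k Fk)
    (P : Place k Fk) (hFk : IsRRField k Fk) (Z : Set (Place K F)) {z₀ : Place K F}
    (hz₀ : z₀ ∈ Z) (hZ : ∀ z ∈ Z, S0.r z ≠ P) (b : discRing S0 P) :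
    ∃ (d : F) (hd : d ∈ discRing S0 P), (∀ x : Place K F, x ∉ Z → 0 ≤ x.ord d) ∧
      (∀ x : Place K F, x ∉ Z → 0 ≤ x.ord ((b : F) * d)) ∧ discEv S0 P hFk ⟨d, hd⟩ ≠ 0 := by
  obtain ⟨d, hdO, hd, hbd, hd0, hdP⟩ :=
    exists_denom_redSetup S0 S' hOv hred hL hg P Z hz₀ (hZ z₀ hz₀) b.2
  have hdR : d ∈ discRing S0 P := ⟨hdO, fun x hx => hd x fun hxZ => hZ x hxZ hx⟩
  refine ⟨d, hdR, hd, hbd, ?_⟩
  rw [Ne, discEv_eq_zero_iff]
  rintro (h | h)
  · exact hd0 h
  · have h' : 0 < P.ord (S0.red d) := h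
    omega

end Fermat.Agent.HPVal
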