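/-
Cluster G (S36), block W-P, seat DISC-ASM (helper51; sub-architect helper59): the abstract
assembly  `DiscPoint` (good reduction + centre + parameter)  ⟹  `DiscData` (helper47,
`DiscNorm.lean`), hence the disc valuation `|t| ≤ |ϖ|` around `Pt` EXISTS, is UNIQUE, has `e = 1`
and residue field `k(W̄)`.

`S : S18Key.RedSetup K F k Fk`, `P` a place of `Fk`, `D : DiscPoint S P Pt t`, `ϖ ∈ m_A`, `ϖ ≠ 0`,
`A` of rank one w.r.t. `ϖ` (`arch`), `Q₀` a place of `F` not reducing to `P`.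

* `redSetup_res_eq_zero_iff` : `res a = 0 ↔ ¬ IsUnit a`
* `DiscPoint.discData`       : the `DiscData S.A S.res S.Ov (discRing S P) ϖ t (discEv S P hFk)`
* `DiscPoint.exists_discVal_unique` : `∃! V, IsDiscVal S.A (discRing S P) ϖ t (discEv S P hFk) V`
-/
import Mathlib
import Fermat.Agent.Lib.BadRed.HPVal.DiscPoints
import Fermat.Agent.Lib.BadRed.HPVal.DiscNorm

set_option autoImplicit false

noncomputable section

namespace Fermat.Agent.HPVal

open AlgebraicCurve Fermat.Agent.S18Key Fermat.Agent.RR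

variable {K F k Fk : Type*} [Field K] [Field F] [Algebra K F] [Field k] [Field Fk] [Algebra k Fk]

variable {S : RedSetup K F k Fk} {P : Place k Fk}

/-- the residue map of `A` kills exactly the non-units. -/
theorem redSetup_res_eq_zero_iff (S : RedSetup K F k Fk) (a : S.A) :
    S.res a = 0 ↔ ¬ IsUnit a := by
  obtain ⟨c, hc⟩ := a
  rw [res_eq_zero_iff (S := S) hc]
  constructor
  · rintro (h0 | hinv) hu
    · subst h0
      have h00 : (⟨0, hc⟩ : S.A) = 0 := rfl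
      rw [h00] at hu
      exact not_isUnit_zero hu
    · obtain ⟨b, hb⟩ := isUnit_iff_exists_inv.mp hu
      have h1 : c * (b : K) = 1 := by
        have := congrArg Subtype.val hb
        simpa using this
      have : c⁻¹ = (b : K) := inv_eq_of_mul_eq_one_right h1
      exact hinv (this ▸ b.2)
  · intro hu
    by_contra hno
    rw [not_or, not_not] at hno
    exact hu ⟨⟨⟨c, hc⟩, ⟨c⁻¹, hno.2⟩, Subtype.ext (mul_inv_cancel₀ hno.1),
      Subtype.ext (inv_mul_cancel₀ hno.1)⟩, rfl⟩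

namespace DiscPoint

variable {Pt : Place K F} {t : F}

/-- **the assembly**: a `DiscPoint` gives the `DiscData` of the disc `|t| ≤ |ϖ|`. -/
theorem discData (D : DiscPoint S P Pt t) (hFk : IsRRField k Fk) {ϖ : K} (hϖ0 : ϖ ≠ 0)
    (hϖA : ϖ ∈ S.A) (hϖ : S.res ⟨ϖ, hϖA⟩ = 0)
    (harch : ∀ c : K, c ≠ 0 → ∃ N : ℕ, S.A.valuation (ϖ ^ N) < S.A.valuation c)
    (Q₀ : Place K F) (hQ₀ : S.r Q₀ ≠ P) :
    DiscData S.A S.res S.Ov.toSubring (discRing S P) ϖ t (discEv S P hFk) where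
  circle := D.circleData hFk hϖ0 hϖA hϖ
  π_mem := hϖA
  res_eq_zero_iff := redSetup_res_eq_zero_iff S
  const_mem := fun _ ha => const_mem_discRing ha
  ev_const := fun _ ha _ => discEv_const hFk ha
  taylor := fun _ hg => D.exists_div hg
  sep := fun _ _ h => D.sep h
  arch := harch
  frac := discRing_frac S P Q₀ hQ₀

/-- **the disc valuation exists and is unique.** -/
theorem exists_discVal_unique (D : DiscPoint S P Pt t) (hFk : IsRRField k Fk) {ϖ : K}
    (hϖ0 : ϖ ≠ 0) (hϖA : ϖ ∈ S.A) (hϖ : S.res ⟨ϖ, hϖA⟩ = 0)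
    (harch : ∀ c : K, c ≠ 0 → ∃ N : ℕ, S.A.valuation (ϖ ^ N) < S.A.valuation c)
    (Q₀ : Place K F) (hQ₀ : S.r Q₀ ≠ P) :
    ∃! V : ValuationSubring F, IsDiscVal S.A (discRing S P) ϖ t (discEv S P hFk) V := by
  have DD := D.discData hFk hϖ0 hϖA hϖ harch Q₀ hQ₀
  obtain ⟨V, hV, -⟩ := DD.exists_isDiscVal
  exact ⟨V, hV, fun V' hV' => DD.isDiscVal_unique hV' hV⟩

/-- the disc valuation: contains `R_P`, `g ∈ R_P` is a non-unit iff `(red g)(P) = 0`, `G(t/ϖ)` is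
a non-unit iff `G` reduces to `0`; `e = 1`. -/
theorem discVal_props (D : DiscPoint S P Pt t) (hFk : IsRRField k Fk) {ϖ : K}
    (hϖ0 : ϖ ≠ 0) (hϖA : ϖ ∈ S.A) (hϖ : S.res ⟨ϖ, hϖA⟩ = 0)
    (harch : ∀ c : K, c ≠ 0 → ∃ N : ℕ, S.A.valuation (ϖ ^ N) < S.A.valuation c)
    (Q₀ : Place K F) (hQ₀ : S.r Q₀ ≠ P) {V : ValuationSubring F}
    (hV : IsDiscVal S.A (discRing S P) ϖ t (discEv S P hFk) V) :
    (∀ b ∈ discRing S P, b ∈ V) ∧
      (∀ b : discRing S P, (b : F) ∈ V.nonunits ↔ discEv S P hFk b = 0) ∧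
      (∀ G : Polynomial (discRing S P),
        (CircleData.evalHom (discRing S P) (algebraMap K F ϖ) t G ∈ V.nonunits ↔
          G.map (discEv S P hFk) = 0)) ∧
      (∀ f : F, f ≠ 0 → ∃ c : K, c ≠ 0 ∧ f * (algebraMap K F c)⁻¹ ∈ V ∧
        (f * (algebraMap K F c)⁻¹)⁻¹ ∈ V) := by
  have DD := D.discData hFk hϖ0 hϖA hϖ harch Q₀ hQ₀
  obtain ⟨V₀, hV₀, hB, hnu, hG⟩ := DD.exists_isDiscVal
  have hVV : V = V₀ := DD.isDiscVal_unique hV hV₀
  subst hVV
  exact ⟨hB, hnu, hG, fun f hf => DD.isDiscVal_scale hV hf⟩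

end DiscPoint

end Fermat.Agent.HPVal
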