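/-
Cluster G (S36), block W-P, seat DISC-ASM part 2 (helper51): the assembly `DiscPoint ⟹ DiscData`
WITHOUT side hypotheses, over constant fields algebraic over `ℚ`.

* `DiscPoint.exists_place_ne` : some place of `F` does not reduce to `P` (a pole of `red t`)
* `DiscPoint.discData'`       : `DiscData` from `DiscPoint + ϖ + arch`   (no `Q₀`)
* `DiscPoint.discDataQ`       : `DiscData` from `DiscPoint`, `q ∈ m_A` prime, `ϖ ≠ 0`, `ϖ ^ e = q`
                                 up to `≤`, `K` algebraic over `ℚ`        (no `Q₀`, no `arch`)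
* `DiscPoint.exists_discValQ_unique` : the disc valuation exists and is unique.
-/
import Mathlib
import Fermat.Agent.Lib.BadRed.HPVal.DiscAsm
import Fermat.Agent.Lib.BadRed.HPVal.Arch

set_option autoImplicit false

noncomputable section

namespace Fermat.Agent.HPVal

open AlgebraicCurve Fermat.Agent.S18Key Fermat.Agent.RR

variable {K F k Fk : Type*} [Field K] [Field F] [Algebra K F] [Field k] [Field Fk] [Algebra k Fk]

variable {S : RedSetup K F k Fk} {P : Place k Fk}

/-- a function with a zero has a pole. -/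
theorem exists_pole_of_zero (hFk : IsRRField k Fk) {g : Fk} {P : Place k Fk}
    (hpos : 0 < P.ord g) : ∃ Q : Place k Fk, Q.ord g < 0 := by
  classical
  by_contra hno
  have hnn : ∀ Q : Place k Fk, 0 ≤ Q.ord g := fun Q => not_lt.mp fun h => hno ⟨Q, h⟩
  have hdeg := degree_divOf hFk g
  rw [degree_eq_sum hFk] at hdeg
  have hPs : P ∈ (divOf hFk g).support := by
    rw [Finsupp.mem_support_iff, divOf_apply]
    exact hpos.ne'
  have h1 : (divOf hFk g) P ≤ ∑ Q ∈ (divOf hFk g).support, (divOf hFk g) Q :=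
    Finset.single_le_sum (f := fun Q => (divOf hFk g) Q)
      (fun Q _ => by rw [divOf_apply]; exact hnn Q) hPs
  rw [hdeg, divOf_apply] at h1
  omega

namespace DiscPoint

variable {Pt : Place K F} {t : F}

/-- some place of `F` does not reduce to `P`: a point over a pole of `red t`. -/
theorem exists_place_ne (D : DiscPoint S P Pt t) (hFk : IsRRField k Fk) :
    ∃ Q₀ : Place K F, S.r Q₀ ≠ P := by
  classical
  have hpos : 0 < P.ord (S.red t) := by
    rw [D.ord_t]
    exact one_pos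
  obtain ⟨Q, hQ⟩ := exists_pole_of_zero hFk hpos
  have hQP : Q ≠ P := by
    rintro rfl
    omega
  have hpush := push_eq D.isU_t Q
  rw [mapDomain_apply_eq_sum] at hpush
  have hex : ∃ x ∈ (divOf S.hF t).support, (if S.r x = Q then divOf S.hF t x else 0) < 0 := by
    by_contra hno
    have hno' : ∀ x ∈ (divOf S.hF t).support,
        0 ≤ (if S.r x = Q then divOf S.hF t x else 0) := fun x hx =>
      not_lt.mp fun hlt => hno ⟨x, hx, hlt⟩
    have := Finset.sum_nonneg hno'
    omega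
  obtain ⟨x, -, hx⟩ := hex
  by_cases hxQ : S.r x = Q
  · exact ⟨x, hxQ ▸ hQP⟩
  · rw [if_neg hxQ] at hx
    exact absurd hx (lt_irrefl _)

/-- `DiscData` without the auxiliary place. -/
theorem discData' (D : DiscPoint S P Pt t) (hFk : IsRRField k Fk) {ϖ : K} (hϖ0 : ϖ ≠ 0)
    (hϖA : ϖ ∈ S.A) (hϖ : S.res ⟨ϖ, hϖA⟩ = 0)
    (harch : ∀ c : K, c ≠ 0 → ∃ N : ℕ, S.A.valuation (ϖ ^ N) < S.A.valuation c) :
    DiscData S.A S.res S.Ov.toSubring (discRing S P) ϖ t (discEv S P hFk) := by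
  obtain ⟨Q₀, hQ₀⟩ := D.exists_place_ne hFk
  exact D.discData hFk hϖ0 hϖA hϖ harch Q₀ hQ₀

/-- the uniformiser condition in terms of the valuation. -/
theorem res_eq_zero_of_valuation_lt (S : RedSetup K F k Fk) {ϖ : K} (hϖA : ϖ ∈ S.A)
    (h : S.A.valuation ϖ < 1) : S.res ⟨ϖ, hϖA⟩ = 0 := by
  rw [redSetup_res_eq_zero_iff]
  intro hu
  have := (S.A.valuation_eq_one_iff ⟨ϖ, hϖA⟩).mp hu
  exact h.ne this

/-- **`DiscData` over constant fields algebraic over `ℚ`**: no side hypotheses. -/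
theorem discDataQ [CharZero K] [Algebra.IsAlgebraic ℚ K] (D : DiscPoint S P Pt t)
    (hFk : IsRRField k Fk) {q : ℕ} (hq : q.Prime) (hqA : (q : K) ∈ S.A.nonunits) {ϖ : K}
    {e : ℕ} (hϖ0 : ϖ ≠ 0) (hϖ1 : S.A.valuation ϖ < 1)
    (hϖe : S.A.valuation (ϖ ^ e) ≤ S.A.valuation (q : K)) :
    DiscData S.A S.res S.Ov.toSubring (discRing S P) ϖ t
      (discEv S P hFk) :=
  have hϖA : ϖ ∈ S.A := (S.A.valuation_le_one_iff ϖ).mp hϖ1.le
  D.discData' hFk hϖ0 hϖA (res_eq_zero_of_valuation_lt S hϖA hϖ1)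
    (hpArch S.A hq hqA hϖ1 hϖe)

/-- the disc valuation exists and is unique (constants algebraic over `ℚ`). -/
theorem exists_discValQ_unique [CharZero K] [Algebra.IsAlgebraic ℚ K] (D : DiscPoint S P Pt t)
    (hFk : IsRRField k Fk) {q : ℕ} (hq : q.Prime) (hqA : (q : K) ∈ S.A.nonunits) {ϖ : K}
    {e : ℕ} (hϖ0 : ϖ ≠ 0) (hϖ1 : S.A.valuation ϖ < 1)
    (hϖe : S.A.valuation (ϖ ^ e) ≤ S.A.valuation (q : K)) :
    ∃! V : ValuationSubring F, IsDiscVal S.A (discRing S P) ϖ t (discEv S P hFk) V := by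
  have DD := D.discDataQ hFk hq hqA hϖ0 hϖ1 hϖe
  obtain ⟨V, hV, -⟩ := DD.exists_isDiscVal
  exact ⟨V, hV, fun V' hV' => DD.isDiscVal_unique hV' hV⟩

end DiscPoint

end Fermat.Agent.HPVal
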