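/-
G = S36 wave, block W-P (helper28): **ultralimits of valuation subrings**.  Mathlib only.

For ANY family `V i` of valuation subrings of a field `F` and ANY ultrafilter `U` on the index
type, `ultraVal U V = { f | ∀ᶠ i in U, f ∈ V i }` is a valuation subring of `F`, with maximal
ideal `{ f | ∀ᶠ i in U, f ∈ m (V i) }`.

Use (W-P): `V i` = the composite of a place `Q i` of `F / K` with a valuation ring `A` of `K`,
`Q i` a sequence of points on a circle: the ultralimit is the (sup-norm) valuation of the circle.
-/
import Mathlib

set_option autoImplicit false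

noncomputable section

namespace Fermat.Agent.HPVal

variable {F : Type*} [Field F] {ι : Type*}

/-- the ultralimit of a family of valuation subrings. -/
def ultraVal (U : Ultrafilter ι) (V : ι → ValuationSubring F) : ValuationSubring F where
  carrier := {f | ∀ᶠ i in (U : Filter ι), f ∈ V i}
  mul_mem' := fun {a b} ha hb => (ha.and hb).mono fun i h => (V i).mul_mem _ _ h.1 h.2
  one_mem' := Filter.Eventually.of_forall fun i => (V i).one_mem
  add_mem' := fun {a b} ha hb => (ha.and hb).mono fun i h => (V i).add_mem _ _ h.1 h.2
  zero_mem' := Filter.Eventually.of_forall fun i => (V i).zero_mem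
  neg_mem' := fun {a} ha => ha.mono fun i h => (V i).neg_mem _ h
  mem_or_inv_mem' := fun f => by
    have h : ∀ᶠ i in (U : Filter ι), f ∈ V i ∨ f⁻¹ ∈ V i :=
      Filter.Eventually.of_forall fun i => (V i).mem_or_inv_mem f
    exact Ultrafilter.eventually_or.mp h

theorem mem_ultraVal_iff (U : Ultrafilter ι) (V : ι → ValuationSubring F) (f : F) :
    f ∈ ultraVal U V ↔ ∀ᶠ i in (U : Filter ι), f ∈ V i := Iff.rfl

/-- the maximal ideal of the ultralimit. -/
theorem mem_nonunits_ultraVal_iff (U : Ultrafilter ι) (V : ι → ValuationSubring F) (f : F) :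
    f ∈ (ultraVal U V).nonunits ↔ ∀ᶠ i in (U : Filter ι), f ∈ (V i).nonunits := by
  rw [ValuationSubring.mem_nonunits_iff_or]
  constructor
  · rintro (h0 | h)
    · subst h0
      refine Filter.Eventually.of_forall fun i => ?_
      rw [ValuationSubring.mem_nonunits_iff_or]
      exact Or.inl rfl
    · rw [mem_ultraVal_iff, ← Ultrafilter.eventually_not] at h
      refine h.mono fun i hi => ?_
      rw [ValuationSubring.mem_nonunits_iff_or]
      exact Or.inr hi
  · intro h
    by_cases h0 : f = 0
    · exact Or.inl h0
    · refine Or.inr ?_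
      rw [mem_ultraVal_iff, ← Ultrafilter.eventually_not]
      refine h.mono fun i hi => ?_
      rw [ValuationSubring.mem_nonunits_iff_or] at hi
      exact hi.resolve_left h0

/-- an element which is a unit of almost all `V i` is a unit of the ultralimit. -/
theorem inv_mem_ultraVal (U : Ultrafilter ι) (V : ι → ValuationSubring F) {f : F}
    (h : ∀ᶠ i in (U : Filter ι), f⁻¹ ∈ V i) : f⁻¹ ∈ ultraVal U V := h

end Fermat.Agent.HPVal
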