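/-
G = S36 wave, block W-P (helper28): **existence of the disc valuation centred at a point `P` of the
special fibre**.  Abstract: Mathlib + Deuring's reduction map (`Lib/Deuring`) + values at places
(`S17/Pts/Eval`).

`S : ValSetup K F k Fk` a constant reduction, `r : Place K F → Place k Fk` a reduction map of
places with PUSH (`IsPush S r`: `r_* (div f) = div (red f)` for units `f` of `S.Ov`), `P` a place
of `Fk`, `t ∈ S.Ov` with `red t` vanishing at `P`, `π ∈ m_A`, `π ≠ 0`, `k` infinite.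

* `ev_mem_of_push`, `congAt_red_of_push` : EVALUATION.  If `f ∈ S.Ov` has no pole in the residue
  disc of `P` and `r Q = P`, then `f(Q) ∈ A` and `red f` takes the value `res (f(Q))` at `P`.
* `compVal S Q` : the composite of the place `Q` with `A` (a valuation subring of `F`).
* `exists_discVal` : there is a valuation subring `O` of `F` with `O ∩ K = A`, in which
  `Y = t / π` is a unit with residue TRANSCENDENTAL over `k` (`p(Y)` is a unit of `O` for every
  `p ∈ A[X]` with non-zero reduction), CENTRED AT `P`: every `f ∈ S.Ov` without poles in the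
  residue disc of `P` is congruent modulo `m_O` to the constants lifting the value of `red f`
  at `P`.
  Construction: `O` = ultralimit (`UltraVal.lean`) of `compVal S (Q i)`, `Q i` a zero of
  `t - π y_i` with `r (Q i) = P`, `y_i ∈ Aˣ` with pairwise distinct residues.
-/
import Mathlib
import Fermat.Agent.Lib.Deuring.Main
import Fermat.Agent.S17.Pts.Eval
import Fermat.Agent.Lib.BadRed.HPVal.UltraVal

set_option autoImplicit false
set_option linter.unusedVariables false
set_option linter.unusedSectionVars false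

noncomputable section

namespace Fermat.Agent.HPVal

open AlgebraicCurve Fermat.Agent.RR Fermat.Agent.Deuring Fermat.Agent.S17.Pts

open scoped Classical

variable {K F k Fk : Type*} [Field K] [Field F] [Algebra K F]
  [Field k] [Field Fk] [Algebra k Fk]

/-- the PUSH property of a reduction map of places. -/
def IsPush (S : ValSetup K F k Fk) (r : Place K F → Place k Fk) : Prop :=
  ∀ f : F, f ∈ S.Ov → f⁻¹ ∈ S.Ov → f ≠ 0 → ∀ Q : Place k Fk,
    Finsupp.mapDomain r (divOf S.hF f) Q = Q.ord (S.red f)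

theorem mapDomain_apply_eq_sum (r : Place K F → Place k Fk) (D : Divisor K F)
    (P : Place k Fk) :
    Finsupp.mapDomain r D P = ∑ Q ∈ D.support with r Q = P, D Q := by
  classical
  rw [Finsupp.mapDomain, Finsupp.sum_apply, Finsupp.sum, Finset.sum_filter]
  refine Finset.sum_congr rfl fun Q _ => ?_
  rw [Finsupp.single_apply]

section Push

variable {S : ValSetup K F k Fk} {r : Place K F → Place k Fk}

theorem push_sum (hr : IsPush S r) {f : F} (hf : f ∈ S.Ov) (hinv : f⁻¹ ∈ S.Ov) (hf0 : f ≠ 0)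
    (P : Place k Fk) :
    ∑ Q ∈ (divOf S.hF f).support with r Q = P, Q.ord f = P.ord (S.red f) := by
  rw [← hr f hf hinv hf0 P, mapDomain_apply_eq_sum]
  refine Finset.sum_congr rfl fun Q _ => ?_
  rw [divOf_apply]

/-- a unit without poles and with a zero in the residue disc of `P` reduces to a function
vanishing at `P`. -/
theorem ord_red_pos_of_push (hr : IsPush S r) {f : F} (hf : f ∈ S.Ov) (hinv : f⁻¹ ∈ S.Ov)
    (hf0 : f ≠ 0) {P : Place k Fk} (hpole : ∀ Q, r Q = P → 0 ≤ Q.ord f)
    {Q₀ : Place K F} (hQ₀ : r Q₀ = P) (hpos : 0 < Q₀.ord f) : 0 < P.ord (S.red f) := by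
  classical
  rw [← push_sum hr hf hinv hf0 P]
  have hmem : Q₀ ∈ (divOf S.hF f).support.filter (fun Q => r Q = P) := by
    rw [Finset.mem_filter, Finsupp.mem_support_iff, divOf_apply]
    exact ⟨hpos.ne', hQ₀⟩
  refine lt_of_lt_of_le hpos ?_
  refine Finset.single_le_sum (f := fun Q => Q.ord f) (fun Q hQ => ?_) hmem
  rw [Finset.mem_filter] at hQ
  exact hpole Q hQ.2

/-- if the reduction of a unit vanishes at `P`, the unit has a zero in the residue disc of `P`. -/
theorem exists_zero_of_push (hr : IsPush S r) {f : F} (hf : f ∈ S.Ov) (hinv : f⁻¹ ∈ S.Ov)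
    (hf0 : f ≠ 0) {P : Place k Fk} (hpos : 0 < P.ord (S.red f)) :
    ∃ Q : Place K F, r Q = P ∧ 0 < Q.ord f := by
  classical
  by_contra hcon
  rw [not_exists] at hcon
  have hle : ∑ Q ∈ (divOf S.hF f).support with r Q = P, Q.ord f ≤ 0 := by
    refine Finset.sum_nonpos fun Q hQ => ?_
    rw [Finset.mem_filter] at hQ
    by_contra hlt
    rw [not_le] at hlt
    exact hcon Q ⟨hQ.2, hlt⟩
  rw [push_sum hr hf hinv hf0 P] at hle
  omega

/-- **EVALUATION, integrality**: the value at a point of the residue disc of `P` of an integral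
function without poles in that disc lies in `A`. -/
theorem ev_mem_of_push (hr : IsPush S r) {f : F} (hf : f ∈ S.Ov) {P : Place k Fk}
    (hpole : ∀ Q, r Q = P → 0 ≤ Q.ord f) {Q : Place K F} (hQ : r Q = P) :
    ev Q f ∈ S.A := by
  by_contra ha
  set a : K := ev Q f with hadef
  have ha0 : a ≠ 0 := fun h0 => ha (h0 ▸ S.A.zero_mem)
  obtain ⟨hainv, hres⟩ := S.res_inv_eq_zero ha
  set g : F := 1 - a⁻¹ • f with hg
  have hsm : a⁻¹ • f ∈ S.Ov := S.smul_mem hainv hf
  have hgO : g ∈ S.Ov := sub_mem S.Ov.one_mem hsm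
  have hred : S.red g = 1 := by
    rw [hg, S.red_sub S.Ov.one_mem hsm, S.red_one, S.red_smul hainv hf, hres, zero_smul,
      sub_zero]
  have hred0 : S.red g ≠ 0 := by rw [hred]; exact one_ne_zero
  have hg0 : g ≠ 0 := S.ne_zero_of_red_ne_zero hred0
  have hginv : g⁻¹ ∈ S.Ov := S.inv_mem_of_red_ne_zero hred0
  have hordg : ∀ Q', r Q' = P → 0 ≤ Q'.ord g := by
    intro Q' hQ'
    apply Fermat.Agent.S24Res.ord_nonneg_of_mem
    have h1 : f ∈ Q'.toValuationSubring :=
      Fermat.Agent.S24Res.mem_of_ord_nonneg Q' (hpole Q' hQ')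
    rw [hg, Algebra.smul_def]
    exact sub_mem (one_mem _) (mul_mem (Q'.algebraMap_mem' _) h1)
  have hfQ : 0 ≤ Q.ord f := hpole Q hQ
  have hsmQ : 0 ≤ Q.ord (a⁻¹ • f) := by
    apply Fermat.Agent.S24Res.ord_nonneg_of_mem
    rw [Algebra.smul_def]
    exact mul_mem (Q.algebraMap_mem' _) (Fermat.Agent.S24Res.mem_of_ord_nonneg Q hfQ)
  have hev : ev Q g = 0 := by
    rw [hg, ev_sub S.hF Q (by rw [Q.ord_one]) hsmQ, ev_one, ev_smul_const S.hF Q _ hfQ,
      ← hadef, inv_mul_cancel₀ ha0, sub_self]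
  have hpos : 0 < Q.ord g := (ev_eq_zero_iff S.hF Q hg0 (hordg Q hQ)).mp hev
  have := ord_red_pos_of_push hr hgO hginv hg0 hordg hQ hpos
  rw [hred, P.ord_one] at this
  exact lt_irrefl _ this

/-- **EVALUATION, value**: `red f` takes the value `res (f(Q))` at `P = r Q`. -/
theorem congAt_red_of_push (hr : IsPush S r) {f : F} (hf : f ∈ S.Ov) {P : Place k Fk}
    (hpole : ∀ Q, r Q = P → 0 ≤ Q.ord f) {Q : Place K F} (hQ : r Q = P)
    (ha : ev Q f ∈ S.A) :
    CongAt P (S.red f) (S.res ⟨ev Q f, ha⟩) := by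
  set a : K := ev Q f with hadef
  set h : F := f - algebraMap K F a with hh
  have haO : algebraMap K F a ∈ S.Ov := S.algebraMap_mem ha
  have hhO : h ∈ S.Ov := sub_mem hf haO
  have hredh : S.red h = S.red f - algebraMap k Fk (S.res ⟨a, ha⟩) := by
    rw [hh, S.red_sub hf haO, S.red_algebraMap ha]
  by_cases h0 : S.red h = 0
  · left
    rw [hredh, sub_eq_zero] at h0
    exact h0
  · right
    have hh0 : h ≠ 0 := S.ne_zero_of_red_ne_zero h0
    have hhinv : h⁻¹ ∈ S.Ov := S.inv_mem_of_red_ne_zero h0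
    have hordh : ∀ Q', r Q' = P → 0 ≤ Q'.ord h := by
      intro Q' hQ'
      apply Fermat.Agent.S24Res.ord_nonneg_of_mem
      have h1 : f ∈ Q'.toValuationSubring :=
        Fermat.Agent.S24Res.mem_of_ord_nonneg Q' (hpole Q' hQ')
      exact sub_mem h1 (Q'.algebraMap_mem' _)
    have hfQ : 0 ≤ Q.ord f := hpole Q hQ
    have hev : ev Q h = 0 := by
      rw [hh, ev_sub S.hF Q hfQ (by rw [Fermat.Agent.S24Res.ord_algebraMap]), ev_algebraMap,
        ← hadef, sub_self]
    have hpos : 0 < Q.ord h := (ev_eq_zero_iff S.hF Q hh0 (hordh Q hQ)).mp hev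
    have := ord_red_pos_of_push hr hhO hhinv hh0 hordh hQ hpos
    rw [hredh] at this
    exact this

end Push

/-! ### the composite of a place with `A` -/

section Comp

variable (S : ValSetup K F k Fk)

/-- the composite of the place `Q` of `F / K` with the valuation ring `A` of `K`:
`{ f | f regular at Q, f(Q) ∈ A }`. -/
def compVal (Q : Place K F) : ValuationSubring F where
  carrier := {f | 0 ≤ Q.ord f ∧ ev Q f ∈ S.A}
  mul_mem' := by
    rintro a b ⟨ha, ha'⟩ ⟨hb, hb'⟩
    refine ⟨?_, ?_⟩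
    · exact Fermat.Agent.S24Res.ord_nonneg_of_mem Q
        (mul_mem (Fermat.Agent.S24Res.mem_of_ord_nonneg Q ha)
          (Fermat.Agent.S24Res.mem_of_ord_nonneg Q hb))
    · rw [ev_mul S.hF Q ha hb]
      exact S.A.mul_mem _ _ ha' hb'
  one_mem' := ⟨by rw [Q.ord_one], by rw [ev_one]; exact S.A.one_mem⟩
  add_mem' := by
    rintro a b ⟨ha, ha'⟩ ⟨hb, hb'⟩
    refine ⟨?_, ?_⟩
    · exact Fermat.Agent.S24Res.ord_nonneg_of_mem Q
        (add_mem (Fermat.Agent.S24Res.mem_of_ord_nonneg Q ha)
          (Fermat.Agent.S24Res.mem_of_ord_nonneg Q hb))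
    · rw [ev_add S.hF Q ha hb]
      exact S.A.add_mem _ _ ha' hb'
  zero_mem' := ⟨by rw [Q.ord_zero], by rw [ev_zero]; exact S.A.zero_mem⟩
  neg_mem' := by
    rintro a ⟨ha, ha'⟩
    refine ⟨?_, ?_⟩
    · exact Fermat.Agent.S24Res.ord_nonneg_of_mem Q
        (neg_mem (Fermat.Agent.S24Res.mem_of_ord_nonneg Q ha))
    · rw [ev_neg S.hF Q ha]
      exact S.A.neg_mem _ ha'
  mem_or_inv_mem' := by
    intro f
    by_cases hf0 : f = 0
    · left
      subst hf0
      exact ⟨by rw [Q.ord_zero], by rw [ev_zero]; exact S.A.zero_mem⟩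
    rcases lt_trichotomy (Q.ord f) 0 with hlt | heq | hgt
    · right
      have hpos : 0 < Q.ord f⁻¹ := by rw [Q.ord_inv]; omega
      refine ⟨hpos.le, ?_⟩
      rw [(ev_eq_zero_iff S.hF Q (inv_ne_zero hf0) hpos.le).mpr hpos]
      exact S.A.zero_mem
    · rcases S.A.mem_or_inv_mem (ev Q f) with h | h
      · left
        exact ⟨heq.ge, h⟩
      · right
        refine ⟨by rw [Q.ord_inv, heq, neg_zero], ?_⟩
        rw [ev_inv S.hF Q heq]
        exact h
    · left
      refine ⟨hgt.le, ?_⟩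
      rw [(ev_eq_zero_iff S.hF Q hf0 hgt.le).mpr hgt]
      exact S.A.zero_mem

theorem mem_compVal_iff (Q : Place K F) (f : F) :
    f ∈ compVal S Q ↔ 0 ≤ Q.ord f ∧ ev Q f ∈ S.A := Iff.rfl

/-- the maximal ideal of the composite. -/
theorem mem_nonunits_compVal_of (Q : Place K F) {f : F} (hf : 0 ≤ Q.ord f)
    (hev : ev Q f ∈ S.A.nonunits) : f ∈ (compVal S Q).nonunits := by
  rw [ValuationSubring.mem_nonunits_iff_or]
  by_cases hf0 : f = 0
  · exact Or.inl hf0
  refine Or.inr ?_
  rintro ⟨hinv, hevinv⟩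
  rw [Q.ord_inv] at hinv
  have heq : Q.ord f = 0 := by omega
  rw [ev_inv S.hF Q heq] at hevinv
  rw [ValuationSubring.mem_nonunits_iff_or] at hev
  rcases hev with h | h
  · exact ev_ne_zero_of_ord_eq_zero S.hF Q hf0 heq h
  · exact h hevinv

/-- the residue of a non-unit constant vanishes. -/
theorem res_eq_zero_of_mem_nonunits {c : K} (hc : c ∈ S.A) (hnu : c ∈ S.A.nonunits) :
    S.res ⟨c, hc⟩ = 0 := by
  rw [ValuationSubring.mem_nonunits_iff_or] at hnu
  rcases hnu with h0 | hinv
  · subst h0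
    exact map_zero S.res
  · obtain ⟨h1, h2⟩ := S.res_inv_eq_zero hinv
    have e : (⟨c⁻¹⁻¹, h1⟩ : S.A) = ⟨c, hc⟩ := Subtype.ext (inv_inv c)
    rw [e] at h2
    exact h2

/-- a constant with vanishing residue is a non-unit. -/
theorem mem_nonunits_of_res_eq_zero {c : K} (hc : c ∈ S.A) (h0 : S.res ⟨c, hc⟩ = 0) :
    c ∈ S.A.nonunits := by
  rw [ValuationSubring.mem_nonunits_iff_or]
  by_cases hc0 : c = 0
  · exact Or.inl hc0
  refine Or.inr fun hinv => ?_
  have h1 : S.res (⟨c, hc⟩ * ⟨c⁻¹, hinv⟩) = 1 := by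
    have : (⟨c, hc⟩ * ⟨c⁻¹, hinv⟩ : S.A) = 1 := Subtype.ext (mul_inv_cancel₀ hc0)
    rw [this, map_one]
  rw [map_mul, h0, zero_mul] at h1
  exact zero_ne_one h1

end Comp

/-! ### existence of the disc valuation -/

section Exists

variable (S : ValSetup K F k Fk) {r : Place K F → Place k Fk}

/-- constants of `A` with pairwise distinct non-zero residues. -/
theorem exists_units_distinct [Infinite k] :
    ∃ y : ℕ → S.A, (Function.Injective fun i => S.res (y i)) ∧ ∀ i, S.res (y i) ≠ 0 := by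
  classical
  have hinf : (Set.univ \ {(0 : k)}).Infinite :=
    Set.Infinite.sdiff Set.infinite_univ (Set.finite_singleton 0)
  let e : ℕ ↪ ↥(Set.univ \ {(0 : k)}) := hinf.natEmbedding
  choose g hg using S.res_surj
  refine ⟨fun i => g (e i : k), ?_, ?_⟩
  · intro i j hij
    simp only [hg] at hij
    exact e.injective (Subtype.ext hij)
  · intro i
    rw [hg]
    exact fun h0 => (e i).2.2 h0

set_option maxHeartbeats 800000 in
/-- **EXISTENCE of the disc valuation centred at `P`.** -/
theorem exists_discVal [Infinite k] (hr : IsPush S r) (P : Place k Fk) {t : F}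
    (ht : t ∈ S.Ov) (htP : 0 < P.ord (S.red t)) {π : K} (hπ : π ∈ S.A.nonunits)
    (hπ0 : π ≠ 0) :
    ∃ O : ValuationSubring F,
      (∀ c : K, algebraMap K F c ∈ O ↔ c ∈ S.A) ∧
      (∀ p : Polynomial S.A, p.map S.res ≠ 0 →
        Polynomial.aeval (π⁻¹ • t) (p.map S.A.subtype) ∈ O ∧
          (Polynomial.aeval (π⁻¹ • t) (p.map S.A.subtype))⁻¹ ∈ O) ∧
      (∀ f ∈ S.Ov, (∀ Q, r Q = P → 0 ≤ Q.ord f) → ∀ (c : K) (hc : c ∈ S.A),
        CongAt P (S.red f) (S.res ⟨c, hc⟩) → f - algebraMap K F c ∈ O.nonunits) := by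
  classical
  have hπA : π ∈ S.A := S.A.nonunits_le hπ
  have hresπ : S.res ⟨π, hπA⟩ = 0 := res_eq_zero_of_mem_nonunits S hπA hπ
  have hredt0 : S.red t ≠ 0 := by
    intro h0
    rw [h0, P.ord_zero] at htP
    exact lt_irrefl _ htP
  obtain ⟨y, hyinj, hy0⟩ := exists_units_distinct S
  -- the points
  have hpt : ∀ i : ℕ, ∃ Q : Place K F, r Q = P ∧ 0 < Q.ord (t - algebraMap K F (π * (y i : K))) := by
    intro i
    have hcA : π * (y i : K) ∈ S.A := S.A.mul_mem _ _ hπA (y i).2
    have hres : S.res ⟨π * (y i : K), hcA⟩ = 0 := by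
      have : (⟨π * (y i : K), hcA⟩ : S.A) = ⟨π, hπA⟩ * y i := rfl
      rw [this, map_mul, hresπ, zero_mul]
    have hfO : t - algebraMap K F (π * (y i : K)) ∈ S.Ov := sub_mem ht (S.algebraMap_mem hcA)
    have hred : S.red (t - algebraMap K F (π * (y i : K))) = S.red t := by
      rw [S.red_sub ht (S.algebraMap_mem hcA), S.red_algebraMap hcA, hres, map_zero, sub_zero]
    have hred0 : S.red (t - algebraMap K F (π * (y i : K))) ≠ 0 := by rw [hred]; exact hredt0
    exact exists_zero_of_push hr hfO (S.inv_mem_of_red_ne_zero hred0)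
      (S.ne_zero_of_red_ne_zero hred0) (by rw [hred]; exact htP)
  choose Q hQP hQt using hpt
  have hcong : ∀ i, CongAt (Q i) t (π * (y i : K)) := fun i => Or.inr (hQt i)
  have hevt : ∀ i, ev (Q i) t = π * (y i : K) := fun i => ev_eq_of_congAt (hcong i)
  have hordt : ∀ i, 0 ≤ (Q i).ord t := fun i => (hcong i).ord_nonneg
  have hordY : ∀ i, 0 ≤ (Q i).ord (π⁻¹ • t) := by
    intro i
    apply Fermat.Agent.S24Res.ord_nonneg_of_mem
    rw [Algebra.smul_def]
    exact mul_mem ((Q i).algebraMap_mem' _) (Fermat.Agent.S24Res.mem_of_ord_nonneg _ (hordt i))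
  have hevY : ∀ i, ev (Q i) (π⁻¹ • t) = (y i : K) := by
    intro i
    rw [ev_smul_const S.hF (Q i) _ (hordt i), hevt, ← mul_assoc, inv_mul_cancel₀ hπ0, one_mul]
  -- the ultralimit
  let U : Ultrafilter ℕ := Filter.hyperfilter ℕ
  refine ⟨ultraVal U (fun i => compVal S (Q i)), ?_, ?_, ?_⟩
  · intro c
    rw [mem_ultraVal_iff]
    constructor
    · intro h
      obtain ⟨i, hi⟩ := h.exists
      rw [mem_compVal_iff, ev_algebraMap] at hi
      exact hi.2
    · intro hc
      refine Filter.Eventually.of_forall fun i => ?_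
      rw [mem_compVal_iff, ev_algebraMap, Fermat.Agent.S24Res.ord_algebraMap]
      exact ⟨le_refl _, hc⟩
  · intro p hp
    set g : F := Polynomial.aeval (π⁻¹ • t) (p.map S.A.subtype) with hg
    -- values
    have hevg : ∀ i, ev (Q i) g = ((p.eval (y i) : S.A) : K) := by
      intro i
      rw [hg, ev_aeval S.hF (Q i) (hordY i), hevY, Polynomial.eval_map]
      exact Polynomial.eval₂_at_apply S.A.subtype (y i)
    have hordg : ∀ i, 0 ≤ (Q i).ord g := by
      intro i
      apply Fermat.Agent.S24Res.ord_nonneg_of_mem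
      rw [hg]
      have hY : π⁻¹ • t ∈ (Q i).toValuationSubring :=
        Fermat.Agent.S24Res.mem_of_ord_nonneg _ (hordY i)
      rw [Polynomial.aeval_eq_sum_range]
      refine Subring.sum_mem _ fun n _ => ?_
      rw [Algebra.smul_def]
      exact mul_mem ((Q i).algebraMap_mem' _) (pow_mem hY n)
    have hresg : ∀ i, S.res (p.eval (y i)) = (p.map S.res).eval (S.res (y i)) := by
      intro i
      rw [Polynomial.eval_map]
      exact (Polynomial.eval₂_at_apply S.res (y i)).symm
    -- finitely many bad indices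
    have hfin : {i : ℕ | (p.map S.res).eval (S.res (y i)) = 0}.Finite := by
      have h1 : {i : ℕ | (p.map S.res).eval (S.res (y i)) = 0} ⊆
          (fun i => S.res (y i)) ⁻¹' ((p.map S.res).roots.toFinset : Set k) := by
        intro i hi
        rw [Set.mem_preimage, Finset.mem_coe, Multiset.mem_toFinset, Polynomial.mem_roots hp]
        exact hi
      exact Set.Finite.subset (Set.Finite.preimage (hyinj.injOn) (Finset.finite_toSet _)) h1
    have hmem : ∀ᶠ i in (U : Filter ℕ), (p.map S.res).eval (S.res (y i)) ≠ 0 :=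
      hfin.compl_mem_hyperfilter
    constructor
    · rw [mem_ultraVal_iff]
      refine Filter.Eventually.of_forall fun i => ?_
      rw [mem_compVal_iff, hevg]
      exact ⟨hordg i, (p.eval (y i)).2⟩
    · rw [mem_ultraVal_iff]
      refine hmem.mono fun i hi => ?_
      have hne : S.res (p.eval (y i)) ≠ 0 := by rw [hresg]; exact hi
      have hunit : ((p.eval (y i) : S.A) : K) ∉ S.A.nonunits := fun hnu =>
        hne (res_eq_zero_of_mem_nonunits S (p.eval (y i)).2 hnu)
      rw [ValuationSubring.mem_nonunits_iff_or, not_or, not_not] at hunit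
      have hev0 : ev (Q i) g ≠ 0 := by rw [hevg]; exact hunit.1
      have hord0 : (Q i).ord g = 0 := by
        by_contra hne0
        have hpos : 0 < (Q i).ord g := lt_of_le_of_ne (hordg i) (Ne.symm hne0)
        have hg0 : g ≠ 0 := by
          rintro h0
          rw [h0, (Q i).ord_zero] at hpos
          exact lt_irrefl _ hpos
        exact hev0 ((ev_eq_zero_iff S.hF (Q i) hg0 (hordg i)).mpr hpos)
      rw [mem_compVal_iff, (Q i).ord_inv, hord0, neg_zero, ev_inv S.hF (Q i) hord0, hevg]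
      exact ⟨le_refl _, hunit.2⟩
  · intro f hf hpole c hc hcong'
    rw [mem_nonunits_ultraVal_iff]
    refine Filter.Eventually.of_forall fun i => ?_
    have ha : ev (Q i) f ∈ S.A := ev_mem_of_push hr hf hpole (hQP i)
    have h1 := congAt_red_of_push hr hf hpole (hQP i) ha
    have h2 : S.res ⟨ev (Q i) f, ha⟩ = S.res ⟨c, hc⟩ := h1.unique hcong'
    have hfQ : 0 ≤ (Q i).ord f := hpole (Q i) (hQP i)
    have hord : 0 ≤ (Q i).ord (f - algebraMap K F c) := by
      apply Fermat.Agent.S24Res.ord_nonneg_of_mem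
      exact sub_mem (Fermat.Agent.S24Res.mem_of_ord_nonneg _ hfQ) ((Q i).algebraMap_mem' _)
    refine mem_nonunits_compVal_of S (Q i) hord ?_
    rw [ev_sub S.hF (Q i) hfQ (by rw [Fermat.Agent.S24Res.ord_algebraMap]), ev_algebraMap]
    have hsub : ev (Q i) f - c ∈ S.A := sub_mem ha hc
    refine mem_nonunits_of_res_eq_zero S hsub ?_
    have e : (⟨ev (Q i) f - c, hsub⟩ : S.A) = ⟨ev (Q i) f, ha⟩ - ⟨c, hc⟩ := rfl
    rw [e, map_sub, h2, sub_self]

end Exists

end Fermat.Agent.HPVal
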