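/-
Cluster G (S36), block W-P, seat DISC-ASM part 3 (helper51): the assembly
`DiscPoint ⟹ DiscLatData` (helper29, `DiscLat.lean`) for the disc valuation `V` with its residue
map `ρ : V → k(X)` (helper47, `DiscRes.lean`).

`S : S18Key.RedSetup K F k Fk`, `D : DiscPoint S P Pt t`, `ϖ ∈ m_A`, `ϖ ≠ 0`, `res` onto, `arch`.

* `DiscPoint.discLatData_of` : for ANY `(V, ρ)` with the properties of `exists_disc_residueMap`
                               the `DiscLatData S.A V S.res ρ (discRing S P) t ϖ (valueAt Pt)`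
* `DiscPoint.exists_discLatData` : such a `(V, ρ)` exists (with all the residue formulas).
-/
import Mathlib
import Fermat.Agent.Lib.BadRed.HPVal.DiscAsmQ
import Fermat.Agent.Lib.BadRed.HPVal.DiscRes
import Fermat.Agent.Lib.BadRed.HPVal.DiscLat

set_option autoImplicit false

noncomputable section

namespace Fermat.Agent.HPVal

open AlgebraicCurve Fermat.Agent.S18Key Fermat.Agent.RR Polynomial

variable {K F k Fk : Type*} [Field K] [Field F] [Algebra K F] [Field k] [Field Fk] [Algebra k Fk]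

variable {S : RedSetup K F k Fk} {P : Place k Fk}

namespace DiscPoint

variable {Pt : Place K F} {t : F}

/-- the `DiscLatData` of a disc valuation `V` with residue map `ρ : V → k(X)`, `ρ (t / ϖ) = X`. -/
theorem discLatData_of (D : DiscPoint S P Pt t) (hFk : IsRRField k Fk) {ϖ : K} (hϖ0 : ϖ ≠ 0)
    (hϖA : ϖ ∈ S.A) (hϖ : S.res ⟨ϖ, hϖA⟩ = 0)
    (harch : ∀ c : K, c ≠ 0 → ∃ N : ℕ, S.A.valuation (ϖ ^ N) < S.A.valuation c)
    {V : ValuationSubring F} {ρ : V →+* RatFunc k}
    (hV : IsDiscVal S.A (discRing S P) ϖ t (discEv S P hFk) V)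
    (hker : ∀ f : V, ρ f = 0 ↔ ¬ IsUnit f)
    (hconst : ∀ (c : K) (hc : c ∈ S.A) (hc' : algebraMap K F c ∈ V),
      ρ ⟨algebraMap K F c, hc'⟩ = algebraMap k (RatFunc k) (S.res ⟨c, hc⟩))
    (hY : ∀ h : t * (algebraMap K F ϖ)⁻¹ ∈ V, ρ ⟨t * (algebraMap K F ϖ)⁻¹, h⟩ = RatFunc.X) :
    DiscLatData S.A V S.res ρ (discRing S P) t ϖ (Fermat.Agent.FF.valueAt S.hF Pt) := by
  have DD := D.discData' hFk hϖ0 hϖA hϖ harch
  have hYmem : t * (algebraMap K F ϖ)⁻¹ ∈ V := by
    have h1 := DD.isDiscVal_evalHom_mem hV (X : (discRing S P)[X])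
    rwa [CircleData.evalHom_X] at h1
  exact
    { mem_O_iff := hV.mem_iff
      ρ_algebraMap := hconst
      ρ_eq_zero_iff := hker
      R_le := DD.isDiscVal_le hV
      A_le := fun _ ha => const_mem_discRing ha
      t_mem := D.t_mem
      t_ne := D.t_ne
      π_ne := hϖ0
      π_mem := hϖA
      Y_mem := hYmem
      ev_mem := fun _ hg => D.value_mem hg
      ev_add := fun _ hg _ hh => D.value_add hg hh
      ev_smul := fun a _ _ hg => D.value_smul a hg
      div := fun _ hg => D.sub_value_div_mem hg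
      sep := fun _ _ h => D.sep h
      tr := fun p hp => by
        rw [hY hYmem] at hp
        have h1 : Polynomial.aeval (RatFunc.X : RatFunc k) p = algebraMap k[X] (RatFunc k) p := by
          rw [← RatFunc.algebraMap_X, Polynomial.aeval_algebraMap_apply, Polynomial.aeval_X_left,
            AlgHom.id_apply]
        rw [h1] at hp
        exact (map_eq_zero_iff _ (IsFractionRing.injective k[X] (RatFunc k))).mp hp
      arch := harch
      frac := DD.frac }

/-- **the disc valuation with residue map and lattice data exists.** -/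
theorem exists_discLatData (D : DiscPoint S P Pt t) (hFk : IsRRField k Fk) {ϖ : K}
    (hϖ0 : ϖ ≠ 0) (hϖA : ϖ ∈ S.A) (hϖ : S.res ⟨ϖ, hϖA⟩ = 0)
    (harch : ∀ c : K, c ≠ 0 → ∃ N : ℕ, S.A.valuation (ϖ ^ N) < S.A.valuation c)
    (hres : Function.Surjective S.res) :
    ∃ (V : ValuationSubring F) (ρ : V →+* RatFunc k),
      IsDiscVal S.A (discRing S P) ϖ t (discEv S P hFk) V ∧
      DiscLatData S.A V S.res ρ (discRing S P) t ϖ (Fermat.Agent.FF.valueAt S.hF Pt) ∧
      Function.Surjective ρ ∧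
      (∀ (b : discRing S P) (hb : (b : F) ∈ V),
        ρ ⟨(b : F), hb⟩ = algebraMap k (RatFunc k) (discEv S P hFk b)) ∧
      (∀ h : t * (algebraMap K F ϖ)⁻¹ ∈ V, ρ ⟨t * (algebraMap K F ϖ)⁻¹, h⟩ = RatFunc.X) ∧
      (∀ (G : (discRing S P)[X])
        (h : CircleData.evalHom (discRing S P) (algebraMap K F ϖ) t G ∈ V),
        ρ ⟨CircleData.evalHom (discRing S P) (algebraMap K F ϖ) t G, h⟩ =
          algebraMap k[X] (RatFunc k) (G.map (discEv S P hFk))) ∧
      (∀ f : F, f ≠ 0 → ∃ c : K, c ≠ 0 ∧ f * (algebraMap K F c)⁻¹ ∈ V ∧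
        (f * (algebraMap K F c)⁻¹)⁻¹ ∈ V) := by
  have DD := D.discData' hFk hϖ0 hϖA hϖ harch
  obtain ⟨V, ρ, hV, hsurj, hker, hconst, hb, hY, hG⟩ := DD.exists_disc_residueMap hres
  exact ⟨V, ρ, hV, D.discLatData_of hFk hϖ0 hϖA hϖ harch hV hker hconst hY, hsurj, hb, hY, hG,
    fun f hf => DD.isDiscVal_scale hV hf⟩

end DiscPoint

end Fermat.Agent.HPVal
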