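/-
G wave (S36), W-P seat DISC-LAT (helper29), wrapper: the lattice property `Deuring.HasLattice` of a
constant reduction `S` whose valuation ring is a disc valuation (`DiscLatData`).
-/
import Mathlib
import Fermat.Agent.Lib.Deuring.Setup
import Fermat.Agent.Lib.BadRed.HPVal.DiscLatMain

set_option autoImplicit false
set_option linter.unusedSectionVars false

noncomputable section

namespace Fermat.Agent.HPVal

open Fermat.Agent.Deuring

variable {K F k Fk : Type*} [Field K] [Field F] [Algebra K F] [Field k] [Field Fk] [Algebra k Fk]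

/-- `Deuring.ValSetup.red` is `dlRed`. -/
theorem valSetup_red_eq_dlRed (S : ValSetup K F k Fk) (f : F) : S.red f = dlRed S.Ov S.ρ f := by
  unfold ValSetup.red dlRed
  rfl

/-- **DISC-LAT**: a constant reduction whose valuation ring is a disc valuation has the lattice
property. -/
theorem hasLattice_of_discLat (S : ValSetup K F k Fk) {R : Subring F} {t : F} {π : K}
    {ev : F → K} (D : DiscLatData S.A S.Ov S.res S.ρ R t π ev) : HasLattice S := by
  intro W hW
  have : FiniteDimensional K W := hW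
  obtain ⟨n, w, hwW, hwO, hspan, hind⟩ := D.lattice W
  refine ⟨n, w, hwW, hwO, hspan, ?_⟩
  have hfun : (fun i => S.red (w i)) = fun i => dlRed S.Ov S.ρ (w i) := by
    funext i
    exact valSetup_red_eq_dlRed S (w i)
  rw [hfun]
  exact hind

/-- the fields of `DiscLatData` which come from the constant reduction itself. -/
theorem discLatData_of_valSetup (S : ValSetup K F k Fk) {R : Subring F} {t : F} {π : K}
    {ev : F → K}
    (R_le : ∀ g ∈ R, g ∈ S.Ov) (A_le : ∀ a ∈ S.A, algebraMap K F a ∈ R)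
    (t_mem : t ∈ R) (t_ne : t ≠ 0) (π_ne : π ≠ 0) (π_mem : π ∈ S.A)
    (Y_mem : t * (algebraMap K F π)⁻¹ ∈ S.Ov)
    (ev_mem : ∀ g ∈ R, ev g ∈ S.A)
    (ev_add : ∀ g ∈ R, ∀ h ∈ R, ev (g + h) = ev g + ev h)
    (ev_smul : ∀ a ∈ S.A, ∀ g ∈ R, ev (algebraMap K F a * g) = a * ev g)
    (div : ∀ g ∈ R, (g - algebraMap K F (ev g)) * t⁻¹ ∈ R)
    (sep : ∀ g ∈ R, (∀ N : ℕ, g * (t ^ N)⁻¹ ∈ R) → g = 0)
    (tr : ∀ p : Polynomial k,
      Polynomial.aeval (S.ρ ⟨t * (algebraMap K F π)⁻¹, Y_mem⟩) p = 0 → p = 0)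
    (arch : ∀ c : K, c ≠ 0 → ∃ N : ℕ, S.A.valuation (π ^ N) < S.A.valuation c)
    (frac : ∀ f : F, ∃ g ∈ R, g ≠ 0 ∧ f * g ∈ R) :
    DiscLatData S.A S.Ov S.res S.ρ R t π ev where
  mem_O_iff := S.mem_Ov_iff
  ρ_algebraMap := S.ρ_algebraMap
  ρ_eq_zero_iff := S.ρ_eq_zero_iff
  R_le := R_le
  A_le := A_le
  t_mem := t_mem
  t_ne := t_ne
  π_ne := π_ne
  π_mem := π_mem
  Y_mem := Y_mem
  ev_mem := ev_mem
  ev_add := ev_add
  ev_smul := ev_smul
  div := div
  sep := sep
  tr := tr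
  arch := arch
  frac := frac

end Fermat.Agent.HPVal
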