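/-
G wave (S36), W-P, seat DISC-SETUP (helper75; spec by helper59): the disc valuation as a
constant reduction `ValSetup K F k (RatFunc k)`.

From `DiscData A res O B π t ev` (DISC-NORM) and `exists_disc_residueMap` (DISC-RES):

* `isRRField_ratFunc`   : `IsRRField k (RatFunc k)` for `k` algebraically closed;
* `DiscData.setup`      : the constant reduction `S₁` of the disc valuation, with
  `S₁.A = A`, `S₁.res = res` (by `rfl`), `S₁.Ov` the disc valuation ring (`IsDiscVal`);
* `DiscData.setup_red_B`, `setup_red_W`, `setup_red_evalHom`, `setup_red_const` :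
  `red b = ev b` on `B`, `red (t / ϖ) = X`, `red (G(t/ϖ)) = Ḡ`, `red a = res a` on `A`;
* `DiscData.exists_setup` : the existence statement in one line.
-/
import Mathlib
import Fermat.Agent.Lib.BadRed.HPVal.DiscRes
import Fermat.Agent.Lib.Deuring.Basic
import Fermat.Agent.Lib.RR.OfSep

set_option autoImplicit false
set_option linter.style.haveILetI false
set_option linter.unusedSectionVars false
set_option linter.unusedVariables false

noncomputable section

open Polynomial IntermediateField

namespace Fermat.Agent.HPVal

open Fermat.Agent.BadRed Fermat.Agent.Deuring Fermat.Agent.RR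

/-- the rational function field over an algebraically closed field satisfies the standing
hypotheses of the Riemann-Roch library. -/
theorem isRRField_ratFunc (k : Type*) [Field k] [IsAlgClosed k] : IsRRField k (RatFunc k) := by
  have hx : Transcendental k (RatFunc.X : RatFunc k) := RatFunc.transcendental_X
  have htop : k⟮(RatFunc.X : RatFunc k)⟯ = ⊤ := RatFunc.adjoin_X
  haveI : FiniteDimensional k⟮(RatFunc.X : RatFunc k)⟯ (RatFunc k) := by
    apply Module.finite_of_finrank_pos
    rw [htop, IntermediateField.finrank_top]
    exact Nat.one_pos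
  haveI : Algebra.IsSeparable k⟮(RatFunc.X : RatFunc k)⟯ (RatFunc k) := by
    refine ⟨fun y => ?_⟩
    have hy : y ∈ k⟮(RatFunc.X : RatFunc k)⟯ := by
      rw [htop]
      exact IntermediateField.mem_top
    have e : y = algebraMap k⟮(RatFunc.X : RatFunc k)⟯ (RatFunc k) ⟨y, hy⟩ := rfl
    rw [e]
    exact isSeparable_algebraMap _
  exact isRRField_of_separable hx

variable {K F k : Type*} [Field K] [Field F] [Algebra K F] [Field k]

namespace DiscData

variable {A : ValuationSubring K} {res : A →+* k} {O B : Subring F} {π : K} {t : F}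
  {ev : B →+* k}

/-- the disc valuation ring. -/
def discRingV (D : DiscData A res O B π t ev) (hres : Function.Surjective res) :
    ValuationSubring F :=
  (D.exists_disc_residueMap hres).choose

/-- the residue map of the disc valuation, with values in `k(X)`. -/
def discRho (D : DiscData A res O B π t ev) (hres : Function.Surjective res) :
    D.discRingV hres →+* RatFunc k :=
  (D.exists_disc_residueMap hres).choose_spec.choose

theorem discRho_spec (D : DiscData A res O B π t ev) (hres : Function.Surjective res) :
    IsDiscVal A B π t ev (D.discRingV hres) ∧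
      Function.Surjective (D.discRho hres) ∧
      (∀ f : D.discRingV hres, D.discRho hres f = 0 ↔ ¬ IsUnit f) ∧
      (∀ (c : K) (hc : c ∈ A) (hc' : algebraMap K F c ∈ D.discRingV hres),
        D.discRho hres ⟨algebraMap K F c, hc'⟩ = algebraMap k (RatFunc k) (res ⟨c, hc⟩)) ∧
      (∀ (b : B) (hb : (b : F) ∈ D.discRingV hres),
        D.discRho hres ⟨(b : F), hb⟩ = algebraMap k (RatFunc k) (ev b)) ∧
      (∀ h : t * (algebraMap K F π)⁻¹ ∈ D.discRingV hres,
        D.discRho hres ⟨t * (algebraMap K F π)⁻¹, h⟩ = RatFunc.X) ∧
      ∀ (G : (↥B)[X]) (h : CircleData.evalHom B (algebraMap K F π) t G ∈ D.discRingV hres),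
        D.discRho hres ⟨CircleData.evalHom B (algebraMap K F π) t G, h⟩ =
          algebraMap k[X] (RatFunc k) (G.map ev) :=
  (D.exists_disc_residueMap hres).choose_spec.choose_spec

/-- **the constant reduction of the disc valuation.** -/
def setup (D : DiscData A res O B π t ev) (hres : Function.Surjective res)
    (hF : IsRRField K F) (hFk : IsRRField k (RatFunc k)) : ValSetup K F k (RatFunc k) where
  A := A
  Ov := D.discRingV hres
  res := res
  ρ := D.discRho hres
  hF := hF
  hFk := hFk
  res_surj := hres
  ρ_surj := (D.discRho_spec hres).2.1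
  mem_Ov_iff := (D.discRho_spec hres).1.mem_iff
  ρ_algebraMap := fun c hc hc' => (D.discRho_spec hres).2.2.2.1 c hc hc'
  ρ_eq_zero_iff := (D.discRho_spec hres).2.2.1
  scale := fun f hf => D.isDiscVal_scale (D.discRho_spec hres).1 hf

variable (D : DiscData A res O B π t ev) (hres : Function.Surjective res)
  (hF : IsRRField K F) (hFk : IsRRField k (RatFunc k))

@[simp] theorem setup_A : (D.setup hres hF hFk).A = A := rfl

@[simp] theorem setup_res : (D.setup hres hF hFk).res = res := rfl

theorem setup_Ov : (D.setup hres hF hFk).Ov = D.discRingV hres := rfl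

/-- the valuation ring of the setup is THE disc valuation. -/
theorem setup_isDiscVal : IsDiscVal A B π t ev (D.setup hres hF hFk).Ov :=
  (D.discRho_spec hres).1

/-- `B` is contained in the valuation ring. -/
theorem setup_mem_of_mem_B {b : F} (hb : b ∈ B) : b ∈ (D.setup hres hF hFk).Ov :=
  D.isDiscVal_le (D.setup_isDiscVal hres hF hFk) b hb

/-- `G(t/ϖ)` is in the valuation ring. -/
theorem setup_evalHom_mem (G : (↥B)[X]) :
    CircleData.evalHom B (algebraMap K F π) t G ∈ (D.setup hres hF hFk).Ov :=
  D.isDiscVal_evalHom_mem (D.setup_isDiscVal hres hF hFk) G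

/-- `t / ϖ` is in the valuation ring. -/
theorem setup_W_mem : t * (algebraMap K F π)⁻¹ ∈ (D.setup hres hF hFk).Ov := by
  have h := D.setup_evalHom_mem hres hF hFk (X : (↥B)[X])
  rwa [CircleData.evalHom_X] at h

/-- the reduction on `B` is the evaluation `ev`. -/
theorem setup_red_B (b : B) :
    (D.setup hres hF hFk).red (b : F) = algebraMap k (RatFunc k) (ev b) := by
  have hb : (b : F) ∈ (D.setup hres hF hFk).Ov := D.setup_mem_of_mem_B hres hF hFk b.2
  rw [(D.setup hres hF hFk).red_of_mem hb]
  exact (D.discRho_spec hres).2.2.2.2.1 b hb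

/-- the reduction of `t / ϖ` is the variable `X`. -/
theorem setup_red_W :
    (D.setup hres hF hFk).red (t * (algebraMap K F π)⁻¹) = RatFunc.X := by
  have h := D.setup_W_mem hres hF hFk
  rw [(D.setup hres hF hFk).red_of_mem h]
  exact (D.discRho_spec hres).2.2.2.2.2.1 h

/-- the reduction of `G(t/ϖ)` is the reduced polynomial. -/
theorem setup_red_evalHom (G : (↥B)[X]) :
    (D.setup hres hF hFk).red (CircleData.evalHom B (algebraMap K F π) t G) =
      algebraMap k[X] (RatFunc k) (G.map ev) := by
  have h := D.setup_evalHom_mem hres hF hFk G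
  rw [(D.setup hres hF hFk).red_of_mem h]
  exact (D.discRho_spec hres).2.2.2.2.2.2 G h

/-- the reduction of a constant. -/
theorem setup_red_const {c : K} (hc : c ∈ A) :
    (D.setup hres hF hFk).red (algebraMap K F c) = algebraMap k (RatFunc k) (res ⟨c, hc⟩) :=
  (D.setup hres hF hFk).red_algebraMap hc

/-- an element of `B` is in the maximal ideal iff its evaluation vanishes. -/
theorem setup_red_B_eq_zero_iff (b : B) :
    (D.setup hres hF hFk).red (b : F) = 0 ↔ ev b = 0 := by
  rw [D.setup_red_B hres hF hFk b]
  exact map_eq_zero_iff _ (algebraMap k (RatFunc k)).injective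

/-- uniqueness: every disc valuation is the valuation ring of the setup. -/
theorem setup_Ov_unique {V : ValuationSubring F} (hV : IsDiscVal A B π t ev V) :
    V = (D.setup hres hF hFk).Ov :=
  D.isDiscVal_unique hV (D.setup_isDiscVal hres hF hFk)

include D hres hF hFk in
/-- **DISC-SETUP**, existence form. -/
theorem exists_setup :
    ∃ S₁ : ValSetup K F k (RatFunc k), S₁.A = A ∧ IsDiscVal A B π t ev S₁.Ov ∧
      (∀ b : B, S₁.red (b : F) = algebraMap k (RatFunc k) (ev b)) ∧
      S₁.red (t * (algebraMap K F π)⁻¹) = RatFunc.X ∧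
      (∀ G : (↥B)[X], S₁.red (CircleData.evalHom B (algebraMap K F π) t G) =
        algebraMap k[X] (RatFunc k) (G.map ev)) ∧
      ∀ (c : K) (hc : c ∈ A), S₁.red (algebraMap K F c) = algebraMap k (RatFunc k) (res ⟨c, hc⟩) :=
  ⟨D.setup hres hF hFk, rfl, D.setup_isDiscVal hres hF hFk, D.setup_red_B hres hF hFk,
    D.setup_red_W hres hF hFk, D.setup_red_evalHom hres hF hFk,
    fun c hc => D.setup_red_const hres hF hFk hc⟩

end DiscData

end Fermat.Agent.HPVal
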