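/-
G wave (S36), W-P, support for seat WP-LAT (helper32): the LATTICE property in a TOWER, DEGREE
form (complement of helper75's `LatTower.lean`, which has the spanning form `hasLattice_of_tower`
with `hgen` as a hypothesis).

`B ⊂ F` function fields over `K`, `S_B : ValSetup K B k FkB` and `S : ValSetup K F k Fk` constant
reductions with `S.Ov ∩ B ⊇ S_B.Ov` and `S.red ∘ algebraMap = algebraMap ∘ S_B.red`
(`Fk` an extension of `FkB`).

* `latTowerDeg_exists_scale` : max-norm scaling of a finite family of `B`;
* `latTowerDeg_linearIndependent` : elements of `S.Ov` whose reductions are `FkB`-linearly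
  independent are `B`-linearly independent;
* `latTowerDeg_span_eq_top` : `n` such elements with `[F : B] ≤ n` span `F` over `B`;
* `latTowerDeg_of_span` : the lattice property from a spanning residually independent family;
* `latTowerDeg_of_finrank` : the lattice property if `[F : B] ≤ [Fk : FkB] < ∞` (equality in the
  fundamental inequality);
* `latTowerDeg_gen` : the hypothesis `hgen` of `hasLattice_of_tower` (ring-hom form) from the
  degree bound.
-/
import Mathlib
import Fermat.Agent.Lib.Deuring.Basic
import Fermat.Agent.S27.GR.LatticeAbs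

set_option autoImplicit false
set_option linter.style.haveILetI false
set_option linter.unusedSectionVars false

noncomputable section

namespace Fermat.Agent.HPVal

open Fermat.Agent.Deuring

variable {K B F k FkB Fk : Type*} [Field K] [Field B] [Field F] [Algebra K B] [Algebra K F]
  [Algebra B F] [IsScalarTower K B F]
  [Field k] [Field FkB] [Field Fk] [Algebra k FkB] [Algebra k Fk] [Algebra FkB Fk]
  [IsScalarTower k FkB Fk]

/-- compatibility of two constant reductions in a tower `B ⊂ F`. -/
structure LatTowerCompat (SB : ValSetup K B k FkB) (S : ValSetup K F k Fk) : Prop where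
  mem : ∀ b : B, b ∈ SB.Ov → algebraMap B F b ∈ S.Ov
  red : ∀ b : B, b ∈ SB.Ov → S.red (algebraMap B F b) = algebraMap FkB Fk (SB.red b)

variable {SB : ValSetup K B k FkB} {S : ValSetup K F k Fk}

/-- the reduction of a finite sum of integral elements. -/
theorem latTowerDeg_red_sum {ι : Type*} (s : Finset ι) (f : ι → F) (hf : ∀ i ∈ s, f i ∈ S.Ov) :
    (∑ i ∈ s, f i) ∈ S.Ov ∧ S.red (∑ i ∈ s, f i) = ∑ i ∈ s, S.red (f i) := by
  classical
  induction s using Finset.induction_on with
  | empty =>
    rw [Finset.sum_empty, Finset.sum_empty]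
    exact ⟨S.Ov.zero_mem, S.red_zero⟩
  | insert a s ha ih =>
    have h1 := ih (fun i hi => hf i (Finset.mem_insert_of_mem hi))
    have ha' := hf a (Finset.mem_insert_self a s)
    rw [Finset.sum_insert ha, Finset.sum_insert ha]
    exact ⟨S.Ov.add_mem _ _ ha' h1.1, by rw [S.red_add ha' h1.1, h1.2]⟩

/-- **max-norm scaling** of a finite family of `B`, not all zero. -/
theorem latTowerDeg_exists_scale {n : ℕ} (b : Fin n → B) (hb : ∃ i, b i ≠ 0) :
    ∃ c : K, c ≠ 0 ∧ (∀ i, b i * (algebraMap K B c)⁻¹ ∈ SB.Ov) ∧
      ∃ i, SB.red (b i * (algebraMap K B c)⁻¹) ≠ 0 := by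
  classical
  have hsc : ∀ i, ∃ c : K, c ≠ 0 ∧ (b i ≠ 0 → b i * (algebraMap K B c)⁻¹ ∈ SB.Ov ∧
      (b i * (algebraMap K B c)⁻¹)⁻¹ ∈ SB.Ov) := by
    intro i
    by_cases h0 : b i = 0
    · exact ⟨1, one_ne_zero, fun h => absurd h0 h⟩
    · obtain ⟨c, hc, h1, h2⟩ := SB.scale (b i) h0
      exact ⟨c, hc, fun _ => ⟨h1, h2⟩⟩
  choose c hc hcu using hsc
  set T : Finset (Fin n) := Finset.univ.filter fun i => b i ≠ 0 with hT
  have hTne : T.Nonempty := by
    obtain ⟨i, hi⟩ := hb
    exact ⟨i, by simp [hT, hi]⟩
  obtain ⟨i₀, hi₀T, hmax⟩ := Finset.exists_max_image T (fun i => SB.A.valuation (c i)) hTne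
  have hi₀ : b i₀ ≠ 0 := by
    have := hi₀T
    simp only [hT, Finset.mem_filter, Finset.mem_univ, true_and] at this
    exact this
  have hcF : ∀ i, algebraMap K B (c i) ≠ 0 := fun i => by
    rw [Ne, map_eq_zero_iff _ (algebraMap K B).injective]
    exact hc i
  refine ⟨c i₀, hc i₀, fun i => ?_, i₀, ?_⟩
  · by_cases h0 : b i = 0
    · rw [h0, zero_mul]
      exact SB.Ov.zero_mem
    · have hiT : i ∈ T := by simp [hT, h0]
      have hle := hmax i hiT
      have hA : c i / c i₀ ∈ SB.A := by
        rw [← ValuationSubring.valuation_le_one_iff, map_div₀]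
        have hpos : 0 < SB.A.valuation (c i₀) :=
          zero_lt_iff.mpr ((Valuation.ne_zero_iff _).mpr (hc i₀))
        exact (div_le_one₀ hpos).mpr hle
      have e : b i * (algebraMap K B (c i₀))⁻¹ =
          b i * (algebraMap K B (c i))⁻¹ * algebraMap K B (c i / c i₀) := by
        rw [map_div₀]
        have := hcF i
        have := hcF i₀
        field_simp
      rw [e]
      exact SB.Ov.mul_mem _ _ (hcu i h0).1 (SB.algebraMap_mem hA)
  · have h := hcu i₀ hi₀
    exact SB.red_ne_zero h.1 h.2 (mul_ne_zero hi₀ (inv_ne_zero (hcF i₀)))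

/-- elements of `S.Ov` with `FkB`-linearly independent reductions are `B`-linearly
independent. -/
theorem latTowerDeg_linearIndependent (hc : LatTowerCompat SB S) {n : ℕ} (e : Fin n → F)
    (he : ∀ i, e i ∈ S.Ov) (hind : LinearIndependent FkB (fun i => S.red (e i))) :
    LinearIndependent B e := by
  classical
  rw [Fintype.linearIndependent_iff]
  intro b hsum
  by_contra hcon
  push Not at hcon
  obtain ⟨c, hc0, hmem, i₀, hi₀⟩ := latTowerDeg_exists_scale (SB := SB) b hcon
  have hcB : algebraMap K B c ≠ 0 := by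
    rw [Ne, map_eq_zero_iff _ (algebraMap K B).injective]
    exact hc0
  -- the scaled relation
  have hsum' : ∑ i, algebraMap B F (b i * (algebraMap K B c)⁻¹) * e i = 0 := by
    have : ∀ i, algebraMap B F (b i * (algebraMap K B c)⁻¹) * e i =
        algebraMap B F ((algebraMap K B c)⁻¹) * (b i • e i) := by
      intro i
      rw [map_mul, Algebra.smul_def]
      ring
    rw [Finset.sum_congr rfl (fun i _ => this i), ← Finset.mul_sum, hsum, mul_zero]
  have hterm : ∀ i ∈ (Finset.univ : Finset (Fin n)),
      algebraMap B F (b i * (algebraMap K B c)⁻¹) * e i ∈ S.Ov := fun i _ =>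
    S.Ov.mul_mem _ _ (hc.mem _ (hmem i)) (he i)
  have hred := (latTowerDeg_red_sum (S := S) Finset.univ _ hterm).2
  rw [hsum', S.red_zero] at hred
  have hred' : ∑ i, SB.red (b i * (algebraMap K B c)⁻¹) • S.red (e i) = 0 := by
    rw [hred]
    refine Finset.sum_congr rfl (fun i _ => ?_)
    rw [S.red_mul (hc.mem _ (hmem i)) (he i), hc.red _ (hmem i), Algebra.smul_def]
  exact hi₀ (Fintype.linearIndependent_iff.mp hind _ hred' i₀)

/-- **the lattice property in a tower**, spanning form. -/
theorem latTowerDeg_of_span (hc : LatTowerCompat SB S) (hL : HasLattice SB) {n : ℕ}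
    (e : Fin n → F) (he : ∀ i, e i ∈ S.Ov)
    (hind : LinearIndependent FkB (fun i => S.red (e i)))
    (hspan : ∀ f : F, f ∈ Submodule.span B (Set.range e)) : HasLattice S := by
  classical
  apply Fermat.Agent.S27GR.hasLattice_of_cover
  intro t
  -- coefficients
  have hrep : ∀ f : F, ∃ l : Fin n → B, ∑ i, l i • e i = f := fun f =>
    (Submodule.mem_span_range_iff_exists_fun B).mp (hspan f)
  choose l hl using hrep
  set T : Finset B :=
    (t ×ˢ (Finset.univ : Finset (Fin n))).image (fun p : F × Fin n => l p.1 p.2) with hT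
  set WB : Submodule K B := Submodule.span K (T : Set B) with hWB
  haveI : FiniteDimensional K WB := FiniteDimensional.span_finset K T
  obtain ⟨m, w, hwW, hwO, hwspan, hwind⟩ := hL WB inferInstance
  refine ⟨Fin m × Fin n, fun p => algebraMap B F (w p.1) * e p.2, ?_, ?_, ?_⟩
  · intro p
    exact S.Ov.mul_mem _ _ (hc.mem _ (hwO p.1)) (he p.2)
  · have h := linearIndependent_smul hwind hind
    have e1 : (fun p : Fin m × Fin n => S.red (algebraMap B F (w p.1) * e p.2)) =
        fun p : Fin m × Fin n => SB.red (w p.1) • S.red (e p.2) := by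
      funext p
      rw [S.red_mul (hc.mem _ (hwO p.1)) (he p.2), hc.red _ (hwO p.1), Algebra.smul_def]
    show LinearIndependent k
      (fun p : Fin m × Fin n => S.red (algebraMap B F (w p.1) * e p.2))
    rw [e1]
    exact h
  · intro f hf
    rw [← hl f]
    refine Submodule.sum_mem _ (fun i _ => ?_)
    have hli : l f i ∈ WB := Submodule.subset_span (Finset.mem_coe.mpr
      (Finset.mem_image.mpr ⟨(f, i), Finset.mem_product.mpr ⟨hf, Finset.mem_univ i⟩, rfl⟩))
    rw [← hwspan] at hli
    obtain ⟨c, hc'⟩ := (Submodule.mem_span_range_iff_exists_fun K).mp hli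
    rw [← hc', Finset.sum_smul]
    refine Submodule.sum_mem _ (fun j _ => ?_)
    have e2 : (c j • w j) • e i = c j • (algebraMap B F (w j) * e i) := by
      rw [smul_assoc, Algebra.smul_def (w j) (e i)]
    rw [e2]
    exact Submodule.smul_mem _ _ (Submodule.subset_span ⟨(j, i), rfl⟩)

/-- **the lattice property in a tower**, degree form: equality in the fundamental inequality
`[Fk : FkB] ≤ [F : B]`. -/
theorem latTowerDeg_of_finrank (hc : LatTowerCompat SB S) (hL : HasLattice SB)
    [FiniteDimensional B F] [FiniteDimensional FkB Fk]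
    (hdeg : Module.finrank B F ≤ Module.finrank FkB Fk) : HasLattice S := by
  classical
  set n := Module.finrank FkB Fk with hn
  let bk : Module.Basis (Fin n) FkB Fk := Module.finBasis FkB Fk
  have hlift : ∀ i, ∃ x : F, x ∈ S.Ov ∧ S.red x = bk i := by
    intro i
    obtain ⟨⟨x, hx⟩, hxr⟩ := S.ρ_surj (bk i)
    exact ⟨x, hx, by rw [S.red_of_mem hx, hxr]⟩
  choose e he hre using hlift
  have hind : LinearIndependent FkB (fun i => S.red (e i)) := by
    have : (fun i => S.red (e i)) = bk := funext hre
    rw [this]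
    exact bk.linearIndependent
  have hindB := latTowerDeg_linearIndependent hc e he hind
  have hcard : Fintype.card (Fin n) = Module.finrank B F := by
    rw [Fintype.card_fin]
    exact le_antisymm (by
      have := hindB.fintype_card_le_finrank
      rwa [Fintype.card_fin] at this) hdeg
  have hspanTop : Submodule.span B (Set.range e) = ⊤ :=
    hindB.span_eq_top_of_card_eq_finrank' hcard
  exact latTowerDeg_of_span hc hL e he hind (fun f => by rw [hspanTop]; exact Submodule.mem_top)

/-- `n` elements of `S.Ov` with `FkB`-linearly independent reductions span `F` over `B` if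
`[F : B] ≤ n`. -/
theorem latTowerDeg_span_eq_top (hc : LatTowerCompat SB S) [FiniteDimensional B F] {n : ℕ}
    (e : Fin n → F) (he : ∀ i, e i ∈ S.Ov)
    (hind : LinearIndependent FkB (fun i => S.red (e i)))
    (hdeg : Module.finrank B F ≤ n) : Submodule.span B (Set.range e) = ⊤ := by
  have hindB := latTowerDeg_linearIndependent hc e he hind
  have hcard : Fintype.card (Fin n) = Module.finrank B F := by
    rw [Fintype.card_fin]
    exact le_antisymm (by
      have := hindB.fintype_card_le_finrank
      rwa [Fintype.card_fin] at this) hdeg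
  exact hindB.span_eq_top_of_card_eq_finrank' hcard

end Fermat.Agent.HPVal

namespace Fermat.Agent.HPVal

open Fermat.Agent.Deuring

variable {K F0 F k Fk0 Fk : Type*} [Field K] [Field F0] [Algebra K F0] [Field F] [Algebra K F]
  [Field k] [Field Fk0] [Algebra k Fk0] [Field Fk] [Algebra k Fk]

/-- **the hypothesis `hgen` of `hasLattice_of_tower` from the degree**: ring-hom form.  If
`m₁, …, mₙ ∈ O` have reductions linearly independent over `ιk (Fk0)` and `[F : ι F0] ≤ n`, then
every `x : F` is `∑ ι (c j) * m j`. -/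
theorem latTowerDeg_gen (S0 : ValSetup K F0 k Fk0) (S : ValSetup K F k Fk)
    (ι : F0 →+* F) (ιk : Fk0 →+* Fk)
    (hιK : ∀ c : K, ι (algebraMap K F0 c) = algebraMap K F c)
    (hιk : ∀ c : k, ιk (algebraMap k Fk0 c) = algebraMap k Fk c)
    (hmem : ∀ f ∈ S0.Ov, ι f ∈ S.Ov) (hred : ∀ f ∈ S0.Ov, S.red (ι f) = ιk (S0.red f))
    {n : ℕ} (m : Fin n → F) (hm : ∀ j, m j ∈ S.Ov)
    (hli : ∀ c : Fin n → Fk0, ∑ j, ιk (c j) * S.red (m j) = 0 → ∀ j, c j = 0)
    (hfin : letI := ι.toAlgebra; Module.Finite F0 F)
    (hdeg : letI := ι.toAlgebra; Module.finrank F0 F ≤ n) :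
    ∀ x : F, ∃ c : Fin n → F0, x = ∑ j, ι (c j) * m j := by
  letI : Algebra F0 F := ι.toAlgebra
  letI : Algebra Fk0 Fk := ιk.toAlgebra
  haveI : IsScalarTower K F0 F := IsScalarTower.of_algebraMap_eq (fun c => (hιK c).symm)
  haveI : IsScalarTower k Fk0 Fk := IsScalarTower.of_algebraMap_eq (fun c => (hιk c).symm)
  haveI : FiniteDimensional F0 F := hfin
  have hc : LatTowerCompat S0 S := ⟨hmem, hred⟩
  have hind : LinearIndependent Fk0 (fun j => S.red (m j)) := by
    rw [Fintype.linearIndependent_iff]
    intro c h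
    refine hli c ?_
    rw [← h]
    exact Finset.sum_congr rfl (fun j _ => (Algebra.smul_def _ _).symm)
  have htop := latTowerDeg_span_eq_top hc m hm hind hdeg
  intro x
  have hx : x ∈ Submodule.span F0 (Set.range m) := by rw [htop]; exact Submodule.mem_top
  obtain ⟨c, hcx⟩ := (Submodule.mem_span_range_iff_exists_fun F0).mp hx
  refine ⟨c, ?_⟩
  rw [← hcx]
  exact Finset.sum_congr rfl (fun j _ => Algebra.smul_def _ _)

end Fermat.Agent.HPVal
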