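/-
Cluster G (S36), block W-P, seat RESTR (helper95; sub-architect helper59, route of helper29, step (R)).
ABSTRACT part (Mathlib + `Circle.lean` only).

`IsCircleVal V B ϖ t ev` : the valuation ring `V` of `F` contains `B[t/ϖ]` and `G (t/ϖ)`, `G ∈ B[X]`,
is a non-unit of `V` exactly if `G` reduces to `0` in `k[X]` (= the output of `exists_circle`).

* `CircleData.exists_isCircleVal` : existence (restatement of `exists_circle`).
* `IsCircleVal.unit_of_map_ne`, `IsCircleVal.inv_mem_of_map_ne` : `G (t/ϖ)` is a unit if `G̅ ≠ 0`.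
* `IsCircleVal.nonunits_iff_ev` : `b ∈ B` is a non-unit iff `ev b = 0`.
* `IsCircleVal.le_of_norm`, `IsCircleVal.eq_of_norm` : **uniqueness**: two circle valuation rings
  for the same data with the same constants are equal as soon as every `f ≠ 0` is
  `c * G₁ (t/ϖ) / G₂ (t/ϖ)` with `c` constant and `G̅₁, G̅₂ ≠ 0`  (the norm formula `(N)`).
* `IsCircleVal.not_le_of_sep`, `IsCircleVal.ne_of_sep` : **distinct centres give distinct
  (incomparable) valuation rings**: a function `s ∈ B ∩ B'` with `ev s = 0`, `ev' s ≠ 0`.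
* `isCircleVal_comap` : **(R)**: `ι : F₀ →+* F`, `Ow` a valuation ring of `F` with residue map `ρ`;
  if the old functions `ι b`, `b ∈ B`, lie in `Ow` with CONSTANT residue `ev b`, and `ι (t/ϖ) ∈ Ow`
  has a residue transcendental over `k`, then the restriction `Ow.comap ι` is a circle valuation ring
  for `(B, ϖ, t, ev)`.
* `restrOld_of_loc` : the old-function hypothesis for `B` follows from the one for a subring `C ≤ B`
  if `B` is a localisation of `C` at functions not vanishing at the centre.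
* `restr_comap_eq` : `Ow.comap ι = V` for the disc valuation ring `V` (by uniqueness).
-/
import Mathlib
import Fermat.Agent.Lib.BadRed.HPVal.Circle

set_option autoImplicit false

noncomputable section

namespace Fermat.Agent.HPVal

open Polynomial

variable {F : Type*} [Field F] {k : Type*} [Field k]

/-- `V` is a circle valuation ring for the data `(B, ϖ, t, ev)`. -/
structure IsCircleVal (V : ValuationSubring F) (B : Subring F) (ϖ t : F) (ev : B →+* k) :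
    Prop where
  le : ∀ b ∈ B, b ∈ V
  Y_mem : t * ϖ⁻¹ ∈ V
  nonunits_iff : ∀ G : (↥B)[X], CircleData.evalHom B ϖ t G ∈ V.nonunits ↔ G.map ev = 0

/-- existence of a circle valuation ring (restatement of `CircleData.exists_circle`). -/
theorem CircleData.exists_isCircleVal {O B : Subring F} {ϖ t : F} {ev : B →+* k}
    (D : CircleData O B ϖ t ev) : ∃ V : ValuationSubring F, IsCircleVal V B ϖ t ev := by
  obtain ⟨V, h1, h2, h3⟩ := D.exists_circle
  exact ⟨V, h1, h2, h3⟩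

namespace IsCircleVal

variable {V V' : ValuationSubring F} {B : Subring F} {ϖ t : F} {ev : B →+* k}

theorem evalHom_mem (hV : IsCircleVal V B ϖ t ev) (G : (↥B)[X]) :
    CircleData.evalHom B ϖ t G ∈ V := by
  show Polynomial.eval₂ B.subtype (t * ϖ⁻¹) G ∈ V
  rw [Polynomial.eval₂_eq_sum]
  refine Subring.sum_mem V.toSubring fun i _ => ?_
  exact mul_mem (hV.le _ (G.coeff i).2) (pow_mem hV.Y_mem _)

theorem inv_mem_of_map_ne (hV : IsCircleVal V B ϖ t ev) {G : (↥B)[X]} (hG : G.map ev ≠ 0) :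
    (CircleData.evalHom B ϖ t G)⁻¹ ∈ V := by
  by_contra hinv
  have h1 : CircleData.evalHom B ϖ t G ∈ V.nonunits := by
    rw [ValuationSubring.mem_nonunits_iff_or]
    exact Or.inr hinv
  exact hG ((hV.nonunits_iff G).mp h1)

theorem ne_zero_of_map_ne (hV : IsCircleVal V B ϖ t ev) {G : (↥B)[X]} (hG : G.map ev ≠ 0) :
    CircleData.evalHom B ϖ t G ≠ 0 := by
  intro h0
  apply hG
  rw [← hV.nonunits_iff G, ValuationSubring.mem_nonunits_iff_or]
  exact Or.inl h0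

theorem unit_of_map_ne (hV : IsCircleVal V B ϖ t ev) {G : (↥B)[X]} (hG : G.map ev ≠ 0) :
    CircleData.evalHom B ϖ t G ∈ V ∧ (CircleData.evalHom B ϖ t G)⁻¹ ∈ V :=
  ⟨hV.evalHom_mem G, hV.inv_mem_of_map_ne hG⟩

/-- `b ∈ B` is a non-unit of `V` iff it vanishes at the centre. -/
theorem nonunits_iff_ev (hV : IsCircleVal V B ϖ t ev) (b : B) :
    (b : F) ∈ V.nonunits ↔ ev b = 0 := by
  have h1 := hV.nonunits_iff (C b)
  rw [CircleData.evalHom_C, Polynomial.map_C] at h1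
  rw [h1]
  exact Polynomial.C_eq_zero

/-- `t / ϖ` is a unit of `V`. -/
theorem Y_inv_mem (hV : IsCircleVal V B ϖ t ev) : (t * ϖ⁻¹)⁻¹ ∈ V := by
  have h1 := hV.inv_mem_of_map_ne (G := X) (by
    rw [Polynomial.map_X]
    exact Polynomial.X_ne_zero)
  rwa [CircleData.evalHom_X] at h1

/-- **uniqueness, one inclusion.**  `Cst` = the constants; `(N)`: every `f ≠ 0` is
`c * G₁ (t/ϖ) / G₂ (t/ϖ)` with `c` a constant and `G̅₁, G̅₂ ≠ 0`. -/
theorem le_of_norm (hV : IsCircleVal V B ϖ t ev) (hV' : IsCircleVal V' B ϖ t ev)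
    (Cst : Set F) (hC : ∀ c ∈ Cst, c ∈ V → c ∈ V')
    (hN : ∀ f : F, f ≠ 0 → ∃ c ∈ Cst, ∃ G₁ G₂ : (↥B)[X], G₁.map ev ≠ 0 ∧ G₂.map ev ≠ 0 ∧
      f * CircleData.evalHom B ϖ t G₂ = c * CircleData.evalHom B ϖ t G₁) :
    V ≤ V' := by
  intro f hf
  rcases eq_or_ne f 0 with rfl | hf0
  · exact zero_mem _
  obtain ⟨c, hc, G₁, G₂, h1, h2, hrel⟩ := hN f hf0
  have hu1 := hV.ne_zero_of_map_ne h1
  have hu2 := hV.ne_zero_of_map_ne h2
  have hcV : c ∈ V := by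
    have : c = f * CircleData.evalHom B ϖ t G₂ * (CircleData.evalHom B ϖ t G₁)⁻¹ := by
      rw [hrel, mul_assoc, mul_inv_cancel₀ hu1, mul_one]
    rw [this]
    exact mul_mem (mul_mem hf (hV.evalHom_mem G₂)) (hV.inv_mem_of_map_ne h1)
  have hcV' := hC c hc hcV
  have : f = c * CircleData.evalHom B ϖ t G₁ * (CircleData.evalHom B ϖ t G₂)⁻¹ := by
    rw [← hrel, mul_assoc, mul_inv_cancel₀ hu2, mul_one]
  rw [this]
  exact mul_mem (mul_mem hcV' (hV'.evalHom_mem G₁)) (hV'.inv_mem_of_map_ne h2)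

/-- **uniqueness of the circle valuation ring** (given the norm formula `(N)`). -/
theorem eq_of_norm (hV : IsCircleVal V B ϖ t ev) (hV' : IsCircleVal V' B ϖ t ev)
    (Cst : Set F) (hC : ∀ c ∈ Cst, c ∈ V ↔ c ∈ V')
    (hN : ∀ f : F, f ≠ 0 → ∃ c ∈ Cst, ∃ G₁ G₂ : (↥B)[X], G₁.map ev ≠ 0 ∧ G₂.map ev ≠ 0 ∧
      f * CircleData.evalHom B ϖ t G₂ = c * CircleData.evalHom B ϖ t G₁) :
    V = V' :=
  le_antisymm (hV.le_of_norm hV' Cst (fun c hc => (hC c hc).mp) hN)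
    (hV'.le_of_norm hV Cst (fun c hc => (hC c hc).mpr) hN)

/-- the same with the constants `K ⊆ F` and a valuation ring `A` of `K`. -/
theorem eq_of_norm_algebra {K : Type*} [Field K] [Algebra K F] (A : ValuationSubring K)
    (hV : IsCircleVal V B ϖ t ev) (hV' : IsCircleVal V' B ϖ t ev)
    (hA : ∀ c : K, algebraMap K F c ∈ V ↔ c ∈ A)
    (hA' : ∀ c : K, algebraMap K F c ∈ V' ↔ c ∈ A)
    (hN : ∀ f : F, f ≠ 0 → ∃ (c : K) (G₁ G₂ : (↥B)[X]), G₁.map ev ≠ 0 ∧ G₂.map ev ≠ 0 ∧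
      f * CircleData.evalHom B ϖ t G₂ = algebraMap K F c * CircleData.evalHom B ϖ t G₁) :
    V = V' := by
  refine hV.eq_of_norm hV' (Set.range (algebraMap K F)) ?_ ?_
  · rintro _ ⟨c, rfl⟩
    rw [hA, hA']
  · intro f hf
    obtain ⟨c, G₁, G₂, h1, h2, h3⟩ := hN f hf
    exact ⟨_, ⟨c, rfl⟩, G₁, G₂, h1, h2, h3⟩

/-- the norm formula for `F = Frac B` from the norm formula on `B`. -/
theorem norm_of_frac {K : Type*} [Field K] [Algebra K F]
    (hfrac : ∀ f : F, ∃ g ∈ B, g ≠ 0 ∧ f * g ∈ B)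
    (hNB : ∀ g ∈ B, g ≠ 0 → ∃ (c : K) (G : (↥B)[X]), c ≠ 0 ∧ G.map ev ≠ 0 ∧
      g = algebraMap K F c * CircleData.evalHom B ϖ t G) :
    ∀ f : F, f ≠ 0 → ∃ (c : K) (G₁ G₂ : (↥B)[X]), G₁.map ev ≠ 0 ∧ G₂.map ev ≠ 0 ∧
      f * CircleData.evalHom B ϖ t G₂ = algebraMap K F c * CircleData.evalHom B ϖ t G₁ := by
  intro f hf
  obtain ⟨g, hg, hg0, hfg⟩ := hfrac f
  obtain ⟨c₂, G₂, hc₂, hG₂, h2⟩ := hNB g hg hg0
  obtain ⟨c₁, G₁, hc₁, hG₁, h1⟩ := hNB (f * g) hfg (mul_ne_zero hf hg0)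
  refine ⟨c₁ * c₂⁻¹, G₁, G₂, hG₁, hG₂, ?_⟩
  have hc₂F : algebraMap K F c₂ ≠ 0 := by simpa using hc₂
  have h3 : CircleData.evalHom B ϖ t G₂ = (algebraMap K F c₂)⁻¹ * g := by
    rw [h2, ← mul_assoc, inv_mul_cancel₀ hc₂F, one_mul]
  rw [h3, map_mul, map_inv₀]
  calc f * ((algebraMap K F c₂)⁻¹ * g) = (algebraMap K F c₂)⁻¹ * (f * g) := by ring
    _ = (algebraMap K F c₂)⁻¹ * (algebraMap K F c₁ * CircleData.evalHom B ϖ t G₁) := by rw [← h1]
    _ = _ := by ring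

/-- **separation**: if `s ∈ B ∩ B'` vanishes at the centre of `V` and not at the centre of `V'`,
then `V'` is not contained in `V`. -/
theorem not_le_of_sep {B' : Subring F} {ϖ' t' : F} {ev' : B' →+* k}
    (hV : IsCircleVal V B ϖ t ev) (hV' : IsCircleVal V' B' ϖ' t' ev')
    {s : F} (hs : s ∈ B) (hs' : s ∈ B') (h0 : ev ⟨s, hs⟩ = 0) (h1 : ev' ⟨s, hs'⟩ ≠ 0) :
    ¬ V' ≤ V := by
  intro hle
  have hsV : s ∈ V.nonunits := (hV.nonunits_iff_ev ⟨s, hs⟩).mpr h0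
  have hsV' : s ∉ V'.nonunits := fun h => h1 ((hV'.nonunits_iff_ev ⟨s, hs'⟩).mp h)
  rw [ValuationSubring.mem_nonunits_iff_or] at hsV hsV'
  rw [not_or, not_not] at hsV'
  rcases hsV with h | h
  · exact hsV'.1 h
  · exact h (hle hsV'.2)

theorem ne_of_sep {B' : Subring F} {ϖ' t' : F} {ev' : B' →+* k}
    (hV : IsCircleVal V B ϖ t ev) (hV' : IsCircleVal V' B' ϖ' t' ev')
    {s : F} (hs : s ∈ B) (hs' : s ∈ B') (h0 : ev ⟨s, hs⟩ = 0) (h1 : ev' ⟨s, hs'⟩ ≠ 0) :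
    V ≠ V' := by
  intro h
  exact hV.not_le_of_sep hV' hs hs' h0 h1 h.ge

/-- **incomparability** from a separating function with values `0` and `1`. -/
theorem incomparable_of_sep {B' : Subring F} {ϖ' t' : F} {ev' : B' →+* k}
    (hV : IsCircleVal V B ϖ t ev) (hV' : IsCircleVal V' B' ϖ' t' ev')
    {s : F} (hs : s ∈ B) (hs' : s ∈ B') (h0 : ev ⟨s, hs⟩ = 0) (h1 : ev' ⟨s, hs'⟩ = 1) :
    ¬ V' ≤ V ∧ ¬ V ≤ V' := by
  refine ⟨hV.not_le_of_sep hV' hs hs' h0 (by rw [h1]; exact one_ne_zero), ?_⟩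
  have hs1 : 1 - s ∈ B := sub_mem (one_mem _) hs
  have hs1' : 1 - s ∈ B' := sub_mem (one_mem _) hs'
  have e1 : ev ⟨1 - s, hs1⟩ = 1 := by
    have : (⟨1 - s, hs1⟩ : B) = 1 - ⟨s, hs⟩ := rfl
    rw [this, map_sub, map_one, h0, sub_zero]
  have e1' : ev' ⟨1 - s, hs1'⟩ = 0 := by
    have : (⟨1 - s, hs1'⟩ : B') = 1 - ⟨s, hs'⟩ := rfl
    rw [this, map_sub, map_one, h1, sub_self]
  exact hV'.not_le_of_sep hV hs1' hs1 e1' (by rw [e1]; exact one_ne_zero)

end IsCircleVal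

/-! ### (R): the restriction of `w_P` to an old copy of `F₀` -/

section Restr

variable {F₀ : Type*} [Field F₀] {Fk : Type*} [Field Fk] [Algebra k Fk]

/-- the old-function hypothesis: `ι b ∈ Ow` with constant residue `ev b`, for all `b ∈ B`. -/
def RestrOld (ι : F₀ →+* F) (Ow : ValuationSubring F) (ρ : Ow →+* Fk) (B : Subring F₀)
    (ev : B →+* k) : Prop :=
  ∀ b : B, ∃ h : ι (b : F₀) ∈ Ow, ρ ⟨ι (b : F₀), h⟩ = algebraMap k Fk (ev b)

variable {ι : F₀ →+* F} {Ow : ValuationSubring F} {ρ : Ow →+* Fk} {B : Subring F₀}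
  {ev : B →+* k}

/-- the ring homomorphism `B → Ow`, `b ↦ ι b`. -/
def RestrOld.hom (h : RestrOld ι Ow ρ B ev) : B →+* Ow :=
  (ι.comp B.subtype).codRestrict Ow fun b => (h b).1

theorem RestrOld.coe_hom (h : RestrOld ι Ow ρ B ev) (b : B) : ((h.hom b : Ow) : F) = ι b := rfl

theorem RestrOld.ρ_hom (h : RestrOld ι Ow ρ B ev) (b : B) :
    ρ (h.hom b) = algebraMap k Fk (ev b) :=
  (h b).2

/-- `B[X] → Ow`, `b ↦ ι b`, `X ↦ ι (t/ϖ)`. -/
def RestrOld.polyHom (h : RestrOld ι Ow ρ B ev) {ϖ t : F₀} (hW : ι (t * ϖ⁻¹) ∈ Ow) :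
    (↥B)[X] →+* Ow :=
  Polynomial.eval₂RingHom h.hom ⟨ι (t * ϖ⁻¹), hW⟩

theorem RestrOld.coe_polyHom (h : RestrOld ι Ow ρ B ev) {ϖ t : F₀} (hW : ι (t * ϖ⁻¹) ∈ Ow)
    (G : (↥B)[X]) : ((h.polyHom hW G : Ow) : F) = ι (CircleData.evalHom B ϖ t G) := by
  have h1 : (Ow.subtype.comp (h.polyHom hW)) = ι.comp (CircleData.evalHom B ϖ t) := by
    apply Polynomial.ringHom_ext
    · intro b
      simp [RestrOld.polyHom, CircleData.evalHom, RestrOld.coe_hom]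
    · simp [RestrOld.polyHom, CircleData.evalHom]
  exact congrArg (fun φ => φ G) h1

theorem RestrOld.ρ_polyHom (h : RestrOld ι Ow ρ B ev) {ϖ t : F₀} (hW : ι (t * ϖ⁻¹) ∈ Ow)
    (G : (↥B)[X]) :
    ρ (h.polyHom hW G) = Polynomial.aeval (ρ ⟨ι (t * ϖ⁻¹), hW⟩) (G.map ev) := by
  have h1 : ρ.comp (h.polyHom hW) =
      ((Polynomial.aeval (R := k) (ρ ⟨ι (t * ϖ⁻¹), hW⟩)).toRingHom).comp
        (Polynomial.mapRingHom ev) := by
    apply Polynomial.ringHom_ext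
    · intro b
      simp [RestrOld.polyHom, RestrOld.ρ_hom]
    · simp [RestrOld.polyHom]
  exact congrArg (fun φ => φ G) h1

/-- **(R)**: the restriction of `Ow` to the old copy `ι F₀` is a circle valuation ring. -/
theorem isCircleVal_comap (hρ : ∀ x : Ow, ρ x = 0 ↔ ¬ IsUnit x)
    (hold : RestrOld ι Ow ρ B ev) {ϖ t : F₀} (hW : ι (t * ϖ⁻¹) ∈ Ow)
    (htr : Transcendental k (ρ ⟨ι (t * ϖ⁻¹), hW⟩)) :
    IsCircleVal (Ow.comap ι) B ϖ t ev where
  le := fun b hb => (hold ⟨b, hb⟩).1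
  Y_mem := hW
  nonunits_iff := fun G => by
    have hmem : ∀ y : F₀, y ∈ (Ow.comap ι).nonunits ↔ ι y ∈ Ow.nonunits := by
      intro y
      rw [ValuationSubring.mem_nonunits_iff_or, ValuationSubring.mem_nonunits_iff_or,
        ValuationSubring.mem_comap, map_inv₀, map_eq_zero]
    rw [hmem, ← hold.coe_polyHom hW G, ValuationSubring.coe_mem_nonunits_iff,
      IsLocalRing.mem_maximalIdeal, mem_nonunits_iff, ← hρ, hold.ρ_polyHom hW G]
    constructor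
    · intro h0
      by_contra hne
      exact htr ⟨_, hne, h0⟩
    · intro h0
      rw [h0, map_zero]

/-- the old-function hypothesis passes from a subring `C ≤ B` to `B` if every `b ∈ B` has a
denominator in `C` which does not vanish at the centre. -/
theorem restrOld_of_loc (hρ : ∀ x : Ow, ρ x = 0 ↔ ¬ IsUnit x)
    (C : Subring F₀) (hCB : C ≤ B)
    (hC : ∀ c : C, ∃ h : ι (c : F₀) ∈ Ow, ρ ⟨ι (c : F₀), h⟩ =
      algebraMap k Fk (ev ⟨c, hCB c.2⟩))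
    (hloc : ∀ b : B, ∃ (d : F₀) (hd : d ∈ C), ev ⟨d, hCB hd⟩ ≠ 0 ∧ (b : F₀) * d ∈ C) :
    RestrOld ι Ow ρ B ev := by
  intro b
  obtain ⟨d, hd, hd0, hbd⟩ := hloc b
  obtain ⟨hdO, hdρ⟩ := hC ⟨d, hd⟩
  obtain ⟨haO, haρ⟩ := hC ⟨(b : F₀) * d, hbd⟩
  have hρd : ρ ⟨ι d, hdO⟩ ≠ 0 := by
    rw [hdρ]
    exact fun h0 => hd0 ((map_eq_zero_iff _ (algebraMap k Fk).injective).mp h0)
  have hunit : IsUnit (⟨ι d, hdO⟩ : Ow) := by
    by_contra hnu
    exact hρd ((hρ _).mpr hnu)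
  obtain ⟨u, hu⟩ := hunit
  have hd0F : ι d ≠ 0 := by
    intro h0
    apply hρd
    have : (⟨ι d, hdO⟩ : Ow) = 0 := Subtype.ext h0
    rw [this, map_zero]
  have huinv : (((u⁻¹ : Owˣ) : Ow) : F) = (ι d)⁻¹ := by
    have h0 : ((u⁻¹ : Owˣ) : Ow) * ⟨ι d, hdO⟩ = 1 := by
      rw [← hu]
      exact u.inv_mul
    have h1 : (((u⁻¹ : Owˣ) : Ow) : F) * ι d = 1 := congrArg Subtype.val h0
    exact eq_inv_of_mul_eq_one_left h1
  have hbO : ι (b : F₀) ∈ Ow := by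
    have h1 : ι (b : F₀) = ι ((b : F₀) * d) * (ι d)⁻¹ := by
      rw [map_mul, mul_assoc, mul_inv_cancel₀ hd0F, mul_one]
    rw [h1, ← huinv]
    exact mul_mem haO (u⁻¹ : Owˣ).1.2
  refine ⟨hbO, ?_⟩
  have hmul : (⟨ι (b : F₀), hbO⟩ : Ow) * ⟨ι d, hdO⟩ = ⟨ι ((b : F₀) * d), haO⟩ :=
    Subtype.ext (by simp [map_mul])
  have h2 := congrArg ρ hmul
  rw [map_mul, haρ, hdρ] at h2
  have h3 : (⟨(b : F₀) * d, hCB hbd⟩ : B) = b * ⟨d, hCB hd⟩ := rfl
  rw [h3, map_mul, map_mul] at h2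
  have hne : algebraMap k Fk (ev ⟨d, hCB hd⟩) ≠ 0 := by
    rw [← hdρ]
    exact hρd
  exact mul_right_cancel₀ hne h2

/-- **(R), final form**: the restriction of `Ow` to the old copy of `F₀` IS the disc valuation
ring `V` (any circle valuation ring for the same data with the same constants), given the norm
formula `(N)` on `F₀`. -/
theorem restr_comap_eq {K : Type*} [Field K] [Algebra K F₀] (A : ValuationSubring K)
    (hρ : ∀ x : Ow, ρ x = 0 ↔ ¬ IsUnit x)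
    (hold : RestrOld ι Ow ρ B ev) {ϖ t : F₀} (hW : ι (t * ϖ⁻¹) ∈ Ow)
    (htr : Transcendental k (ρ ⟨ι (t * ϖ⁻¹), hW⟩))
    (hOA : ∀ c : K, ι (algebraMap K F₀ c) ∈ Ow ↔ c ∈ A)
    {V : ValuationSubring F₀} (hV : IsCircleVal V B ϖ t ev)
    (hVA : ∀ c : K, algebraMap K F₀ c ∈ V ↔ c ∈ A)
    (hN : ∀ f : F₀, f ≠ 0 → ∃ (c : K) (G₁ G₂ : (↥B)[X]), G₁.map ev ≠ 0 ∧ G₂.map ev ≠ 0 ∧
      f * CircleData.evalHom B ϖ t G₂ = algebraMap K F₀ c * CircleData.evalHom B ϖ t G₁) :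
    Ow.comap ι = V :=
  (isCircleVal_comap hρ hold hW htr).eq_of_norm_algebra A hV
    (fun c => by rw [ValuationSubring.mem_comap]; exact hOA c) hVA hN

end Restr

end Fermat.Agent.HPVal
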