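/-
Cluster G (S36), SEED v2 (sub-architect helper92), seat SEED-Y-ABS, part (H) (helper83).

**The function `h` of level `M₀` with poles exactly `n · Σ_P Pt P`**, from Deuring's lifting
theorem.  Abstract: `S : S18Key.RedSetup K F k Fk` a good reduction, `P i` (`i : ι`, finite)
pairwise distinct places of `Fk` (the supersingular points), `(Pt i, t i)` disc points over `P i`
(`DiscPoint`, helper51), and the lifting property

  `hlift : ∀ B, 2 g ≤ deg B → ∀ f̄ ∈ L(r_* B), ∃ f ∈ L(B), f ∈ Ov ∧ red f = f̄`.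

* `seedLiftH_div Pt n`   : the divisor `n · Σ_i Pt i`;
* `seedLiftH_exists`      : **(H)** for `n · |ι| ≥ 2 g(F)`, `n · |ι| > 2 g(Fk) - 1`, there is a unit
  `h` of `Ov` with `ord_{Pt i} h = -n` for all `i`, no other pole, `ord_{P i} (red h) = -n`,
  `red h` regular outside the `P i`, and `U_i := h · t_i ^ n ∈ R_{P i}` with `Ū_i (P i) ≠ 0`.
-/
import Mathlib
import Fermat.Agent.Lib.BadRed.HPVal.DiscTaylor
import Fermat.Agent.Lib.BadRed.Nodal.Interp1

set_option autoImplicit false
set_option linter.unusedSectionVars false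
set_option linter.unusedVariables false

noncomputable section

namespace Fermat.Agent.HPVal

open AlgebraicCurve Fermat.Agent.S18Key Fermat.Agent.RR

variable {K F k Fk : Type*} [Field K] [Field F] [Algebra K F] [Field k] [Field Fk] [Algebra k Fk]

section Div

variable {K₁ F₁ : Type*} [Field K₁] [Field F₁] [Algebra K₁ F₁] {ι : Type*} [Fintype ι]

/-- the divisor `n · Σ_i Pt i`. -/
def seedLiftH_div (Pt : ι → Place K₁ F₁) (n : ℕ) : Divisor K₁ F₁ :=
  ∑ i, Finsupp.single (Pt i) (n : ℤ)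

theorem seedLiftH_div_apply_of_ne (Pt : ι → Place K₁ F₁) (n : ℕ) {x : Place K₁ F₁}
    (hx : ∀ i, x ≠ Pt i) : seedLiftH_div Pt n x = 0 := by
  classical
  rw [seedLiftH_div, Finsupp.finsetSum_apply]
  refine Finset.sum_eq_zero fun i _ => ?_
  rw [Finsupp.single_apply, if_neg (fun h => hx i h.symm)]

theorem seedLiftH_div_apply_self (Pt : ι → Place K₁ F₁) (hPt : Function.Injective Pt) (n : ℕ)
    (i : ι) : seedLiftH_div Pt n (Pt i) = n := by
  classical
  rw [seedLiftH_div, Finsupp.finsetSum_apply, Finset.sum_eq_single i]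
  · rw [Finsupp.single_apply, if_pos rfl]
  · intro j _ hji
    rw [Finsupp.single_apply, if_neg (fun h => hji (hPt h))]
  · intro h
    exact absurd (Finset.mem_univ i) h

theorem seedLiftH_degree (h : IsRRField K₁ F₁) (Pt : ι → Place K₁ F₁) (n : ℕ) :
    Divisor.degree (seedLiftH_div Pt n) = (n : ℤ) * Fintype.card ι := by
  rw [seedLiftH_div, map_sum]
  simp only [degree_single_one h]
  rw [Finset.sum_const, Finset.card_univ, nsmul_eq_mul, mul_comm]

theorem seedLiftH_mapDomain {F₂ : Type*} [Field F₂] {k₂ : Type*} [Field k₂] [Algebra k₂ F₂]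
    (r : Place K₁ F₁ → Place k₂ F₂) (Pt : ι → Place K₁ F₁) (n : ℕ) :
    Finsupp.mapDomain r (seedLiftH_div Pt n) = seedLiftH_div (fun i => r (Pt i)) n := by
  rw [seedLiftH_div, Finsupp.mapDomain_finsetSum]
  simp only [Finsupp.mapDomain_single]
  rfl

end Div

/-- **(H)**: the function `h` with polar divisor exactly `n · Σ_i Pt i`, whose product with
`t_i ^ n` is a function of `R_{P i}` not vanishing at `P i`. -/
theorem seedLiftH_exists (S : RedSetup K F k Fk) (hFk : IsRRField k Fk) [Infinite k]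
    {ι : Type*} [Fintype ι] (P : ι → Place k Fk) (hP : Function.Injective P)
    (Pt : ι → Place K F) (t : ι → F) (hD : ∀ i, DiscPoint S (P i) (Pt i) (t i)) (n : ℕ)
    (hn : 2 * (genusFF K F : ℤ) ≤ (n : ℤ) * Fintype.card ι)
    (hnk : 2 * (genusFF k Fk : ℤ) - 1 < (n : ℤ) * Fintype.card ι)
    (hlift : ∀ B : Divisor K F, 2 * (genusFF K F : ℤ) ≤ Divisor.degree B →
      ∀ fb ∈ riemannRochSpace (Finsupp.mapDomain S.r B),
        ∃ f ∈ riemannRochSpace B, f ∈ S.Ov ∧ S.red f = fb) :
    ∃ h : F, S.IsU h ∧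
      (∀ i, (Pt i).ord h = -(n : ℤ)) ∧
      (∀ x : Place K F, (∀ i, x ≠ Pt i) → 0 ≤ x.ord h) ∧
      (∀ i, (P i).ord (S.red h) = -(n : ℤ)) ∧
      (∀ Q : Place k Fk, (∀ i, Q ≠ P i) → 0 ≤ Q.ord (S.red h)) ∧
      ∀ i, ∃ hU : h * t i ^ n ∈ discRing S (P i),
        discEv S (P i) hFk ⟨h * t i ^ n, hU⟩ ≠ 0 := by
  classical
  have hrPt : ∀ i, S.r (Pt i) = P i := fun i => (hD i).r_Pt
  have hPt : Function.Injective Pt := fun i j hij => hP (by rw [← hrPt i, ← hrPt j, hij])
  -- the divisors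
  set B : Divisor K F := seedLiftH_div Pt n with hB
  set Db : Divisor k Fk := seedLiftH_div P n with hDb
  have hmap : Finsupp.mapDomain S.r B = Db := by
    rw [hB, seedLiftH_mapDomain, hDb]
    congr 1
    funext i
    exact hrPt i
  have hdegB : Divisor.degree B = (n : ℤ) * Fintype.card ι := seedLiftH_degree S.hF Pt n
  have hdegD : Divisor.degree Db = (n : ℤ) * Fintype.card ι := seedLiftH_degree hFk P n
  -- the generic element downstairs
  obtain ⟨hb, hbD, hb0, hbU⟩ := Fermat.Agent.BadRed.Interp1.exists_exact_ord hFk Db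
    (by rw [hdegD]; exact hnk) (Finset.univ.image P)
  have hbord : ∀ i, (P i).ord hb = -(n : ℤ) := by
    intro i
    rw [hbU (P i) (Finset.mem_image_of_mem P (Finset.mem_univ i)), hDb,
      seedLiftH_div_apply_self P hP n i]
  have hbreg : ∀ Q : Place k Fk, (∀ i, Q ≠ P i) → 0 ≤ Q.ord hb := by
    intro Q hQ
    have := ((mem_riemannRochSpace_iff.mp hbD) Q).resolve_left hb0
    rw [hDb, seedLiftH_div_apply_of_ne P n hQ] at this
    simpa using this
  -- the lift
  obtain ⟨h, hhB, hhOv, hred⟩ := hlift B (by rw [hdegB]; exact hn) hb (by rw [hmap]; exact hbD)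
  have hU : S.IsU h := isU_of_red_ne_zero hhOv (by rw [hred]; exact hb0)
  have hh0 : h ≠ 0 := hU.ne_zero
  have hge : ∀ x : Place K F, -B x ≤ x.ord h := fun x =>
    ((mem_riemannRochSpace_iff.mp hhB) x).resolve_left hh0
  have hreg : ∀ x : Place K F, (∀ i, x ≠ Pt i) → 0 ≤ x.ord h := by
    intro x hx
    have := hge x
    rw [hB, seedLiftH_div_apply_of_ne Pt n hx] at this
    simpa using this
  have hgePt : ∀ i, -(n : ℤ) ≤ (Pt i).ord h := by
    intro i
    have := hge (Pt i)
    rwa [hB, seedLiftH_div_apply_self Pt hPt n i] at this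
  -- the functions `U_i`
  have hordpow : ∀ (x : Place K F) (i : ι), x.ord (t i ^ n) = (n : ℤ) * x.ord (t i) := by
    intro x i
    have := x.ord_zpow (t i) (n : ℤ)
    rwa [zpow_natCast] at this
  have htn0 : ∀ i, t i ^ n ≠ 0 := fun i => pow_ne_zero _ (hD i).t_ne
  have hUreg : ∀ i, ∀ x : Place K F, S.r x = P i → 0 ≤ x.ord (h * t i ^ n) := by
    intro i x hx
    rw [x.ord_mul hh0 (htn0 i), hordpow]
    by_cases hxi : x = Pt i
    · subst hxi
      rw [(hD i).ord_t_eq_one, mul_one]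
      have := hgePt i
      omega
    · rw [(hD i).ord_t_eq_zero hx hxi, mul_zero, add_zero]
      refine hreg x fun j hj => ?_
      have hji : j = i := hP (by rw [← hrPt j, ← hj, hx])
      exact hxi (by rw [hj, hji])
  have hUmem : ∀ i, h * t i ^ n ∈ discRing S (P i) := fun i =>
    ⟨mul_mem hhOv (pow_mem (hD i).t_mem.1 n), hUreg i⟩
  have hUisU : ∀ i, S.IsU (h * t i ^ n) := fun i => hU.mul ((hD i).isU_t.pow n)
  have hredU : ∀ i, S.red (h * t i ^ n) = hb * S.red (t i) ^ n := by
    intro i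
    rw [red_mul hhOv (pow_mem (hD i).t_mem.1 n), red_pow (hD i).t_mem.1, hred]
  have hordU : ∀ i, (P i).ord (S.red (h * t i ^ n)) = 0 := by
    intro i
    have h1 : (P i).ord (S.red (t i) ^ n) = (n : ℤ) * (P i).ord (S.red (t i)) := by
      have := (P i).ord_zpow (S.red (t i)) (n : ℤ)
      rwa [zpow_natCast] at this
    rw [hredU, (P i).ord_mul hb0 (pow_ne_zero _ (hD i).red_t_ne), h1, hbord, (hD i).ord_t]
    ring
  refine ⟨h, hU, fun i => ?_, hreg, fun i => by rw [hred]; exact hbord i,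
    fun Q hQ => by rw [hred]; exact hbreg Q hQ, fun i => ⟨hUmem i, ?_⟩⟩
  · -- exactness at `Pt i`
    have h0 := push_eq_zero (hUisU i) (P i) (hUreg i) (hordU i) (Pt i) (hrPt i)
    rw [(Pt i).ord_mul hh0 (htn0 i), hordpow, (hD i).ord_t_eq_one, mul_one] at h0
    omega
  · -- the value at `P i`
    rw [Ne, discEv_eq_zero_iff]
    rintro (h1 | h1)
    · exact (hUisU i).red_ne_zero h1
    · have := hordU i
      change 0 < (P i).ord (S.red (h * t i ^ n)) at h1
      omega

end Fermat.Agent.HPVal
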