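/-
Cluster G (S36), block W-P, seat STAB (helper4): stability of the disc valuation and of the
valuation `w_P` under the semilinear automorphisms (inertia).

Abstract, on top of `DiscData` / `IsDiscVal` (`DiscNorm.lean`, helper47).  Nothing modular.

* `StabData A B π t ev τ σ` : `τ` a ring automorphism of `F` over the automorphism `σ` of `K`, with
  `σ A = A`, `τ B ⊆ B`, `ev ∘ τ = ev`, `τ (t / ϖ) = u (t / ϖ)`, `u` a unit of `A`;
* `DiscData.isDiscVal_comap` : then `τ⁻¹ V` is a disc valuation, hence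
  `DiscData.comap_eq_of_stab : τ⁻¹ V = V` and `DiscData.mem_iff_of_stab : τ f ∈ V ↔ f ∈ V`
  (uniqueness of the disc valuation);
* `comap_eq_of_unique` : a valuation ring `O` of a bigger field which is the UNIQUE one over `V`
  (`CORE-COVER`) is stable under every automorphism which is compatible with an automorphism
  stabilising `V`;
* `stab_wpi` : the combination, for `SemilinearAut`: `∀ f, f ∈ O ↔ t • f ∈ O` (this is
  `S36G.WpiStable S t` for a `ValSetup` `S` with `S.Ov = O`).
-/
import Mathlib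
import Fermat.Agent.Lib.BadRed.HPVal.DiscNorm
import Fermat.Prelude.Def_AlgebraicCurve_BaseChangeGalois

set_option autoImplicit false
set_option linter.unusedSectionVars false
set_option linter.style.haveILetI false

noncomputable section

open Polynomial

namespace Fermat.Agent.HPVal

variable {K F k : Type*} [Field K] [Field F] [Algebra K F] [Field k]

/-- the hypotheses on the automorphism. -/
structure StabData (A : ValuationSubring K) (B : Subring F) (π : K) (t : F) (ev : B →+* k)
    (τ : F ≃+* F) (σ : K ≃+* K) : Prop where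
  comm : ∀ c : K, τ (algebraMap K F c) = algebraMap K F (σ c)
  A_iff : ∀ c : K, σ c ∈ A ↔ c ∈ A
  B_mem : ∀ b ∈ B, τ b ∈ B
  ev_eq : ∀ (b : F) (hb : b ∈ B) (hb' : τ b ∈ B), ev ⟨τ b, hb'⟩ = ev ⟨b, hb⟩
  unit : ∃ u : K, u ∈ A ∧ u⁻¹ ∈ A ∧
    τ (t * (algebraMap K F π)⁻¹) = algebraMap K F u * (t * (algebraMap K F π)⁻¹)

namespace StabData

variable {A : ValuationSubring K} {B : Subring F} {π : K} {t : F} {ev : B →+* k}
  {τ : F ≃+* F} {σ : K ≃+* K}

/-- the restriction of `τ` to `B`. -/
def resB (h : StabData A B π t ev τ σ) : B →+* B :=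
  ((τ : F →+* F).comp B.subtype).codRestrict B (fun b => h.B_mem b b.2)

theorem coe_resB (h : StabData A B π t ev τ σ) (b : B) : ((h.resB b : B) : F) = τ b := rfl

theorem ev_resB (h : StabData A B π t ev τ σ) (b : B) : ev (h.resB b) = ev b :=
  h.ev_eq b b.2 _

theorem ev_comp_resB (h : StabData A B π t ev τ σ) : ev.comp h.resB = ev :=
  RingHom.ext fun b => h.ev_resB b

theorem subtype_comp_resB (h : StabData A B π t ev τ σ) :
    B.subtype.comp h.resB = (τ : F →+* F).comp B.subtype :=
  RingHom.ext fun _ => rfl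

end StabData

namespace DiscData

variable {A : ValuationSubring K} {res : A →+* k} {O B : Subring F} {π : K} {t : F}
  {ev : B →+* k} {τ : F ≃+* F} {σ : K ≃+* K}

/-- the transport of a polynomial `G ∈ B[X]`: `τ (G (W)) = G' (W)`, with the same reduction up to
the substitution `X ↦ res(u) X`. -/
theorem exists_transport (D : DiscData A res O B π t ev) (h : StabData A B π t ev τ σ)
    (G : (↥B)[X]) (hG : G.map ev ≠ 0) :
    ∃ G' : (↥B)[X], G'.map ev ≠ 0 ∧
      CircleData.evalHom B (algebraMap K F π) t G' =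
        τ (CircleData.evalHom B (algebraMap K F π) t G) := by
  obtain ⟨u, hu, hu', hW⟩ := h.unit
  have hW0 : t * (algebraMap K F π)⁻¹ ≠ 0 :=
    mul_ne_zero D.circle.t_ne (inv_ne_zero D.circle.ϖ_ne)
  have hu0 : u ≠ 0 := by
    rintro rfl
    rw [map_zero, zero_mul] at hW
    exact hW0 ((map_eq_zero_iff τ τ.injective).mp hW)
  have huB : algebraMap K F u ∈ B := D.const_mem u hu
  have hres : res ⟨u, hu⟩ ≠ 0 := by
    rw [Ne, D.res_eq_zero_iff, not_not]
    refine ⟨⟨⟨u, hu⟩, ⟨u⁻¹, hu'⟩, ?_, ?_⟩, rfl⟩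
    · exact Subtype.ext (mul_inv_cancel₀ hu0)
    · exact Subtype.ext (inv_mul_cancel₀ hu0)
  refine ⟨(G.map h.resB).comp (C (⟨algebraMap K F u, huB⟩ : B) * X), ?_, ?_⟩
  · rw [Polynomial.map_comp, Polynomial.map_map, h.ev_comp_resB, Polynomial.map_mul,
      Polynomial.map_C, Polynomial.map_X, D.ev_const u hu huB]
    intro h0
    exact hG ((Polynomial.comp_C_mul_X_eq_zero_iff
      (mem_nonZeroDivisors_of_ne_zero hres)).mp h0)
  · show eval₂ B.subtype (t * (algebraMap K F π)⁻¹)
        ((G.map h.resB).comp (C (⟨algebraMap K F u, huB⟩ : B) * X)) =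
      τ (eval₂ B.subtype (t * (algebraMap K F π)⁻¹) G)
    rw [Polynomial.eval₂_comp, Polynomial.eval₂_mul, Polynomial.eval₂_C, Polynomial.eval₂_X,
      Polynomial.eval₂_map, h.subtype_comp_resB]
    show eval₂ ((τ : F →+* F).comp B.subtype)
        (algebraMap K F u * (t * (algebraMap K F π)⁻¹)) G = _
    rw [← hW]
    exact (Polynomial.hom_eval₂ G B.subtype (τ : F →+* F) (t * (algebraMap K F π)⁻¹)).symm

/-- **the inverse image of a disc valuation is a disc valuation.** -/
theorem isDiscVal_comap (D : DiscData A res O B π t ev) {V : ValuationSubring F}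
    (hV : IsDiscVal A B π t ev V) (h : StabData A B π t ev τ σ) :
    IsDiscVal A B π t ev (V.comap (τ : F →+* F)) where
  mem_iff := fun c => by
    show τ (algebraMap K F c) ∈ V ↔ c ∈ A
    rw [h.comm, hV.mem_iff, h.A_iff]
  unit := fun G hG => by
    obtain ⟨G', hG', e⟩ := D.exists_transport h G hG
    obtain ⟨h1, h2⟩ := hV.unit G' hG'
    constructor
    · show τ (CircleData.evalHom B (algebraMap K F π) t G) ∈ V
      rw [← e]
      exact h1
    · show τ (CircleData.evalHom B (algebraMap K F π) t G)⁻¹ ∈ V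
      rw [map_inv₀, ← e]
      exact h2

/-- **stability of the disc valuation.** -/
theorem comap_eq_of_stab (D : DiscData A res O B π t ev) {V : ValuationSubring F}
    (hV : IsDiscVal A B π t ev V) (h : StabData A B π t ev τ σ) :
    V.comap (τ : F →+* F) = V :=
  D.isDiscVal_unique (D.isDiscVal_comap hV h) hV

theorem mem_iff_of_stab (D : DiscData A res O B π t ev) {V : ValuationSubring F}
    (hV : IsDiscVal A B π t ev V) (h : StabData A B π t ev τ σ) (f : F) :
    τ f ∈ V ↔ f ∈ V := by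
  conv_rhs => rw [← D.comap_eq_of_stab hV h]
  exact Iff.rfl

end DiscData

/-! ### the unique valuation ring over a stable one -/

section Tower

variable {E L : Type*} [Field E] [Field L]

/-- a valuation ring `O` of `L` which is the unique one over the valuation ring `V` of `E` is
stable under the automorphisms of `L` which induce on `E` an automorphism stabilising `V`. -/
theorem comap_eq_of_unique (ι : E →+* L) {V : ValuationSubring E} {O : ValuationSubring L}
    (hO : O.comap ι = V)
    (huniq : ∀ O' : ValuationSubring L, O'.comap ι = V → O' = O)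
    (τ : L ≃+* L) (τ₀ : E ≃+* E) (hι : ∀ e : E, τ (ι e) = ι (τ₀ e))
    (hV : ∀ e : E, τ₀ e ∈ V ↔ e ∈ V) :
    O.comap (τ : L →+* L) = O := by
  apply huniq
  ext e
  show τ (ι e) ∈ O ↔ e ∈ V
  rw [hι, ← hV e, ← hO]
  exact Iff.rfl

theorem mem_iff_of_unique (ι : E →+* L) {V : ValuationSubring E} {O : ValuationSubring L}
    (hO : O.comap ι = V)
    (huniq : ∀ O' : ValuationSubring L, O'.comap ι = V → O' = O)
    (τ : L ≃+* L) (τ₀ : E ≃+* E) (hι : ∀ e : E, τ (ι e) = ι (τ₀ e))
    (hV : ∀ e : E, τ₀ e ∈ V ↔ e ∈ V) (f : L) :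
    τ f ∈ O ↔ f ∈ O := by
  conv_rhs => rw [← comap_eq_of_unique ι hO huniq τ τ₀ hι hV]
  exact Iff.rfl

end Tower

/-! ### the form for `SemilinearAut` -/

section Semilinear

open AlgebraicCurve

variable {E L : Type*} [Field E] [Algebra K E] [Field L] [Algebra K L]

/-- the disc valuation is stable under a semilinear automorphism `t₀` of `E / K` with
`σ A = A`, `t₀ B ⊆ B`, `ev ∘ t₀ = ev`, `t₀ (x / ϖ) = u (x / ϖ)`. -/
theorem disc_stable {A : ValuationSubring K} {res : A →+* k} {O₀ B : Subring E} {π : K} {x : E}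
    {ev : B →+* k} (D : DiscData A res O₀ B π x ev) {V : ValuationSubring E}
    (hV : IsDiscVal A B π x ev V) (t₀ : SemilinearAut K E)
    (hA : ∀ c : K, SemilinearAut.baseAut t₀ c ∈ A ↔ c ∈ A)
    (hB : ∀ b ∈ B, t₀ • b ∈ B)
    (hev : ∀ (b : E) (hb : b ∈ B) (hb' : t₀ • b ∈ B), ev ⟨t₀ • b, hb'⟩ = ev ⟨b, hb⟩)
    (hW : ∃ u : K, u ∈ A ∧ u⁻¹ ∈ A ∧
      t₀ • (x * (algebraMap K E π)⁻¹) = algebraMap K E u * (x * (algebraMap K E π)⁻¹))
    (f : E) : f ∈ V ↔ t₀ • f ∈ V := by
  have h : StabData A B π x ev (SemilinearAut.toRingAut t₀) (SemilinearAut.baseAut t₀) :=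
    { comm := fun c => SemilinearAut.commutes t₀ c
      A_iff := hA
      B_mem := hB
      ev_eq := hev
      unit := hW }
  exact (D.mem_iff_of_stab hV h f).symm

/-- **stability of `w_P`**: `O` the unique valuation ring of `L` over the disc valuation `V` of
`E` (along `ι : E → L`), `t` a semilinear automorphism of `L / K` inducing `t₀` on `E`. -/
theorem stab_wpi {A : ValuationSubring K} {res : A →+* k} {O₀ B : Subring E} {π : K} {x : E}
    {ev : B →+* k} (D : DiscData A res O₀ B π x ev) {V : ValuationSubring E}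
    (hV : IsDiscVal A B π x ev V) (ι : E →+* L) {O : ValuationSubring L}
    (hO : O.comap ι = V)
    (huniq : ∀ O' : ValuationSubring L, O'.comap ι = V → O' = O)
    (t : SemilinearAut K L) (t₀ : SemilinearAut K E) (hι : ∀ e : E, t • ι e = ι (t₀ • e))
    (hA : ∀ c : K, SemilinearAut.baseAut t₀ c ∈ A ↔ c ∈ A)
    (hB : ∀ b ∈ B, t₀ • b ∈ B)
    (hev : ∀ (b : E) (hb : b ∈ B) (hb' : t₀ • b ∈ B), ev ⟨t₀ • b, hb'⟩ = ev ⟨b, hb⟩)
    (hW : ∃ u : K, u ∈ A ∧ u⁻¹ ∈ A ∧
      t₀ • (x * (algebraMap K E π)⁻¹) = algebraMap K E u * (x * (algebraMap K E π)⁻¹))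
    (f : L) : f ∈ O ↔ t • f ∈ O :=
  (mem_iff_of_unique ι hO huniq (SemilinearAut.toRingAut t) (SemilinearAut.toRingAut t₀) hι
    (fun e => (disc_stable D hV t₀ hA hB hev hW e).symm) f).symm

end Semilinear

end Fermat.Agent.HPVal
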