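/-
Cluster G (S36), block W-P, seat UNIQ (helper65; sub-architect helper59): the UNIQUENESS EXPORT.

Abstract, on top of `DiscData` / `IsDiscVal` (`DiscNorm.lean`, helper47).  Nothing modular.

Setting: `K ⊆ E`, `A` a valuation ring of `K` with residue map `res : A → k`, the disc data
`D : DiscData A res O B π t ev` on `E` (`B` = the disc ring, `W = t / π`), `V` the disc valuation
ring of `E`; `ι : E →+* F` a bigger field and `O'` a valuation ring of `F`.

* `UniqData A res B π t ι O'` : the hypotheses on `O'`: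
    `O' ∩ K = A`,  `ι B ⊆ O'`,  `ι W ∈ O'`,  and `G (ι W)` is a unit of `O'` for every `G ∈ A[X]`
    of non-zero reduction (the residue of `ι W` is TRANSCENDENTAL over `k`).
* `DiscData.unq_isDiscVal` : then `O' ∩ ι E` is a disc valuation ring;
* `DiscData.unq_comap_eq`  : hence `O'.comap ι = V` (uniqueness of the disc valuation);
* `DiscData.unq_eq_of_unique` / `unq_eq_of_liesOverV` : hence `O' = Ow` as soon as `Ow` is the
  unique valuation ring of `F` over `V` (CORE-COVER);
* `DiscData.unq_nonunits_iff` : `ι b`, `b ∈ B`, is a non-unit of `O'` iff `ev b = 0`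
  (so "the residue of `ι b` is the constant `ev b`" is a CONSEQUENCE, not a hypothesis);
* `UniqData.of_residue`   : the transcendence hypothesis from a residue map `ρ : O' → Fk`.

WARNING (tested): "`ι W` is a unit of `O'`" alone is NOT enough.  The Gauss valuation of the
smaller disc `|t - π| ≤ |π²|` contains `B` with the same residues, and `W = 1 + π s` is a unit in
it (residue `1`), but it is not the disc valuation of `|t| ≤ |π|`: `W - 1` is a non-unit.
-/
import Mathlib
import Fermat.Agent.Lib.BadRed.HPVal.DiscNorm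
import Fermat.Agent.Lib.BadRed.FundIneq

set_option autoImplicit false
set_option linter.unusedSectionVars false
set_option linter.style.haveILetI false

noncomputable section

open Polynomial

namespace Fermat.Agent.HPVal

variable {K E F k : Type*} [Field K] [Field E] [Algebra K E] [Field F] [Field k]

/-- the hypotheses of the uniqueness export on a valuation ring `O'` of `F ⊇ ι E`. -/
structure UniqData (A : ValuationSubring K) (res : A →+* k) (B : Subring E) (π : K) (t : E)
    (ι : E →+* F) (O' : ValuationSubring F) : Prop where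
  mem_iff : ∀ c : K, ι (algebraMap K E c) ∈ O' ↔ c ∈ A
  B_mem : ∀ b ∈ B, ι b ∈ O'
  Y_mem : ι (t * (algebraMap K E π)⁻¹) ∈ O'
  tr : ∀ G : A[X], G.map res ≠ 0 →
    (ι (eval₂ ((algebraMap K E).comp A.subtype) (t * (algebraMap K E π)⁻¹) G))⁻¹ ∈ O'

/-- in a valuation ring, unit + non-unit is a unit. -/
theorem unq_inv_add_mem {O' : ValuationSubring F} {x y : F} (hx0 : x ≠ 0) (hx : x ∈ O')
    (hx' : x⁻¹ ∈ O') (hy : y ∈ O'.nonunits) : x + y ∈ O' ∧ (x + y)⁻¹ ∈ O' := by
  have h1 : O'.valuation x ≤ 1 := (O'.valuation_le_one_iff x).mpr hx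
  have h2 : O'.valuation x⁻¹ ≤ 1 := (O'.valuation_le_one_iff _).mpr hx'
  have hv0 : O'.valuation x ≠ 0 := (Valuation.ne_zero_iff _).mpr hx0
  have hvx : O'.valuation x = 1 := by
    refine le_antisymm h1 ?_
    rw [map_inv₀] at h2
    exact (inv_le_one₀ (zero_lt_iff.mpr hv0)).mp h2
  have hvy : O'.valuation y < 1 := (O'.mem_nonunits_iff).mp hy
  have hsum : O'.valuation (x + y) = 1 := by
    rw [← hvx]
    apply Valuation.map_add_eq_of_lt_left
    rw [hvx]
    exact hvy
  refine ⟨(O'.valuation_le_one_iff _).mp hsum.le, (O'.valuation_le_one_iff _).mp ?_⟩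
  rw [map_inv₀, hsum, inv_one]

/-- in a valuation ring, non-unit times element is a non-unit. -/
theorem unq_mul_mem_nonunits {O' : ValuationSubring F} {x y : F} (hx : x ∈ O'.nonunits)
    (hy : y ∈ O') : x * y ∈ O'.nonunits := by
  rw [O'.mem_nonunits_iff] at hx ⊢
  have h1 : O'.valuation y ≤ 1 := (O'.valuation_le_one_iff y).mpr hy
  rw [map_mul]
  calc O'.valuation x * O'.valuation y ≤ O'.valuation x * 1 := mul_le_mul_right h1 _
    _ = O'.valuation x := mul_one _
    _ < 1 := hx

namespace UniqData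

variable {A : ValuationSubring K} {res : A →+* k} {B : Subring E} {π : K} {t : E}
  {ι : E →+* F} {O' : ValuationSubring F}

/-- `G (ι W) ∈ O'` for `G ∈ B[X]`. -/
theorem evalHom_mem (h : UniqData A res B π t ι O') (G : (↥B)[X]) :
    ι (CircleData.evalHom B (algebraMap K E π) t G) ∈ O' := by
  show ι (Polynomial.eval₂ B.subtype (t * (algebraMap K E π)⁻¹) G) ∈ O'
  rw [Polynomial.eval₂_eq_sum, Polynomial.sum, map_sum]
  refine Subring.sum_mem O'.toSubring fun i _ => ?_
  rw [map_mul, map_pow]
  exact mul_mem (h.B_mem _ (G.coeff i).2) (pow_mem h.Y_mem _)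

/-- a non-unit constant is a non-unit of `O'`. -/
theorem const_mem_nonunits (h : UniqData A res B π t ι O') {c : K} (hc : c ∈ A)
    (hc' : ¬ IsUnit (⟨c, hc⟩ : A)) : ι (algebraMap K E c) ∈ O'.nonunits := by
  rw [ValuationSubring.mem_nonunits_iff_or]
  rcases eq_or_ne c 0 with rfl | hc0
  · left
    rw [map_zero, map_zero]
  · right
    rw [← map_inv₀, ← map_inv₀, h.mem_iff]
    intro hinv
    apply hc'
    refine ⟨⟨⟨c, hc⟩, ⟨c⁻¹, hinv⟩, ?_, ?_⟩, rfl⟩
    · exact Subtype.ext (mul_inv_cancel₀ hc0)
    · exact Subtype.ext (inv_mul_cancel₀ hc0)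

end UniqData

namespace DiscData

variable {A : ValuationSubring K} {res : A →+* k} {O B : Subring E} {π : K} {t : E}
  {ev : B →+* k} {ι : E →+* F} {O' : ValuationSubring F}

/-- `π` is a non-unit of `A`. -/
theorem unq_π_not_isUnit (D : DiscData A res O B π t ev) :
    ¬ IsUnit (⟨π, D.π_mem⟩ : A) := by
  rw [← D.res_eq_zero_iff, ← D.ev_const π D.π_mem D.circle.ϖ_mem]
  exact D.circle.ev_ϖ _

/-- `ι t` is a non-unit of `O'`. -/
theorem unq_t_mem_nonunits (D : DiscData A res O B π t ev) (h : UniqData A res B π t ι O') :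
    ι t ∈ O'.nonunits := by
  have h1 : ι t = ι (algebraMap K E π) * ι (t * (algebraMap K E π)⁻¹) := by
    rw [← map_mul, D.t_eq]
  rw [h1]
  exact unq_mul_mem_nonunits (h.const_mem_nonunits D.π_mem D.unq_π_not_isUnit) h.Y_mem

/-- **splitting** of a polynomial over `B` into its constant part over `A` and a multiple of
`t`: `G (W) = G_A (W) + t G' (W)`, with `G_A` of the same reduction. -/
theorem unq_split (D : DiscData A res O B π t ev) (G : (↥B)[X]) :
    ∃ (GA : A[X]) (G' : (↥B)[X]), GA.map res = G.map ev ∧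
      CircleData.evalHom B (algebraMap K E π) t G =
        eval₂ ((algebraMap K E).comp A.subtype) (t * (algebraMap K E π)⁻¹) GA +
          t * CircleData.evalHom B (algebraMap K E π) t G' := by
  induction G using Polynomial.induction_on' with
  | add G₁ G₂ h₁ h₂ =>
    obtain ⟨GA₁, G₁', e₁, f₁⟩ := h₁
    obtain ⟨GA₂, G₂', e₂, f₂⟩ := h₂
    refine ⟨GA₁ + GA₂, G₁' + G₂', ?_, ?_⟩
    · rw [Polynomial.map_add, Polynomial.map_add, e₁, e₂]
    · rw [map_add, map_add, eval₂_add, f₁, f₂]
      ring
  | monomial n b =>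
    obtain ⟨a, ha, h1⟩ := D.taylor b b.2
    have ht := D.circle.t_ne
    have hb : b = D.incl ⟨a, ha⟩ + ⟨t, D.circle.t_mem⟩ * ⟨((b : E) - algebraMap K E a) * t⁻¹, h1⟩ := by
      apply Subtype.ext
      show (b : E) = algebraMap K E a + t * (((b : E) - algebraMap K E a) * t⁻¹)
      field_simp
      ring
    have hev : ev b = res ⟨a, ha⟩ := by
      conv_lhs => rw [hb]
      rw [map_add, map_mul, D.circle.ev_t, zero_mul, add_zero, D.ev_incl]
    refine ⟨monomial n ⟨a, ha⟩, monomial n ⟨((b : E) - algebraMap K E a) * t⁻¹, h1⟩, ?_, ?_⟩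
    · rw [Polynomial.map_monomial, Polynomial.map_monomial, hev]
    · show eval₂ B.subtype (t * (algebraMap K E π)⁻¹) (monomial n b) = _ +
        t * eval₂ B.subtype (t * (algebraMap K E π)⁻¹) (monomial n _)
      rw [eval₂_monomial, eval₂_monomial, eval₂_monomial]
      show (b : E) * _ = algebraMap K E a * _ + t * ((((b : E) - algebraMap K E a) * t⁻¹) * _)
      field_simp
      ring

/-- `G_A (W) ≠ 0` for `G_A ∈ A[X]` of non-zero reduction. -/
theorem unq_eval_ne_zero (D : DiscData A res O B π t ev) {GA : A[X]} (hG : GA.map res ≠ 0) :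
    eval₂ ((algebraMap K E).comp A.subtype) (t * (algebraMap K E π)⁻¹) GA ≠ 0 := by
  rw [← D.evalHom_map_incl]
  apply D.evalHom_ne_zero
  rw [Polynomial.map_map]
  have : ev.comp D.incl = res := RingHom.ext fun a => D.ev_incl a
  rw [this]
  exact hG

/-- **`G (ι W)` is a unit of `O'`** for every `G ∈ B[X]` of non-zero reduction. -/
theorem unq_unit (D : DiscData A res O B π t ev) (h : UniqData A res B π t ι O')
    (G : (↥B)[X]) (hG : G.map ev ≠ 0) :
    ι (CircleData.evalHom B (algebraMap K E π) t G) ∈ O' ∧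
      (ι (CircleData.evalHom B (algebraMap K E π) t G))⁻¹ ∈ O' := by
  obtain ⟨GA, G', e, f⟩ := D.unq_split G
  have hGA : GA.map res ≠ 0 := by rw [e]; exact hG
  have hx0 : ι (eval₂ ((algebraMap K E).comp A.subtype) (t * (algebraMap K E π)⁻¹) GA) ≠ 0 :=
    (map_ne_zero_iff ι ι.injective).mpr (D.unq_eval_ne_zero hGA)
  have hx : ι (eval₂ ((algebraMap K E).comp A.subtype) (t * (algebraMap K E π)⁻¹) GA) ∈ O' := by
    rw [← D.evalHom_map_incl]
    exact h.evalHom_mem _
  have hy : ι (t * CircleData.evalHom B (algebraMap K E π) t G') ∈ O'.nonunits := by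
    rw [map_mul]
    exact unq_mul_mem_nonunits (D.unq_t_mem_nonunits h) (h.evalHom_mem G')
  have := unq_inv_add_mem hx0 hx (h.tr GA hGA) hy
  rw [f, map_add]
  exact this

/-- **the restriction of `O'` to `E` is a disc valuation ring.** -/
theorem unq_isDiscVal (D : DiscData A res O B π t ev) (h : UniqData A res B π t ι O') :
    IsDiscVal A B π t ev (O'.comap ι) where
  mem_iff := fun c => by
    rw [ValuationSubring.mem_comap]
    exact h.mem_iff c
  unit := fun G hG => by
    obtain ⟨h1, h2⟩ := D.unq_unit h G hG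
    refine ⟨h1, ?_⟩
    show ι (CircleData.evalHom B (algebraMap K E π) t G)⁻¹ ∈ O'
    rw [map_inv₀]
    exact h2

/-- **UNIQ, first half**: the restriction of `O'` to `E` IS the disc valuation ring `V`. -/
theorem unq_comap_eq (D : DiscData A res O B π t ev) {V : ValuationSubring E}
    (hV : IsDiscVal A B π t ev V) (h : UniqData A res B π t ι O') : O'.comap ι = V :=
  D.isDiscVal_unique (D.unq_isDiscVal h) hV

/-- **UNIQ (uniqueness export)**: if `Ow` is the unique valuation ring of `F` over the disc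
valuation ring `V` (CORE-COVER), then every `O'` with `UniqData` is `Ow`. -/
theorem unq_eq_of_unique (D : DiscData A res O B π t ev) {V : ValuationSubring E}
    (hV : IsDiscVal A B π t ev V) {Ow : ValuationSubring F}
    (huniq : ∀ O'' : ValuationSubring F, O''.comap ι = V → O'' = Ow)
    (h : UniqData A res B π t ι O') : O' = Ow :=
  huniq O' (D.unq_comap_eq hV h)

/-- `ι b`, `b ∈ B`, is a non-unit of `O'` iff `b` vanishes at the centre: the residue of `ι b` is
the constant `ev b`. -/
theorem unq_nonunits_iff (D : DiscData A res O B π t ev) (h : UniqData A res B π t ι O')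
    (b : B) : ι (b : E) ∈ O'.nonunits ↔ ev b = 0 := by
  have h1 := D.isDiscVal_nonunits_iff (D.unq_isDiscVal h) (C b)
  rw [CircleData.evalHom_C, Polynomial.map_C, Polynomial.C_eq_zero] at h1
  rw [← h1, ValuationSubring.mem_nonunits_iff_or, ValuationSubring.mem_nonunits_iff_or,
    ValuationSubring.mem_comap, map_inv₀, map_eq_zero]

end DiscData

/-! ### the form with `Algebra E F` and `LiesOverV` -/

section Alg

open Fermat.Agent.BadRed

variable [Algebra E F]
variable {A : ValuationSubring K} {res : A →+* k} {O B : Subring E} {π : K} {t : E}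
  {ev : B →+* k} {O' : ValuationSubring F}

/-- `O'` lies over the disc valuation ring. -/
theorem DiscData.unq_liesOverV (D : DiscData A res O B π t ev) {V : ValuationSubring E}
    (hV : IsDiscVal A B π t ev V) (h : UniqData A res B π t (algebraMap E F) O') :
    LiesOverV V O' :=
  D.unq_comap_eq hV h

/-- **UNIQ (uniqueness export), `LiesOverV` form.** -/
theorem DiscData.unq_eq_of_liesOverV (D : DiscData A res O B π t ev) {V : ValuationSubring E}
    (hV : IsDiscVal A B π t ev V) {Ow : ValuationSubring F}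
    (huniq : ∀ O'' : ValuationSubring F, LiesOverV V O'' → O'' = Ow)
    (h : UniqData A res B π t (algebraMap E F) O') : O' = Ow :=
  huniq O' (D.unq_liesOverV hV h)

end Alg

/-! ### how to check the transcendence hypothesis -/

section Check

variable {A : ValuationSubring K} {res : A →+* k} {O B : Subring E} {π : K} {t : E}
  {ev : B →+* k} {ι : E →+* F} {O' : ValuationSubring F}

/-- `G (ι W) ∈ O'` for `G ∈ A[X]`. -/
theorem unq_evalA_mem (hA : ∀ c : K, c ∈ A → ι (algebraMap K E c) ∈ O')
    (hY : ι (t * (algebraMap K E π)⁻¹) ∈ O') (G : A[X]) :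
    ι (eval₂ ((algebraMap K E).comp A.subtype) (t * (algebraMap K E π)⁻¹) G) ∈ O' := by
  rw [Polynomial.eval₂_eq_sum, Polynomial.sum, map_sum]
  refine Subring.sum_mem O'.toSubring fun i _ => ?_
  rw [map_mul, map_pow]
  exact mul_mem (hA _ (G.coeff i).2) (pow_mem hY _)

/-- the ring homomorphism `A[X] → O'`, `G ↦ G (ι W)`. -/
def unqEvalA (hA : ∀ c : K, c ∈ A → ι (algebraMap K E c) ∈ O')
    (hY : ι (t * (algebraMap K E π)⁻¹) ∈ O') : A[X] →+* O' :=
  ((ι.comp (Polynomial.eval₂RingHom ((algebraMap K E).comp A.subtype)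
    (t * (algebraMap K E π)⁻¹)))).codRestrict O' (fun G => unq_evalA_mem hA hY G)

theorem coe_unqEvalA (hA : ∀ c : K, c ∈ A → ι (algebraMap K E c) ∈ O')
    (hY : ι (t * (algebraMap K E π)⁻¹) ∈ O') (G : A[X]) :
    ((unqEvalA hA hY G : O') : F) =
      ι (eval₂ ((algebraMap K E).comp A.subtype) (t * (algebraMap K E π)⁻¹) G) := rfl

/-- **the transcendence hypothesis from a residue map**: `ρ : O' → Fk` with kernel the non-units,
`φ : k → Fk` compatible with `res`, and `ρ (ι W)` transcendental over `k` (no non-zero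
polynomial over `k` vanishes at it). -/
theorem UniqData.of_residue {Fk : Type*} [Field Fk] (ρ : O' →+* Fk)
    (hρ : ∀ x : O', ρ x = 0 ↔ ¬ IsUnit x) (φ : k →+* Fk)
    (hA : ∀ c : K, ι (algebraMap K E c) ∈ O' ↔ c ∈ A)
    (hB : ∀ b ∈ B, ι b ∈ O')
    (hY : ι (t * (algebraMap K E π)⁻¹) ∈ O')
    (hφ : ∀ a : A, ρ ⟨ι (algebraMap K E a), (hA a).mpr a.2⟩ = φ (res a))
    (htr : ∀ p : k[X], p ≠ 0 → eval₂ φ (ρ ⟨ι (t * (algebraMap K E π)⁻¹), hY⟩) p ≠ 0) :
    UniqData A res B π t ι O' where
  mem_iff := hA
  B_mem := hB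
  Y_mem := hY
  tr := fun G hG => by
    have hA' : ∀ c : K, c ∈ A → ι (algebraMap K E c) ∈ O' := fun c hc => (hA c).mpr hc
    have key : ρ.comp (unqEvalA (π := π) (t := t) hA' hY) =
        (Polynomial.eval₂RingHom φ (ρ ⟨ι (t * (algebraMap K E π)⁻¹), hY⟩)).comp
          (Polynomial.mapRingHom res) := by
      apply Polynomial.ringHom_ext
      · intro a
        have e1 : unqEvalA (π := π) (t := t) hA' hY (C a) =
            ⟨ι (algebraMap K E a), hA' a a.2⟩ := by
          apply Subtype.ext
          rw [coe_unqEvalA, eval₂_C]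
          rfl
        simp only [RingHom.comp_apply, e1, hφ, Polynomial.coe_mapRingHom, Polynomial.map_C,
          Polynomial.coe_eval₂RingHom, eval₂_C]
      · have e1 : unqEvalA (π := π) (t := t) hA' hY X =
            ⟨ι (t * (algebraMap K E π)⁻¹), hY⟩ := by
          apply Subtype.ext
          rw [coe_unqEvalA, eval₂_X]
        simp only [RingHom.comp_apply, e1, Polynomial.coe_mapRingHom, Polynomial.map_X,
          Polynomial.coe_eval₂RingHom, eval₂_X]
    have h1 : ρ (unqEvalA (π := π) (t := t) hA' hY G) ≠ 0 := by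
      have := congrArg (fun f => f G) key
      simp only [RingHom.comp_apply, Polynomial.coe_mapRingHom,
        Polynomial.coe_eval₂RingHom] at this
      rw [this]
      exact htr _ hG
    have hunit : IsUnit (unqEvalA (π := π) (t := t) hA' hY G) := by
      by_contra hnu
      exact h1 ((hρ _).mpr hnu)
    obtain ⟨u, hu⟩ := hunit
    have h2 : (((u⁻¹ : O'ˣ) : O') : F) * ((unqEvalA (π := π) (t := t) hA' hY G : O') : F) = 1 := by
      have h0 : ((u⁻¹ : O'ˣ) : O') * unqEvalA (π := π) (t := t) hA' hY G = 1 := by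
        rw [← hu]
        exact u.inv_mul
      exact congrArg Subtype.val h0
    rw [coe_unqEvalA] at h2
    rw [← eq_inv_of_mul_eq_one_left h2]
    exact (u⁻¹ : O'ˣ).1.2

end Check

end Fermat.Agent.HPVal
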