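/-
Cluster G (S36), block W-P, seat UNIQ part 3 (helper65): the transcendence hypothesis of the
uniqueness export for an ALGEBRAICALLY CLOSED residue field of constants.

`D : DiscData A res O B π t ev` on `E`, `W = t / π`, `ι : E →+* F`, `O'` a valuation ring of `F`.
If `k` is algebraically closed and `res : A → k` is onto, the hypothesis `tr` of `UniqData`
("`G (ι W)` is a unit of `O'` for every `G ∈ A[X]` of non-zero reduction") follows from

  `ι W - a` is a unit of `O'` for every constant `a ∈ A`

(the residue of `ι W` is not a constant).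

* `unq_evalA_mem_nonunits` : `G (ι W)` is a non-unit of `O'` for `G ∈ A[X]` of reduction `0`;
* `UniqData.of_sub_const`  : the export.
-/
import Mathlib
import Fermat.Agent.Lib.BadRed.HPVal.Uniq

set_option autoImplicit false
set_option linter.unusedSectionVars false
set_option linter.style.haveILetI false

noncomputable section

open Polynomial

namespace Fermat.Agent.HPVal

variable {K E F k : Type*} [Field K] [Field E] [Algebra K E] [Field F] [Field k]
  {A : ValuationSubring K} {res : A →+* k} {O B : Subring E} {π : K} {t : E}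
  {ev : B →+* k} {ι : E →+* F} {O' : ValuationSubring F}

/-- a non-unit constant is a non-unit of `O'`. -/
theorem unq_const_mem_nonunits (hA : ∀ c : K, ι (algebraMap K E c) ∈ O' ↔ c ∈ A) {c : K}
    (hc : c ∈ A) (hc' : ¬ IsUnit (⟨c, hc⟩ : A)) : ι (algebraMap K E c) ∈ O'.nonunits := by
  rw [ValuationSubring.mem_nonunits_iff_or]
  rcases eq_or_ne c 0 with rfl | hc0
  · left
    rw [map_zero, map_zero]
  · right
    rw [← map_inv₀, ← map_inv₀, hA]
    intro hinv
    apply hc'
    refine ⟨⟨⟨c, hc⟩, ⟨c⁻¹, hinv⟩, ?_, ?_⟩, rfl⟩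
    · exact Subtype.ext (mul_inv_cancel₀ hc0)
    · exact Subtype.ext (inv_mul_cancel₀ hc0)

/-- a unit constant is a unit of `O'`. -/
theorem unq_const_inv_mem (hA : ∀ c : K, ι (algebraMap K E c) ∈ O' ↔ c ∈ A) {c : K}
    (hc : c ∈ A) (hc' : IsUnit (⟨c, hc⟩ : A)) : (ι (algebraMap K E c))⁻¹ ∈ O' := by
  obtain ⟨u, hu⟩ := hc'
  have h1 : (((u⁻¹ : Aˣ) : A) : K) * c = 1 := by
    have h2 : ((u⁻¹ : Aˣ) : A) * ⟨c, hc⟩ = 1 := by
      rw [← hu]
      exact u.inv_mul
    exact congrArg Subtype.val h2
  rw [← map_inv₀, ← map_inv₀, hA, ← eq_inv_of_mul_eq_one_left h1]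
  exact (u⁻¹ : Aˣ).1.2

/-- `G (ι W)` is a non-unit of `O'` for `G ∈ A[X]` of reduction `0`. -/
theorem unq_evalA_mem_nonunits (hres0 : ∀ a : A, res a = 0 ↔ ¬ IsUnit a)
    (hA : ∀ c : K, ι (algebraMap K E c) ∈ O' ↔ c ∈ A)
    (hY : ι (t * (algebraMap K E π)⁻¹) ∈ O') (G : A[X]) (hG : G.map res = 0) :
    ι (eval₂ ((algebraMap K E).comp A.subtype) (t * (algebraMap K E π)⁻¹) G) ∈ O'.nonunits := by
  rw [O'.mem_nonunits_iff, Polynomial.eval₂_eq_sum, Polynomial.sum, map_sum]
  apply Valuation.map_sum_lt _ one_ne_zero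
  intro i _
  rw [← O'.mem_nonunits_iff, map_mul, map_pow]
  refine unq_mul_mem_nonunits ?_ (pow_mem hY _)
  have h0 : res (G.coeff i) = 0 := by
    have := congrArg (fun p => p.coeff i) hG
    simpa only [Polynomial.coeff_map, Polynomial.coeff_zero] using this
  exact unq_const_mem_nonunits hA (G.coeff i).2 ((hres0 _).mp h0)

/-- a product of units of `O'` is a unit of `O'`. -/
theorem unq_multiset_prod_unit (s : Multiset F) (h : ∀ x ∈ s, x ∈ O' ∧ x⁻¹ ∈ O') :
    s.prod ∈ O' ∧ (s.prod)⁻¹ ∈ O' := by
  induction s using Multiset.induction_on with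
  | empty =>
    rw [Multiset.prod_zero, inv_one]
    exact ⟨one_mem _, one_mem _⟩
  | cons a s ih =>
    have ha := h a (Multiset.mem_cons_self a s)
    have hs := ih fun x hx => h x (Multiset.mem_cons_of_mem hx)
    rw [Multiset.prod_cons, mul_inv]
    exact ⟨mul_mem ha.1 hs.1, mul_mem ha.2 hs.2⟩

/-- **the transcendence hypothesis for `k` algebraically closed**: it is enough that `ι W - a` is
a unit of `O'` for every constant `a ∈ A`. -/
theorem UniqData.of_sub_const [IsAlgClosed k] (D : DiscData A res O B π t ev)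
    (hres : Function.Surjective res)
    (hA : ∀ c : K, ι (algebraMap K E c) ∈ O' ↔ c ∈ A)
    (hB : ∀ b ∈ B, ι b ∈ O')
    (hY : ι (t * (algebraMap K E π)⁻¹) ∈ O')
    (hsub : ∀ a : K, a ∈ A → (ι (t * (algebraMap K E π)⁻¹ - algebraMap K E a))⁻¹ ∈ O') :
    UniqData A res B π t ι O' where
  mem_iff := hA
  B_mem := hB
  Y_mem := hY
  tr := fun G hG => by
    classical
    have hA' : ∀ c : K, c ∈ A → ι (algebraMap K E c) ∈ O' := fun c hc => (hA c).mpr hc
    choose lift hlift using hres
    -- the lifted split form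
    set Gb : k[X] := G.map res with hGb
    have hsplit : Gb = C Gb.leadingCoeff * (Gb.roots.map (fun r => X - C r)).prod :=
      (IsAlgClosed.splits Gb).eq_prod_roots
    set G₁ : A[X] := C (lift Gb.leadingCoeff) *
      (Gb.roots.map (fun r => X - C (lift r))).prod with hG₁
    have hG₁map : G₁.map res = Gb := by
      rw [hG₁, Polynomial.map_mul, Polynomial.map_C, hlift, Polynomial.map_multiset_prod,
        Multiset.map_map]
      conv_rhs => rw [hsplit]
      congr 2
      refine Multiset.map_congr rfl fun r _ => ?_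
      simp only [Function.comp_apply, Polynomial.map_sub, Polynomial.map_X, Polynomial.map_C,
        hlift]
    have hG₁ne : G₁.map res ≠ 0 := by rw [hG₁map]; exact hG
    -- the evaluation homomorphism
    set φ : A[X] →+* F := ι.comp (Polynomial.eval₂RingHom ((algebraMap K E).comp A.subtype)
      (t * (algebraMap K E π)⁻¹)) with hφ
    have hφe : ∀ P : A[X], φ P =
        ι (eval₂ ((algebraMap K E).comp A.subtype) (t * (algebraMap K E π)⁻¹) P) := fun _ => rfl
    -- `φ G₁` is a unit
    have hlc : IsUnit (lift Gb.leadingCoeff) := by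
      by_contra hnu
      have h0 : res (lift Gb.leadingCoeff) = 0 := (D.res_eq_zero_iff _).mpr hnu
      rw [hlift] at h0
      exact hG (Polynomial.leadingCoeff_eq_zero.mp h0)
    have hprod : φ G₁ ∈ O' ∧ (φ G₁)⁻¹ ∈ O' := by
      rw [hG₁, map_mul, map_multiset_prod, Multiset.map_map, mul_inv]
      have h1 : φ (C (lift Gb.leadingCoeff)) = ι (algebraMap K E (lift Gb.leadingCoeff : K)) := by
        rw [hφe, eval₂_C]
        rfl
      have h2 := unq_multiset_prod_unit (O' := O')
        (Gb.roots.map (φ ∘ fun r => X - C (lift r))) (by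
          intro x hx
          obtain ⟨r, -, rfl⟩ := Multiset.mem_map.mp hx
          have e : (φ ∘ fun r => X - C (lift r)) r =
              ι (t * (algebraMap K E π)⁻¹ - algebraMap K E (lift r : K)) := by
            simp only [Function.comp_apply, hφe, eval₂_sub, eval₂_X, eval₂_C]
            rfl
          rw [e]
          refine ⟨?_, hsub _ (lift r).2⟩
          rw [map_sub]
          exact sub_mem hY (hA' _ (lift r).2))
      rw [h1]
      exact ⟨mul_mem (hA' _ (lift Gb.leadingCoeff).2) h2.1,
        mul_mem (unq_const_inv_mem hA (lift Gb.leadingCoeff).2 hlc) h2.2⟩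
    have hne : φ G₁ ≠ 0 := by
      rw [hφe]
      exact (map_ne_zero_iff ι ι.injective).mpr (D.unq_eval_ne_zero hG₁ne)
    -- `φ (G - G₁)` is a non-unit
    have hdiff : φ (G - G₁) ∈ O'.nonunits := by
      rw [hφe]
      apply unq_evalA_mem_nonunits D.res_eq_zero_iff hA hY
      rw [Polynomial.map_sub, hG₁map, sub_self]
    have hfin := unq_inv_add_mem hne hprod.1 hprod.2 hdiff
    have e : φ G₁ + φ (G - G₁) = φ G := by
      rw [← map_add]
      congr 1
      ring
    rw [e, hφe] at hfin
    exact hfin.2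

end Fermat.Agent.HPVal
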