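/-
Cluster G (S36), block W-P, seat UNIQ part 2 (helper65): the uniqueness export combined with
CORE-COVER (`ccov_unique`, helper75).

`D : DiscData A res O B π t ev` on `E`, `V` the disc valuation ring, `E ⊆ F` finite, `Ow` a
valuation ring of `F` over `V` with a residually independent family of `[F : E]` elements.  Then
every valuation ring `O'` of `F` with `UniqData` (it lies over `A`, contains the disc ring and
`W = t / π`, and the residue of `W` is transcendental) is EQUAL to `Ow`.

* `DiscData.unq_exists_seq`   : constants with pairwise distinct residues (`k` infinite);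
* `DiscData.unq_eq_of_cover`  : `O' = Ow`, with an explicit sequence of constants;
* `DiscData.unq_eq_of_cover'` : `O' = Ow`, for `k` infinite and `res` onto.
-/
import Mathlib
import Fermat.Agent.Lib.BadRed.HPVal.Uniq
import Fermat.Agent.Lib.BadRed.HPVal.CoreCover

set_option autoImplicit false
set_option linter.unusedSectionVars false
set_option linter.style.haveILetI false

noncomputable section

open Polynomial

namespace Fermat.Agent.HPVal

open Fermat.Agent.BadRed

variable {K E F k : Type*} [Field K] [Field E] [Algebra K E] [Field F] [Algebra E F] [Field k]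
  {A : ValuationSubring K} {res : A →+* k} {O B : Subring E} {π : K} {t : E} {ev : B →+* k}

/-- **UNIQ + CORE-COVER**: `O' = Ow`. -/
theorem DiscData.unq_eq_of_cover [FiniteDimensional E F] (D : DiscData A res O B π t ev)
    {V : ValuationSubring E} (hV : IsDiscVal A B π t ev V) {Ow : ValuationSubring F}
    (hO : LiesOverV V Ow) {κ : Type*} [Fintype κ] {x : κ → F} (hx : ResIndep V Ow x)
    (hcard : Fintype.card κ = Module.finrank E F)
    (c : ℕ → E) (hc : ∀ m, c m ∈ V) (hcu : ∀ m m', m ≠ m' → c m - c m' ∉ V.nonunits)
    {O' : ValuationSubring F} (h : UniqData A res B π t (algebraMap E F) O') : O' = Ow :=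
  ccov_unique hO hx hcard c hc hcu (D.unq_liesOverV hV h)

/-- constants with pairwise distinct residues. -/
theorem DiscData.unq_exists_seq [Infinite k] (D : DiscData A res O B π t ev)
    (hres : Function.Surjective res) {V : ValuationSubring E} (hV : IsDiscVal A B π t ev V) :
    ∃ c : ℕ → E, (∀ m, c m ∈ V) ∧ ∀ m m', m ≠ m' → c m - c m' ∉ V.nonunits := by
  classical
  choose lift hlift using hres
  let e : ℕ ↪ k := Infinite.natEmbedding k
  refine ⟨fun m => algebraMap K E (lift (e m) : K), fun m => (hV.mem_iff _).mpr (lift (e m)).2, ?_⟩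
  intro m m' hmm'
  have hne : res (lift (e m) - lift (e m')) ≠ 0 := by
    rw [map_sub, hlift, hlift, sub_ne_zero]
    exact fun h => hmm' (e.injective h)
  have hunit : IsUnit (lift (e m) - lift (e m')) := by
    by_contra hnu
    exact hne ((D.res_eq_zero_iff _).mpr hnu)
  obtain ⟨u, hu⟩ := hunit
  have h0 : ((lift (e m) - lift (e m') : A) : K) ≠ 0 := by
    intro h0
    apply hne
    have : lift (e m) - lift (e m') = 0 := Subtype.ext h0
    rw [this, map_zero]
  have hinv : ((lift (e m) - lift (e m') : A) : K)⁻¹ ∈ A := by
    have h1 : (((u⁻¹ : Aˣ) : A) : K) * ((lift (e m) - lift (e m') : A) : K) = 1 := by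
      have h2 : ((u⁻¹ : Aˣ) : A) * (lift (e m) - lift (e m')) = 1 := by
        rw [← hu]
        exact u.inv_mul
      exact congrArg Subtype.val h2
    rw [← eq_inv_of_mul_eq_one_left h1]
    exact (u⁻¹ : Aˣ).1.2
  rw [ValuationSubring.mem_nonunits_iff_or, not_or, not_not]
  have e1 : algebraMap K E (lift (e m) : K) - algebraMap K E (lift (e m') : K) =
      algebraMap K E ((lift (e m) - lift (e m') : A) : K) := by
    rw [← map_sub]
    rfl
  rw [e1]
  refine ⟨?_, ?_⟩
  · exact (map_ne_zero_iff _ (algebraMap K E).injective).mpr h0
  · rw [← map_inv₀, hV.mem_iff]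
    exact hinv

/-- **UNIQ + CORE-COVER**, for an infinite residue field of constants. -/
theorem DiscData.unq_eq_of_cover' [Infinite k] [FiniteDimensional E F]
    (D : DiscData A res O B π t ev) (hres : Function.Surjective res)
    {V : ValuationSubring E} (hV : IsDiscVal A B π t ev V) {Ow : ValuationSubring F}
    (hO : LiesOverV V Ow) {κ : Type*} [Fintype κ] {x : κ → F} (hx : ResIndep V Ow x)
    (hcard : Fintype.card κ = Module.finrank E F)
    {O' : ValuationSubring F} (h : UniqData A res B π t (algebraMap E F) O') : O' = Ow := by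
  obtain ⟨c, hc, hcu⟩ := D.unq_exists_seq hres hV
  exact D.unq_eq_of_cover hV hO hx hcard c hc hcu h

end Fermat.Agent.HPVal
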